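import Fermat.Agent.S34.CoreZX0
import Fermat.Agent.S35.PushKummer
import Fermat.Agent.S35.NormRedX0
import Fermat.Agent.S35.BaseChangeAlong
import Fermat.Agent.S44.Core.TubeCount

/-!
# PROJECT P (S44), `X₀` leaf of brick (f4): the local count at `X₀(M q)` from the norm to level `M`

`E = ℚ̄(X₀(M q))`, `A ∣ q`, `q ∤ M`, `H` Deuring's hypotheses at level `M`, `X : Inputs hA hqM H`
the first branch of main's nodal datum, `sp1 H P = placeMap H (P ∘ α)` the TOTAL specialisation
along `α`.  For every place `Q` of `κ = k(X₀(M))` (no goodness: nodes, cusps, ramified places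
included):

* `localCount` : `TubeCount.LocalCount (R1 X) (R2 X) {P | sp1 H P = Q} Q (Fr⁻¹ Q)`, i.e. for a
  two-sided unit `y` the number of zeros minus poles of `y` on the tube `{sp1 = Q}` is
  `ord_Q (red₁ y) + ord_{Fr⁻¹ Q} (red₂ y)`.

Proof: `div (N_α y) = α_* div y` (`S35/PushKummer.ord_norm`), `red_M (N_α y) = red₁ y * ψ⁻¹ (red₂ y)`
(`S35/NormRedX0.red_norm_alpha_of_isExt`), the TOTAL compatibility of the level-`M` datum
(`RedDatum.compat` of `redDatum H`) and `ord_v (ψ g) = ord_{Fr v} g` (`S34/FrobK.ord_psi`).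
-/

set_option autoImplicit false
set_option linter.unusedSectionVars false
set_option linter.style.haveILetI false
set_option linter.unusedVariables false
set_option synthInstance.maxHeartbeats 400000

noncomputable section

namespace Fermat.Agent.S44.X0.NodeCount

open AlgebraicCurve

/-! ### two lemmas on finitely supported functions -/

section Finsupp

variable {α β : Type*}

/-- the value of `mapDomain f D` at `Q` as a sum over any finite set of points of the fibre
containing the support in the fibre -/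
theorem mapDomain_apply_eq_sum (f : α → β) (D : α →₀ ℤ) (Q : β) (T : Finset α)
    (hT : ∀ P ∈ T, f P = Q) (hT' : ∀ P, f P = Q → D P ≠ 0 → P ∈ T) :
    Finsupp.mapDomain f D Q = ∑ P ∈ T, D P := by
  classical
  have h1 : Finsupp.mapDomain f D Q = ∑ P ∈ D.support, if f P = Q then D P else 0 := by
    rw [Finsupp.mapDomain, Finsupp.sum, Finsupp.finsetSum_apply]
    refine Finset.sum_congr rfl fun P _ => ?_
    rw [Finsupp.single_apply]
  rw [h1, ← Finset.sum_filter]
  have h2 : ∑ P ∈ T, D P = ∑ P ∈ T.filter (fun P => D P ≠ 0), D P := by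
    rw [Finset.sum_filter]
    refine Finset.sum_congr rfl fun P _ => ?_
    split_ifs with h
    · rfl
    · exact not_not.mp h
  rw [h2]
  refine Finset.sum_congr ?_ fun _ _ => rfl
  ext P
  simp only [Finset.mem_filter, Finsupp.mem_support_iff]
  exact ⟨fun ⟨h, hf⟩ => ⟨hT' P hf h, h⟩, fun ⟨hP, h⟩ => ⟨h, hT P hP⟩⟩

end Finsupp

section Push

variable {K : Type*} [Field K] {F F' : Type*} [Field F] [Field F'] [Algebra K F] [Algebra K F']
  [Algebra F F'] [IsScalarTower K F F'] [Algebra.IsIntegral F F']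

/-- the push-forward of divisors is `mapDomain` of the restriction of places when all inertia
degrees are one -/
theorem pushforward_eq_mapDomain (h1 : ∀ w : Place K F', w.inertiaDeg F = 1)
    (D : Divisor K F') :
    Divisor.pushforward F D = Finsupp.mapDomain (fun w : Place K F' => w.restrict F) D := by
  induction D using Finsupp.induction with
  | zero => simp
  | single_add w n D _ _ ih =>
    rw [map_add, Finsupp.mapDomain_add, ih, Divisor.pushforward_single, Finsupp.mapDomain_single,
      h1 w, Nat.cast_one, mul_one]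

end Push

/-! ### the local count at `X₀(M q)` -/

section X0

open ModularCurve IsLocalRing
open Fermat.Agent.S34.NodalDefs
open Fermat.Agent.S37.Deuring.Core Fermat.Agent.S37.Gauss.Datum
open Fermat.Agent.S34.CoreZX0Assembly
open Fermat.Agent.S34.Generic.RestrAlong Fermat.Agent.S34.Generic.SmoothRedOfGeneric
open Fermat.Agent.S34.Generic.FibAlphaX0 Fermat.Agent.S34.Generic.FibBetaX0
open Fermat.Agent.S34.WqGalois Fermat.Agent.S34.Z1X0 Fermat.Agent.S34.TwoGaussX0
open Fermat.Agent.S35.PushKummer Fermat.Agent.S35.DegeneracyHecke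
open Fermat.Agent.S44.Core.TubeCount

local notation "Kb" => AlgebraicClosure ℚ

attribute [local instance 2000] Fermat.Agent.S34.EulerX0.algResFk

/-- shortcut instances (all propositions) -/
local instance instPDBarNC (N : ℕ) [NeZero N] :
    HasPrincipalDivisors Kb ↥(modularFunctionFieldBar N) :=
  Fermat.Agent.S18.A.Instances.hasPrincipalDivisors_bar N

local instance instPDFkNC (A : ValuationSubring Kb) (N : ℕ) [NeZero N] :
    HasPrincipalDivisors (ResidueField ↥A) ↥(modularFunctionFieldFullC (ResidueField ↥A) N) :=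
  Fermat.Agent.S37.ReductionInputs.hasPrincipalDivisors_Fk A N

local instance instACkNC (A : ValuationSubring Kb) : IsAlgClosed (ResidueField ↥A) :=
  Fermat.Agent.S18.ResidueBasics.isAlgClosed_residueField A

local instance instNeZeroMulNC (M q : ℕ) [NeZero M] [NeZero q] : NeZero (M * q) :=
  ⟨Nat.mul_ne_zero (NeZero.ne M) (NeZero.ne q)⟩

variable {q : ℕ} [hq : Fact q.Prime] {M : ℕ} [NeZero M] {A : ValuationSubring Kb} [NeZero q]
variable {hA : A.LiesOverPrime q} {hqM : ¬ q ∣ M}
variable {gL gk : ℕ} {H : Hyp (gaussDatum M A hA hqM) gL gk}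
variable [CharP (ResidueField ↥A) q]

/-- `α_* D = mapDomain (P ↦ P ∘ α) D` -/
theorem push_alpha_eq_mapDomain (D : Divisor Kb ↥(modularFunctionFieldBar (M * q))) :
    push (heckeAlphaBar Kb M q) D =
      Finsupp.mapDomain (resAlong (heckeAlphaBar Kb M q) (isIntegral_alpha hqM)) D := by
  letI := algebraAlong (heckeAlphaBar Kb M q)
  haveI := isScalarTower_along (heckeAlphaBar Kb M q)
  haveI := isIntegral_along (heckeAlphaBar Kb M q) (isIntegral_alpha hqM)
  exact pushforward_eq_mapDomain
    (fun w => Fermat.Agent.S35.BaseChangeAlong.inertiaDeg_eq_one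
      (Fermat.Agent.S24.Degree.isFF M) (Fermat.Agent.S24.Degree.isFF (M * q)) w) D

attribute [local instance] algFE

set_option maxHeartbeats 1600000 in
/-- **The local count at `X₀(M q)`**, general form: `X : Inputs hA hqM H` any first branch whose
reduction is onto and satisfies `red₁ (β g) = φ (red g)`. -/
theorem localCount_of_inputs [PerfectField (ResidueField ↥A)] (X : Inputs hA hqM H)
    (hsurj : Function.Surjective X.B₁.red)
    (hredβ : ∀ g : (redDatum H).O,
      X.B₁.red ⟨heckeBetaBar Kb M q (g : ↥(modularFunctionFieldBar M)), X.β_mem g⟩ =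
        Fermat.Agent.S34.FrobK.phi (ResidueField ↥A) M q ((redDatum H).red g))
    (Q : Place (ResidueField ↥A) ↥(modularFunctionFieldFullC (ResidueField ↥A) M)) :
    LocalCount (R1 X).toBranch (R2 X).toBranch {P | sp1 H P = Q} Q
      ((Fermat.Agent.S34.FrobK.Fr (ResidueField ↥A) M q).symm Q) := by
  intro y φ1 φ2 h1 h2 hφ1 hφ2 T hT hT'
  obtain ⟨hy1, rfl⟩ := h1
  obtain ⟨hy2, rfl⟩ := h2
  have hy0 : y ≠ 0 := by
    rintro rfl
    apply hφ1
    have : (⟨0, hy1⟩ : (R1 X).O) = 0 := rfl
    rw [this, map_zero]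
  obtain ⟨D, hD, -⟩ := HasPrincipalDivisors.exists_divisor (K := Kb) y hy0
  -- the two extensions
  have hE1 : (setupX0 hA hqM).IsExt (setupX0 hA hqM).G₁ (R1 X).O := by
    rw [R1_O]; exact isExt_V1X0 hA hqM
  have hE2 : (setupX0 hA hqM).IsExt (setupX0 hA hqM).G₂ (R2 X).O := by
    rw [R2_O]; exact isExt_V2X0 hA hqM
  -- surjectivity of the second reduction
  have hs2 : Function.Surjective (R2 X).red := by
    intro φ
    obtain ⟨z, hz⟩ := hsurj φ
    have hmem : wq M q hq.out hqM (wq M q hq.out hqM (z : ↥(modularFunctionFieldBar (M * q)))) ∈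
        X.B₁.O := by rw [wq_wq]; exact z.2
    refine ⟨⟨wq M q hq.out hqM (z : ↥(modularFunctionFieldBar (M * q))), hmem⟩, ?_⟩
    rw [← hz]
    show X.B₁.red ⟨wq M q hq.out hqM (wq M q hq.out hqM _), hmem⟩ = X.B₁.red z
    congr 1
    exact Subtype.ext (wq_wq hq.out hqM _)
  obtain ⟨hn, hred⟩ := Fermat.Agent.S35.NormRedX0.red_norm_alpha_of_isExt hA hqM hE1 hE2
    (R1 X).red (R2 X).red
    (fun z => by
      rw [(R1 X).red_eq_zero_iff, ValuationSubring.coe_mem_nonunits_iff,
        IsLocalRing.mem_maximalIdeal, mem_nonunits_iff])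
    (fun z => by
      rw [(R2 X).red_eq_zero_iff, ValuationSubring.coe_mem_nonunits_iff,
        IsLocalRing.mem_maximalIdeal, mem_nonunits_iff])
    hsurj hs2
    (fun g h => X.red_α g)
    (fun g h => by
      have he : (⟨wq M q hq.out hqM (heckeAlphaBar Kb M q (g : ↥(modularFunctionFieldBar M))),
          h⟩ : X.B₁.O) = ⟨_, X.β_mem g⟩ := Subtype.ext (wq_alpha hq.out hqM _)
      show X.B₁.red ⟨wq M q hq.out hqM _, h⟩ = _
      rw [he]
      exact hredβ g)
    hy1 hy2
  -- the norm is a unit of the level-`M` Gauss ring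
  have hψ0 : (Fermat.Agent.S34.FrobK.psi (ResidueField ↥A) M q).symm ((R2 X).red ⟨y, hy2⟩) ≠ 0 :=
    (map_ne_zero_iff _ (Fermat.Agent.S34.FrobK.psi (ResidueField ↥A) M q).symm.injective).mpr hφ2
  have hredne : (redDatum H).red ⟨Algebra.norm ↥(modularFunctionFieldBar M) y, hn⟩ ≠ 0 := by
    have : (redDatum H).red ⟨Algebra.norm ↥(modularFunctionFieldBar M) y, hn⟩ =
        (R1 X).red ⟨y, hy1⟩ *
          (Fermat.Agent.S34.FrobK.psi (ResidueField ↥A) M q).symm ((R2 X).red ⟨y, hy2⟩) := hred
    rw [this]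
    exact mul_ne_zero hφ1 hψ0
  have hunit : IsUnit (⟨Algebra.norm ↥(modularFunctionFieldBar M) y, hn⟩ : (redDatum H).O) :=
    not_not.mp (mt ((redDatum H).red_eq_zero_iff _).mpr hredne)
  -- the total compatibility at level `M`
  have hcompat := (redDatum H).compat hunit.unit (push (heckeAlphaBar Kb M q) D)
    (fun P' => by
      rw [IsUnit.unit_spec]
      exact (ord_norm (heckeAlphaBar Kb M q) hy0 D hD P').symm) Q
  rw [IsUnit.unit_spec] at hcompat
  have hredu : (redDatum H).red ⟨Algebra.norm ↥(modularFunctionFieldBar M) y, hn⟩ =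
      (R1 X).red ⟨y, hy1⟩ *
        (Fermat.Agent.S34.FrobK.psi (ResidueField ↥A) M q).symm ((R2 X).red ⟨y, hy2⟩) := hred
  rw [hredu, Place.ord_mul Q hφ1 hψ0] at hcompat
  -- the left-hand side
  have hleft : Finsupp.mapDomain (placeMap H) (push (heckeAlphaBar Kb M q) D) Q =
      ∑ P ∈ T, P.ord y := by
    rw [push_alpha_eq_mapDomain (hqM := hqM), ← Finsupp.mapDomain_comp]
    have h1 := mapDomain_apply_eq_sum (sp1 H) D Q T (fun P hP => hT P hP)
      (fun P hP hne => hT' P hP (by rw [← hD]; exact hne))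
    have h2 : (placeMap H ∘ resAlong (heckeAlphaBar Kb M q) (isIntegral_alpha hqM)) = sp1 H := rfl
    rw [h2, h1]
    exact Finset.sum_congr rfl fun P _ => hD P
  -- the Frobenius twist
  have hFr : Q.ord ((Fermat.Agent.S34.FrobK.psi (ResidueField ↥A) M q).symm
      ((R2 X).red ⟨y, hy2⟩)) =
      ((Fermat.Agent.S34.FrobK.Fr (ResidueField ↥A) M q).symm Q).ord ((R2 X).red ⟨y, hy2⟩) := by
    have h := Fermat.Agent.S34.FrobK.ord_psi (ResidueField ↥A) M q
      ((Fermat.Agent.S34.FrobK.Fr (ResidueField ↥A) M q).symm Q)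
      ((Fermat.Agent.S34.FrobK.psi (ResidueField ↥A) M q).symm ((R2 X).red ⟨y, hy2⟩))
    rw [RingEquiv.apply_symm_apply, Equiv.apply_symm_apply] at h
    exact h.symm
  rw [← hleft, hcompat, hFr]

open Fermat.Agent.S34.CoreZX0OfGeneric Fermat.Agent.S34.Generic.BranchX0 in
/-- **The local count at `X₀(M q)`** for main's first branch `inputsX0 hgen`: at EVERY place `Q`
of `κ`, for a two-sided unit `y`, the number of zeros minus poles of `y` on the tube
`{P | sp1 H P = Q}` is `ord_Q (red₁ y) + ord_{Fr⁻¹ Q} (red₂ y)`. -/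
theorem localCount (hgen : GenericX0 hA hqM H)
    (Q : Place (ResidueField ↥A) ↥(modularFunctionFieldFullC (ResidueField ↥A) M)) :
    LocalCount (R1 (inputsX0 hgen)).toBranch (R2 (inputsX0 hgen)).toBranch {P | sp1 H P = Q} Q
      ((Fermat.Agent.S34.FrobK.Fr (ResidueField ↥A) M q).symm Q) :=
  haveI : PerfectField (ResidueField ↥A) := perfectField_residue (A := A)
  localCount_of_inputs (inputsX0 hgen) (Fermat.Agent.S34.GaussPairX0.red₁_surjective hA hqM)
    (fun g => hredβ hA hqM g) Q

open Fermat.Agent.S34.CoreZX0OfGeneric Fermat.Agent.S34.Generic.BranchX0 in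
/-- the local count at a node `b` (`Fr (Fr b) = b`): tube `{sp1 = Fr b}`, branches `Fr b`, `b` -/
theorem localCount_node (hgen : GenericX0 hA hqM H)
    (b : Place (ResidueField ↥A) ↥(modularFunctionFieldFullC (ResidueField ↥A) M)) :
    LocalCount (R1 (inputsX0 hgen)).toBranch (R2 (inputsX0 hgen)).toBranch
      {P | sp1 H P = Fermat.Agent.S34.FrobK.Fr (ResidueField ↥A) M q b}
      (Fermat.Agent.S34.FrobK.Fr (ResidueField ↥A) M q b) b := by
  have h := localCount hgen (Fermat.Agent.S34.FrobK.Fr (ResidueField ↥A) M q b)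
  rwa [Equiv.symm_apply_apply] at h

end X0

end Fermat.Agent.S44.X0.NodeCount
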