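/-
PROJECT P (S44), frame brick, part 2 (helper19): ONE CHART FRAME FOR ALL OF PROJECT P.

Every file of P is stated for an arbitrary `F : ChartFrame hA hpM` with hypotheses
`(Y : NodeHyp F) (hstd : RedStd F) (hstd2 : RedStd2 F) (hLC : HasLocalCount F Y)`; the top of the proof opens the frame ONCE,
with `exists_frame`, which returns the explicit frame of `Core/FrameHyp` together with

* the local node hypotheses `NodeHyp F` (total specialisation maps, `PcgCusp.Hyp`, tubes);
* the two standard reductions `S44.Eis.HeckeNode.RedStd F`, `RedStd2 F` (helper16's definitions: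
  `F.X.N.R_i.red` is the coefficientwise reduction of `q`-expansions `red_i` of
  `S34/GaussPairX0`), hence the surjectivity of the two reductions;
* helper15's local count `TubeCount.LocalCount` at EVERY place `Q` of the component (tube
  `{P | sp1 P = Q}`, branches `Q`, `Fr⁻¹ Q`) and at every node (tube `Y.tube e`, branches `e1 e`,
  `e2 e`).
-/
import Fermat.Agent.S44.Core.FrameHyp
import Fermat.Agent.S44.X0.NodeCount
import Fermat.Agent.S44.Eis.HeckeNode

set_option autoImplicit false
set_option linter.unusedSectionVars false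
set_option linter.unusedVariables false
set_option linter.style.haveILetI false
set_option synthInstance.maxHeartbeats 400000

noncomputable section

namespace Fermat.Agent.S44.X0.FrameAll

open ModularCurve AlgebraicCurve IsLocalRing
open Fermat.Agent.S34.NodalDefs Fermat.Agent.S34.CoreZX0Datum
open Fermat.Agent.S33.X0.Frame
open Fermat.Agent.S44.Core.FrameHyp Fermat.Agent.S44.Core.TubeCount
open Fermat.Agent.S44.Eis.HeckeNode

local notation "Qbar" => AlgebraicClosure ℚ

attribute [local instance 2000] Fermat.Agent.S34.EulerX0.algResFk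

/-- local instance: principal divisors on `E` -/
local instance instPDBar (N : ℕ) [NeZero N] :
    HasPrincipalDivisors Qbar ↥(modularFunctionFieldBar N) :=
  Fermat.Agent.S18.A.Instances.hasPrincipalDivisors_bar N

local instance instNeZeroMul (M q : ℕ) [NeZero M] [NeZero q] : NeZero (M * q) :=
  ⟨Nat.mul_ne_zero (NeZero.ne M) (NeZero.ne q)⟩

variable {p : ℕ} [hp : Fact p.Prime] {M : ℕ} [NeZero M] {A : ValuationSubring Qbar} [NeZero p]
variable {hA : A.LiesOverPrime p} {hpM : ¬ p ∣ M}

/-- helper15's local count at every place of the component, in the vocabulary of `NodeHyp` -/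
def HasLocalCount (F : ChartFrame hA hpM) (Y : NodeHyp F) : Prop :=
  ∀ Q : Place (ResidueField ↥A) ↥(modularFunctionFieldFullC (ResidueField ↥A) M),
    LocalCount F.X.N.R1.toBranch F.X.N.R2.toBranch {P | Y.sp1 P = Q} Q (Y.Fr.symm Q)

/-- the local count at a node, from the local count at every place -/
theorem HasLocalCount.node {F : ChartFrame hA hpM} {Y : NodeHyp F} (h : HasLocalCount F Y)
    (e : {b // b ∈ F.X.S}) :
    LocalCount F.X.N.R1.toBranch F.X.N.R2.toBranch (Y.tube e) (F.X.N.e1 e) (F.X.N.e2 e) := by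
  have h1 := h (F.X.N.e1 e)
  have h2 : Y.Fr.symm (F.X.N.e1 e) = F.X.N.e2 e := by
    rw [Y.e1_eq e, Y.e2_eq e, Equiv.symm_apply_apply]
  rw [h2] at h1
  exact h1

/-- the two reductions of a frame with standard reductions are surjective -/
theorem surjective_red1 {F : ChartFrame hA hpM} (h : RedStd F) :
    Function.Surjective F.X.N.R1.red := by
  intro φ
  obtain ⟨z, hz⟩ := Fermat.Agent.S34.GaussPairX0.red₁_surjective hA hpM φ
  have hmem : (z : ↥(modularFunctionFieldBar (M * p))) ∈ F.X.N.R1.O := by
    rw [F.X.O1_eq, Fermat.Agent.S34.GaussPairBridge.V1X0_eq]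
    exact z.2
  exact ⟨⟨z, hmem⟩, (h _ hmem z.2).trans hz⟩

theorem surjective_red2 {F : ChartFrame hA hpM} (h : Fermat.Agent.S44.Eis.HeckeNode.RedStd2 F) :
    Function.Surjective F.X.N.R2.red := by
  intro φ
  obtain ⟨z, hz⟩ := Fermat.Agent.S34.GaussPairX0.red₂_surjective hA hpM φ
  have hmem : (z : ↥(modularFunctionFieldBar (M * p))) ∈ F.X.N.R2.O := by
    rw [F.X.O2_eq, Fermat.Agent.S34.GaussPairBridge.V2X0_eq]
    exact z.2
  exact ⟨⟨z, hmem⟩, (h _ hmem z.2).trans hz⟩

/-- the local count in helper15's node shape, at EVERY place `b` of the component: tube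
`{P | sp1 P = Fr b}`, branches `Fr b`, `b` -/
theorem HasLocalCount.at_fr {F : ChartFrame hA hpM} {Y : NodeHyp F} (h : HasLocalCount F Y)
    (b : Place (ResidueField ↥A) ↥(modularFunctionFieldFullC (ResidueField ↥A) M)) :
    LocalCount F.X.N.R1.toBranch F.X.N.R2.toBranch {P | Y.sp1 P = Y.Fr b} (Y.Fr b) b := by
  have h1 := h (Y.Fr b)
  rwa [Equiv.symm_apply_apply] at h1

set_option maxHeartbeats 1600000 in
/-- **ONE chart frame for all of project P** (ruling P-2 (2)). -/
theorem exists_frame (hA : A.LiesOverPrime p) (hpM : ¬ p ∣ M) :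
    ∃ (F : ChartFrame hA hpM) (Y : NodeHyp F), RedStd F ∧
      Fermat.Agent.S44.Eis.HeckeNode.RedStd2 F ∧ HasLocalCount F Y := by
  haveI : CharP (ResidueField ↥A) p := Fermat.Agent.S18.ResidueBasics.charP_residueField A hA
  obtain ⟨gM, HM, hgen, Y, hY, hFF⟩ := exists_frameData hA hpM
  refine ⟨frameOf HM hgen Y hY, nodeHypOf HM hgen Y hY hFF, redStd1_frameOf, redStd2_frameOf,
    fun Q => ?_⟩
  exact Fermat.Agent.S44.X0.NodeCount.localCount hgen Q

/-- **ONE chart frame for all of project P**, in the literal of ruling P-2 (2): the local node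
hypotheses, the two standard reductions and helper15's local count at every place. -/
theorem exists_nodeHyp' (hA : A.LiesOverPrime p) (hpM : ¬ p ∣ M) :
    ∃ (F : ChartFrame hA hpM) (Y : NodeHyp F), RedStd F ∧
      Fermat.Agent.S44.Eis.HeckeNode.RedStd2 F ∧
      ∀ b : Place (ResidueField ↥A) ↥(modularFunctionFieldFullC (ResidueField ↥A) M),
        LocalCount F.X.N.R1.toBranch F.X.N.R2.toBranch {P | Y.sp1 P = Y.Fr b} (Y.Fr b) b := by
  obtain ⟨F, Y, h1, h2, h3⟩ := exists_frame hA hpM
  exact ⟨F, Y, h1, h2, fun b => h3.at_fr b⟩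

end Fermat.Agent.S44.X0.FrameAll
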