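/-
PROJECT P (S44), X0/NodeFrameDef (helper6): THE NODE FRAME OF A CHART FRAME (definition only, no
instance): node coordinates `ξ e`, `ζ e` with `ξ e * ζ e = p ^ w e` at every node `e`, fixed by the
inertia group.

* `thickPow A p w : A` : the constant `p ^ w`;
* `NodeFrame F Y` : the bundle `(w, ξ, ζ)` with `IsNodeCoord` (`Core/NodeFrame`) at every node;
* `NodeFrame.ord_one`, `.ord_eq_zero`, `.val_two` : the per-node interface of the Eisenstein part
  (`red₁ (ξ e)` is a uniformiser at `e1 e`, `ξ e` has neither zero nor pole on the tube,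
  `V₂ (ξ e) = V₂ (p ^ w e)`);
* `NodeFrame.fixed_ζ` : `ζ e` is fixed by the inertia group as well.
-/
import Fermat.Agent.S44.Core.NodeFrame
import Fermat.Agent.S44.X0.FrameAll

set_option autoImplicit false
set_option linter.unusedSectionVars false
set_option linter.unusedVariables false
set_option linter.style.haveILetI false
set_option synthInstance.maxHeartbeats 400000

noncomputable section

namespace Fermat.Agent.S44.X0.NodeFrameDef

open ModularCurve AlgebraicCurve IsLocalRing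
open Fermat.Agent.S34.NodalDefs Fermat.Agent.S34.CoreZX0Datum
open Fermat.Agent.S33.X0.Frame
open Fermat.Agent.S44.Core.FrameHyp Fermat.Agent.S44.Core.TubeCount
open Fermat.Agent.S44.Core.Break Fermat.Agent.S44.Core.NodeFrame

local notation "Qbar" => AlgebraicClosure ℚ

attribute [local instance 2000] Fermat.Agent.S34.EulerX0.algResFk

local instance instNeZeroMul (M q : ℕ) [NeZero M] [NeZero q] : NeZero (M * q) :=
  ⟨Nat.mul_ne_zero (NeZero.ne M) (NeZero.ne q)⟩

variable {p : ℕ} [hp : Fact p.Prime] {M : ℕ} [NeZero M] {A : ValuationSubring Qbar} [NeZero p]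
variable {hA : A.LiesOverPrime p} {hpM : ¬ p ∣ M}

/-- the constant `p ^ w` of `A` -/
def thickPow (A : ValuationSubring Qbar) (p w : ℕ) : A := ((p : ℕ) : A) ^ w

theorem coe_thickPow (A : ValuationSubring Qbar) (p w : ℕ) :
    ((thickPow A p w : A) : Qbar) = (p : Qbar) ^ w := by
  rw [thickPow]
  push_cast
  rfl

/-- **The node frame**: node coordinates at every node of the chart frame. -/
structure NodeFrame (F : ChartFrame hA hpM) (Y : NodeHyp F) where
  /-- the thickness exponent of the node -/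
  w : {b // b ∈ F.X.S} → ℕ
  /-- the first coordinate -/
  ξ : {b // b ∈ F.X.S} → ↥(modularFunctionFieldBar (M * p))
  /-- the second coordinate -/
  ζ : {b // b ∈ F.X.S} → ↥(modularFunctionFieldBar (M * p))
  w_pos : ∀ e, 1 ≤ w e
  coord : ∀ e, IsNodeCoord F.X.N.R1.toBranch F.X.N.R2.toBranch (F.X.N.e1 e) (F.X.N.e2 e)
    (Y.tube e) (ξ e) (ζ e) (thickPow A p (w e))
  fixed : ∀ e, ∀ σ ∈ A.inertiaSubgroupIn ℚ,
    arithmeticGalois (modularFunctionFieldFull (M * p)) σ • ξ e = ξ e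

namespace NodeFrame

variable {F : ChartFrame hA hpM} {Y : NodeHyp F} (NF : NodeFrame F Y)

/-- `red₁ (ξ e)` is a uniformiser at `e1 e` -/
theorem ord_one (e : {b // b ∈ F.X.S}) :
    ∃ h : NF.ξ e ∈ F.X.N.R1.O, (F.X.N.e1 e).ord (F.X.N.R1.red ⟨NF.ξ e, h⟩) = 1 :=
  (NF.coord e).ord1

/-- `red₂ (ζ e)` is a uniformiser at `e2 e` -/
theorem ord_two (e : {b // b ∈ F.X.S}) :
    ∃ h : NF.ζ e ∈ F.X.N.R2.O, (F.X.N.e2 e).ord (F.X.N.R2.red ⟨NF.ζ e, h⟩) = 1 :=
  (NF.coord e).ord2

/-- `ξ e` has neither zero nor pole on the tube of `e` -/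
theorem ord_eq_zero (e : {b // b ∈ F.X.S}) : ∀ P ∈ Y.tube e, P.ord (NF.ξ e) = 0 :=
  (NF.coord e).ord_eq_zero

/-- `ξ e * ζ e = p ^ w e` -/
theorem mul_eq (e : {b // b ∈ F.X.S}) :
    NF.ξ e * NF.ζ e = ((p : ℕ) : ↥(modularFunctionFieldBar (M * p))) ^ NF.w e := by
  rw [(NF.coord e).mul, coe_thickPow, map_pow, map_natCast]

/-- the second Gauss valuation of `ξ e` is that of `p ^ w e` -/
theorem val_two (e : {b // b ∈ F.X.S}) :
    F.X.N.R2.O.valuation (NF.ξ e) =
      F.X.N.R2.O.valuation (((p : ℕ) : ↥(modularFunctionFieldBar (M * p))) ^ NF.w e) := by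
  have h := (NF.coord e).val_two
  rw [coe_thickPow, map_pow, map_natCast] at h
  exact h

/-- `ζ e` is fixed by the inertia group -/
theorem fixed_ζ (e : {b // b ∈ F.X.S}) (σ : Qbar ≃ₐ[ℚ] Qbar) (hσ : σ ∈ A.inertiaSubgroupIn ℚ) :
    arithmeticGalois (modularFunctionFieldFull (M * p)) σ • NF.ζ e = NF.ζ e := by
  have hξ0 : NF.ξ e ≠ 0 := (NF.coord e).ξ_ne
  have h1 : NF.ζ e = ((p : ℕ) : ↥(modularFunctionFieldBar (M * p))) ^ NF.w e * (NF.ξ e)⁻¹ := by
    have h := NF.mul_eq e
    rw [eq_mul_inv_iff_mul_eq₀ hξ0]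
    exact (mul_comm (NF.ζ e) (NF.ξ e)).trans h
  have h2 : arithmeticGalois (modularFunctionFieldFull (M * p)) σ •
      (((p : ℕ) : ↥(modularFunctionFieldBar (M * p)))) =
      ((p : ℕ) : ↥(modularFunctionFieldBar (M * p))) :=
    map_natCast (MulSemiringAction.toRingHom _ ↥(modularFunctionFieldBar (M * p))
      (arithmeticGalois (modularFunctionFieldFull (M * p)) σ)) p
  have h3 : arithmeticGalois (modularFunctionFieldFull (M * p)) σ • NF.ζ e =
      ((p : ℕ) : ↥(modularFunctionFieldBar (M * p))) ^ NF.w e * (NF.ξ e)⁻¹ := by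
    conv_lhs => rw [h1]
    rw [smul_mul', smul_pow', smul_inv'', NF.fixed e σ hσ, h2]
  rw [h3, ← h1]

end NodeFrame

end Fermat.Agent.S44.X0.NodeFrameDef
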