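import Mathlib
import Fermat.Agent.S36.PairLiftK0
import Fermat.Agent.S34.Generic.InertiaSp

/-!
# PROJECT P (S44), brick [S1], the rationalisation step: `K0`-rational lifts of pairs of reductions
# with pole control on an inertia-stable set of places

`A` a valuation subring of `ℚ̄` over `q ∤ M`, `E = ℚ̄(X₀(M q))`, `V₁ V₂` the two Gauss valuations
(`G1X0`, `G2X0` of `S36/PairLiftK0` = `GaussPairX0.V₁ V₂`), `I` a subgroup of `G_ℚ` (the inertia
group of `A`), `K0 = fixedField I`.

* `regOn T` : the `ℚ̄`-subspace of the functions of `E` without pole on a set `T` of places;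
* `exists_K0_lift_pair_regOn` : if `T` is `I`-stable, every `f ∈ V₁ ∩ V₂` without pole on `T` has
  the PAIR of reductions `(red₁ f, red₂ f)` of `toBar g₀` for a `K0`-rational `g₀` with
  `toBar g₀ ∈ V₁ ∩ V₂` without pole on `T`.

Proof: `f` lies in the span `V'` of finitely many `I`-fixed functions (`LiftK0.mem_span_fixedSet`);
`V' ⊓ regOn T` is finite-dimensional, `I`-stable and contains `f`; apply
`S36/PairLiftK0.exists_K0_lift_pair` (echelon over `A ∩ K0`, no traces, no Riemann-Roch space, no
divisor).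
* `tube_stable` : the tube `{P | r (res_α P) = Q₁ ∨ r (res_β P) = Q₂}` (`r = placeMap H` Deuring's
  place map at level `M`) is stable under the inertia group of `A`
  (`S34/Generic/InertiaSp.placeMap_resAlpha_smul`, `placeMap_resBeta_smul`);
* `exists_K0_lift_pair_tube` : the rationalisation step for `I` = the inertia group of `A`,
  `K0 = ℚ̄^I`, and `T` = the tube of `(Q₁, Q₂)`.
-/

set_option autoImplicit false
set_option linter.unusedSectionVars false
set_option linter.style.haveILetI false
set_option synthInstance.maxHeartbeats 400000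

noncomputable section

namespace Fermat.Agent.S44.X0.RatLift

open ModularCurve AlgebraicCurve IsLocalRing IntermediateField
open Fermat.Agent.S36.K0Fixed Fermat.Agent.S36.LiftK0Core Fermat.Agent.S36.RRDescent
open Fermat.Agent.S36.LiftK0 Fermat.Agent.S36.PairLiftK0 Fermat.Agent.S18.C
open Fermat.Agent.S34.EulerClosedX0

local notation "Kb" => AlgebraicClosure ℚ
local notation "GQ" => (AlgebraicClosure ℚ ≃ₐ[ℚ] AlgebraicClosure ℚ)

/-! ### functions without pole on a set of places -/

section RegOn

variable {K F : Type*} [Field K] [Field F] [Algebra K F]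

/-- the functions without pole on a set `T` of places -/
def regOn (T : Set (Place K F)) : Submodule K F where
  carrier := {z | ∀ P ∈ T, 0 ≤ P.ord z}
  zero_mem' := fun P _ => by rw [Place.ord_zero]
  add_mem' := fun {a b} ha hb P hP => Fermat.Agent.S18.CoreOrd.ord_add_nonneg P (ha P hP) (hb P hP)
  smul_mem' := fun c z hz P hP => by
    rcases eq_or_ne c 0 with rfl | hc
    · rw [zero_smul, Place.ord_zero]
    · rw [Algebra.smul_def, Fermat.Agent.S18.CoreOrd.ord_const_mul P hc]
      exact hz P hP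

theorem mem_regOn {T : Set (Place K F)} {z : F} : z ∈ regOn T ↔ ∀ P ∈ T, 0 ≤ P.ord z := Iff.rfl

end RegOn

/-! ### the span of finitely many fixed functions is stable -/

section Stable

variable (N : ℕ) [NeZero N] (I : Subgroup GQ)

theorem rho_smul (σ : I) (c : Kb) (z : ↥(modularFunctionFieldBar N)) :
    rho N I σ (c • z) = ((σ : GQ) c) • rho N I σ z := by
  rw [Algebra.smul_def, map_mul, rho_algebraMap, Algebra.smul_def]
  rfl

/-- the span of a set of fixed functions is stable under the coefficientwise action -/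
theorem rho_mem_span_of_fixed {s : Set ↥(modularFunctionFieldBar N)}
    (hs : ∀ y ∈ s, ∀ σ : I, rho N I σ y = y) (σ : I) {z : ↥(modularFunctionFieldBar N)}
    (hz : z ∈ Submodule.span Kb s) : rho N I σ z ∈ Submodule.span Kb s := by
  induction hz using Submodule.span_induction with
  | mem y hy => rw [hs y hy σ]; exact Submodule.subset_span hy
  | zero => rw [map_zero]; exact Submodule.zero_mem _
  | add a b _ _ ha hb => rw [map_add]; exact Submodule.add_mem _ ha hb
  | smul c a _ ha => rw [rho_smul]; exact Submodule.smul_mem _ _ ha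

/-- the functions without pole on a stable set of places are stable -/
theorem rho_mem_regOn {T : Set (Place Kb ↥(modularFunctionFieldBar N))}
    (hT : ∀ σ ∈ I, ∀ P ∈ T, arithmeticGalois (modularFunctionFieldFull N) σ • P ∈ T) (σ : I)
    {z : ↥(modularFunctionFieldBar N)} (hz : z ∈ regOn T) : rho N I σ z ∈ regOn T := by
  intro P hP
  set g := arithmeticGalois (modularFunctionFieldFull N) (σ : GQ) with hg
  have h1 : P.ord (g • z) = (g⁻¹ • P).ord z := by
    have := SemilinearAut.ord_smul g (g⁻¹ • P) z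
    rwa [smul_inv_smul] at this
  have h2 : g⁻¹ • P ∈ T := by
    have := hT (σ : GQ)⁻¹ (I.inv_mem σ.2) P hP
    rwa [map_inv] at this
  rw [rho_apply, h1]
  exact hz _ h2

end Stable

/-! ### the rationalisation step -/

local instance instACk' (A : ValuationSubring Kb) : IsAlgClosed (ResidueField ↥A) :=
  Fermat.Agent.S18.ResidueBasics.isAlgClosed_residueField A

local instance instNeZeroMul' (M q : ℕ) [NeZero M] [NeZero q] : NeZero (M * q) :=
  ⟨Nat.mul_ne_zero (NeZero.ne M) (NeZero.ne q)⟩

variable {q : ℕ} [hq : Fact q.Prime] [NeZero q] {M : ℕ} [NeZero M]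
variable {A : ValuationSubring Kb} (hA : A.LiesOverPrime q) (hqM : ¬ q ∣ M)
variable [CharP (ResidueField ↥A) q] (I : Subgroup GQ)

/-- **`K0`-rational lifting of a pair of reductions with pole control on a stable set of
places** -/
theorem exists_K0_lift_pair_regOn
    (hres : Function.Surjective (ratPi (IntermediateField.fixedField I) (residue ↥A)))
    (T : Set (Place Kb ↥(modularFunctionFieldBar (M * q))))
    (hT : ∀ σ ∈ I, ∀ P ∈ T, arithmeticGalois (modularFunctionFieldFull (M * q)) σ • P ∈ T)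
    {f : ↥(modularFunctionFieldBar (M * q))} (m₁ : f ∈ (G1X0 hA hqM).O)
    (m₂ : f ∈ (G2X0 hA hqM).O) (hf : ∀ P ∈ T, 0 ≤ P.ord f) :
    ∃ (g₀ : ↥(laurentBaseChange (IntermediateField.fixedField I)
        (modularFunctionFieldFull (M * q))))
      (h₁ : toBar (modularFunctionFieldFull (M * q)) (IntermediateField.fixedField I) g₀ ∈
        (G1X0 hA hqM).O)
      (h₂ : toBar (modularFunctionFieldFull (M * q)) (IntermediateField.fixedField I) g₀ ∈
        (G2X0 hA hqM).O),
      (∀ P ∈ T, 0 ≤ P.ord
        (toBar (modularFunctionFieldFull (M * q)) (IntermediateField.fixedField I) g₀)) ∧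
      (G1X0 hA hqM).red ⟨_, h₁⟩ = (G1X0 hA hqM).red ⟨f, m₁⟩ ∧
      (G2X0 hA hqM).red ⟨_, h₂⟩ = (G2X0 hA hqM).red ⟨f, m₂⟩ := by
  classical
  -- `f` lies in the span of finitely many fixed functions
  obtain ⟨s, hs, hfs⟩ := Submodule.mem_span_finite_of_mem_span (mem_span_fixedSet (M * q) I f)
  have hsfix : ∀ y ∈ (s : Set ↥(modularFunctionFieldBar (M * q))), ∀ σ : I,
      rho (M * q) I σ y = y := fun y hy σ => hs hy σ
  set V : Submodule Kb ↥(modularFunctionFieldBar (M * q)) :=
    Submodule.span Kb (s : Set ↥(modularFunctionFieldBar (M * q))) ⊓ regOn T with hV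
  haveI : FiniteDimensional Kb
      (Submodule.span Kb (s : Set ↥(modularFunctionFieldBar (M * q)))) :=
    FiniteDimensional.span_finset Kb s
  haveI : FiniteDimensional Kb V :=
    Submodule.finiteDimensional_of_le (inf_le_left : V ≤ Submodule.span Kb _)
  have hVst : ∀ σ : I, ∀ z ∈ V, rho (M * q) I σ z ∈ V := fun σ z hz =>
    ⟨rho_mem_span_of_fixed (M * q) I hsfix σ hz.1, rho_mem_regOn (M * q) I hT σ hz.2⟩
  have hfV : f ∈ V := ⟨hfs, hf⟩
  obtain ⟨g₀, h₁, h₂, hgV, hr1, hr2⟩ := exists_K0_lift_pair hA hqM I hres V hVst m₁ m₂ hfV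
  exact ⟨g₀, h₁, h₂, hgV.2, hr1, hr2⟩

/-! ### the tube of a pair of places of the special fibre -/

section Tube

open Fermat.Agent.S37.Deuring.Core Fermat.Agent.S37.Gauss.Datum
open Fermat.Agent.S34.Generic.RestrAlong Fermat.Agent.S34.Generic.InertiaSp

variable {gL gk : ℕ}
variable [HasPrincipalDivisors Kb ↥(modularFunctionFieldBar M)]
variable [HasPrincipalDivisors (ResidueField A) ↥(modularFunctionFieldFullC (ResidueField A) M)]
variable [Infinite (ResidueField A)]
variable (H : Hyp (gaussDatum M A hA hqM) gL gk)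
variable (hα : (heckeAlphaBar Kb M q).toRingHom.IsIntegral)
variable (hβ : (heckeBetaBar Kb M q).toRingHom.IsIntegral)

/-- the tube of `(Q₁, Q₂)`: the places of `ℚ̄(X₀(M q))` whose `α`-image specialises to `Q₁` or whose
`β`-image specialises to `Q₂` -/
def tube (Q₁ Q₂ : Place (ResidueField A) ↥(modularFunctionFieldFullC (ResidueField A) M)) :
    Set (Place Kb ↥(modularFunctionFieldBar (M * q))) :=
  {P | placeMap H (resAlong (heckeAlphaBar Kb M q) hα P) = Q₁ ∨
    placeMap H (resAlong (heckeBetaBar Kb M q) hβ P) = Q₂}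

/-- the tube is stable under inertia -/
theorem tube_stable
    (Q₁ Q₂ : Place (ResidueField A) ↥(modularFunctionFieldFullC (ResidueField A) M)) :
    ∀ σ ∈ A.inertiaSubgroupIn ℚ, ∀ P ∈ tube hA hqM H hα hβ Q₁ Q₂,
      arithmeticGalois (modularFunctionFieldFull (M * q)) σ • P ∈ tube hA hqM H hα hβ Q₁ Q₂ := by
  intro σ hσ P hP
  rcases hP with h | h
  · left
    rw [placeMap_resAlpha_smul hA hqM H hα hσ P]
    exact h
  · right
    rw [placeMap_resBeta_smul hA hqM H hβ hσ P]
    exact h

/-- **the rationalisation step on the tube of a node**, `K0 = ℚ̄^I`, `I` the inertia group of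
`A` -/
theorem exists_K0_lift_pair_tube
    (Q₁ Q₂ : Place (ResidueField A) ↥(modularFunctionFieldFullC (ResidueField A) M))
    {f : ↥(modularFunctionFieldBar (M * q))} (m₁ : f ∈ (G1X0 hA hqM).O)
    (m₂ : f ∈ (G2X0 hA hqM).O) (hf : ∀ P ∈ tube hA hqM H hα hβ Q₁ Q₂, 0 ≤ P.ord f) :
    ∃ (g₀ : ↥(laurentBaseChange (IntermediateField.fixedField (A.inertiaSubgroupIn ℚ))
        (modularFunctionFieldFull (M * q))))
      (h₁ : toBar (modularFunctionFieldFull (M * q))
        (IntermediateField.fixedField (A.inertiaSubgroupIn ℚ)) g₀ ∈ (G1X0 hA hqM).O)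
      (h₂ : toBar (modularFunctionFieldFull (M * q))
        (IntermediateField.fixedField (A.inertiaSubgroupIn ℚ)) g₀ ∈ (G2X0 hA hqM).O),
      (∀ P ∈ tube hA hqM H hα hβ Q₁ Q₂, 0 ≤ P.ord
        (toBar (modularFunctionFieldFull (M * q))
          (IntermediateField.fixedField (A.inertiaSubgroupIn ℚ)) g₀)) ∧
      (G1X0 hA hqM).red ⟨_, h₁⟩ = (G1X0 hA hqM).red ⟨f, m₁⟩ ∧
      (G2X0 hA hqM).red ⟨_, h₂⟩ = (G2X0 hA hqM).red ⟨f, m₂⟩ :=
  exists_K0_lift_pair_regOn hA hqM (A.inertiaSubgroupIn ℚ) (ratPi_surjective_inertia hA)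
    (tube hA hqM H hα hβ Q₁ Q₂) (tube_stable hA hqM H hα hβ Q₁ Q₂) m₁ m₂ hf

end Tube

end Fermat.Agent.S44.X0.RatLift
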