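/-
PROJECT P (S44), brick [X1.b] = serial head [S1], file 1 of 3 (helper25): THE CHART RING OF A NODE
OVER `K0`, ITS TWO REDUCTIONS, THE CONSTANTS, AND (hdiv).

`A` a valuation subring of `ℚ̄` over `q ∤ M`, `I` its inertia group, `K0 = ℚ̄^I`,
`FK = FK I (M q)` the `K0`-form of the function field of `X₀(M q)`, `V1K V2K red1K red2K` the two
Gauss rings and reductions of `S36/LevelQK0`, `κ = F_k(M)`.  `T` ANY set of places of `ℚ̄(X₀(M q))`
(the tube of the node).

* `Oe hA hqM T` : the subring of `FK` of the functions integral for both Gauss valuations and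
  without pole on `T`; `incl1`, `incl2`, `rho1 rho2 : Oe T →+* κ` (`rho1_apply`, `rho2_apply`: they
  are `red₁`, `red₂` of `S34/GaussPairX0` at `tB g`);
* `constHom : A ∩ K0 →+* Oe T`, `rho1_constHom`, `rho2_constHom`;
* `exists_mul_of_rho_eq_zero` : **(hdiv)** both reductions `0` ⇒ divisible by `q` in `Oe T`
  (`S36/LevelQK0.maximalIdeal_V1z_eq`, `maximalIdeal_V2z_eq`).
-/
import Mathlib
import Fermat.Agent.S36.LevelQK0
import Fermat.Agent.S36.GaussUniqK0
import Fermat.Agent.S34.LevelMLiftX0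
import Fermat.Agent.S44.X0.RatLift

set_option autoImplicit false
set_option linter.unusedSectionVars false
set_option linter.style.haveILetI false
set_option synthInstance.maxHeartbeats 400000
set_option maxHeartbeats 400000

noncomputable section

namespace Fermat.Agent.S44.X0.NodeRing

open ModularCurve AlgebraicCurve IsLocalRing IntermediateField
open Fermat.Agent.S36.PowerBasisK0 Fermat.Agent.S36.ThetaK0 Fermat.Agent.S36.LevelQK0
open Fermat.Agent.S34.GaussPairX0 Fermat.Agent.S34.FrobK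
open Fermat.Agent.S37.Gauss.Datum Fermat.Agent.S37.Deuring.Core
open Fermat.Agent.S34.Generic.RestrAlong
open Fermat.Agent.S44.X0.RatLift

local notation "Kb" => AlgebraicClosure ℚ
local notation "GQ" => (AlgebraicClosure ℚ ≃ₐ[ℚ] AlgebraicClosure ℚ)

attribute [local instance 2000] Fermat.Agent.S34.EulerX0.algResFk

local instance instACk'' (A : ValuationSubring Kb) : IsAlgClosed (ResidueField ↥A) :=
  Fermat.Agent.S18.ResidueBasics.isAlgClosed_residueField A

local instance instNeZeroMul'' (M q : ℕ) [NeZero M] [NeZero q] : NeZero (M * q) :=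
  ⟨Nat.mul_ne_zero (NeZero.ne M) (NeZero.ne q)⟩

/-! ### generalities on `ord` -/

section Ord

variable {K F : Type*} [Field K] [Field F] [Algebra K F]

theorem ord_mul_nonneg (P : Place K F) {a b : F} (ha : 0 ≤ P.ord a) (hb : 0 ≤ P.ord b) :
    0 ≤ P.ord (a * b) := by
  rcases eq_or_ne a 0 with rfl | ha0
  · rw [zero_mul, Place.ord_zero]
  rcases eq_or_ne b 0 with rfl | hb0
  · rw [mul_zero, Place.ord_zero]
  rw [P.ord_mul ha0 hb0]
  exact add_nonneg ha hb

end Ord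

variable {q : ℕ} [hq : Fact q.Prime] [NeZero q] {M : ℕ} [NeZero M]
variable {A : ValuationSubring Kb} (hA : A.LiesOverPrime q) (hqM : ¬ q ∣ M)

local notation "Iq" => A.inertiaSubgroupIn ℚ

/-! ### the chart ring -/

/-- **the chart ring of a tube `T`**: the functions of the `K0`-form of `ℚ̄(X₀(M q))` which are
integral for both Gauss valuations and have no pole on `T` -/
def Oe (T : Set (Place Kb ↥(modularFunctionFieldBar (M * q)))) : Subring (FK Iq (M * q)) where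
  carrier := {g | g ∈ V1K Iq hA hqM ∧ g ∈ V2K Iq hA hqM ∧
    ∀ P ∈ T, 0 ≤ P.ord (tB Iq (M * q) g)}
  mul_mem' := fun {a b} ha hb => ⟨(V1K Iq hA hqM).mul_mem _ _ ha.1 hb.1,
    (V2K Iq hA hqM).mul_mem _ _ ha.2.1 hb.2.1, fun P hP => by
      rw [map_mul]; exact ord_mul_nonneg P (ha.2.2 P hP) (hb.2.2 P hP)⟩
  one_mem' := ⟨(V1K Iq hA hqM).one_mem, (V2K Iq hA hqM).one_mem, fun P _ => by
    rw [map_one, Place.ord_one]⟩
  add_mem' := fun {a b} ha hb => ⟨(V1K Iq hA hqM).add_mem _ _ ha.1 hb.1,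
    (V2K Iq hA hqM).add_mem _ _ ha.2.1 hb.2.1, fun P hP => by
      rw [map_add]
      exact Fermat.Agent.S18.CoreOrd.ord_add_nonneg P (ha.2.2 P hP) (hb.2.2 P hP)⟩
  zero_mem' := ⟨(V1K Iq hA hqM).zero_mem, (V2K Iq hA hqM).zero_mem, fun P _ => by
    rw [map_zero, Place.ord_zero]⟩
  neg_mem' := fun {a} ha => ⟨(V1K Iq hA hqM).neg_mem _ ha.1, (V2K Iq hA hqM).neg_mem _ ha.2.1,
    fun P hP => by rw [map_neg, Fermat.Agent.S18.CoreOrd.ord_neg']; exact ha.2.2 P hP⟩

variable {hA hqM}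

theorem mem_Oe_iff {T : Set (Place Kb ↥(modularFunctionFieldBar (M * q)))} {g : FK Iq (M * q)} :
    g ∈ Oe hA hqM T ↔ g ∈ V1K Iq hA hqM ∧ g ∈ V2K Iq hA hqM ∧
      ∀ P ∈ T, 0 ≤ P.ord (tB Iq (M * q) g) := Iff.rfl

variable (hA hqM) (T : Set (Place Kb ↥(modularFunctionFieldBar (M * q))))

/-- the inclusion of the chart ring in the first Gauss ring -/
def incl1 : ↥(Oe hA hqM T) →+* ↥(V1K Iq hA hqM) where
  toFun g := ⟨g.1, g.2.1⟩
  map_one' := Subtype.ext rfl
  map_mul' _ _ := Subtype.ext rfl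
  map_zero' := Subtype.ext rfl
  map_add' _ _ := Subtype.ext rfl

/-- the inclusion of the chart ring in the second Gauss ring -/
def incl2 : ↥(Oe hA hqM T) →+* ↥(V2K Iq hA hqM) where
  toFun g := ⟨g.1, g.2.2.1⟩
  map_one' := Subtype.ext rfl
  map_mul' _ _ := Subtype.ext rfl
  map_zero' := Subtype.ext rfl
  map_add' _ _ := Subtype.ext rfl

/-- the first reduction on the chart ring -/
def rho1 : ↥(Oe hA hqM T) →+* ↥(modularFunctionFieldFullC (ResidueField ↥A) M) :=
  (red1K Iq hA hqM).comp (incl1 hA hqM T)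

/-- the second reduction on the chart ring -/
def rho2 : ↥(Oe hA hqM T) →+* ↥(modularFunctionFieldFullC (ResidueField ↥A) M) :=
  (red2K Iq hA hqM).comp (incl2 hA hqM T)

variable {hA hqM T}

theorem rho1_apply (g : ↥(Oe hA hqM T)) :
    rho1 hA hqM T g = red₁ hA hqM ⟨tB Iq (M * q) g.1, ValuationSubring.mem_comap.mp g.2.1⟩ := rfl

theorem rho2_apply (g : ↥(Oe hA hqM T)) :
    rho2 hA hqM T g = red₂ hA hqM ⟨tB Iq (M * q) g.1, ValuationSubring.mem_comap.mp g.2.2.1⟩ := rfl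

/-! ### constants -/

open Fermat.Agent.S36.GaussUniqK0 (O0 K0) in
theorem algebraMap_mem_Oe (c : ↥(O0 A)) :
    algebraMap ↥(K0 A) (FK Iq (M * q)) (c : ↥(K0 A)) ∈ Oe hA hqM T := by
  have hcA : ((c : ↥(K0 A)) : Kb) ∈ A := c.2
  have htB : tB Iq (M * q) (algebraMap ↥(K0 A) (FK Iq (M * q)) (c : ↥(K0 A))) =
      algebraMap Kb ↥(modularFunctionFieldBar (M * q)) ((c : ↥(K0 A)) : Kb) :=
    Fermat.Agent.S36.K0Fixed.toBar_algebraMap (modularFunctionFieldFull (M * q)) _ _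
  refine ⟨?_, ?_, fun P _ => ?_⟩
  · rw [ValuationSubring.mem_comap, htB]
    exact (gaussDatum₁ hA hqM).algebraMap_mem ⟨_, hcA⟩
  · rw [ValuationSubring.mem_comap, htB]
    exact algebraMap_mem_V₂ hA hqM ⟨_, hcA⟩
  · rw [htB, Fermat.Agent.S24.Ord.ord_algebraMap]

open Fermat.Agent.S36.GaussUniqK0 (O0 K0) in
variable (hA hqM T) in
/-- the constants of `A ∩ K0` in the chart ring -/
def constHom : ↥(O0 A) →+* ↥(Oe hA hqM T) where
  toFun c := ⟨algebraMap ↥(K0 A) (FK Iq (M * q)) (c : ↥(K0 A)), algebraMap_mem_Oe c⟩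
  map_one' := Subtype.ext (by simp)
  map_mul' a b := Subtype.ext (by simp)
  map_zero' := Subtype.ext (by simp)
  map_add' a b := Subtype.ext (by simp)

open Fermat.Agent.S36.GaussUniqK0 (O0 K0) in
theorem coe_constHom (c : ↥(O0 A)) :
    ((constHom hA hqM T c : ↥(Oe hA hqM T)) : FK Iq (M * q)) =
      algebraMap ↥(K0 A) (FK Iq (M * q)) (c : ↥(K0 A)) := rfl

open Fermat.Agent.S36.GaussUniqK0 (O0 K0) in
theorem tB_constHom (c : ↥(O0 A)) :
    tB Iq (M * q) ((constHom hA hqM T c : ↥(Oe hA hqM T)) : FK Iq (M * q)) =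
      algebraMap Kb ↥(modularFunctionFieldBar (M * q)) ((c : ↥(K0 A)) : Kb) :=
  Fermat.Agent.S36.K0Fixed.toBar_algebraMap (modularFunctionFieldFull (M * q)) _ _

open Fermat.Agent.S36.GaussUniqK0 (O0 K0) in
/-- the first reduction of a constant -/
theorem rho1_constHom (c : ↥(O0 A)) :
    rho1 hA hqM T (constHom hA hqM T c) =
      algebraMap (ResidueField ↥A) ↥(modularFunctionFieldFullC (ResidueField ↥A) M)
        (residue ↥A ⟨((c : ↥(K0 A)) : Kb), c.2⟩) := by
  rw [rho1_apply, ← red₁_algebraMap hA hqM ⟨((c : ↥(K0 A)) : Kb), c.2⟩]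
  congr 1
  exact Subtype.ext (tB_constHom c)

open Fermat.Agent.S36.GaussUniqK0 (O0 K0) in
/-- the second reduction of a constant -/
theorem rho2_constHom (c : ↥(O0 A)) :
    rho2 hA hqM T (constHom hA hqM T c) =
      algebraMap (ResidueField ↥A) ↥(modularFunctionFieldFullC (ResidueField ↥A) M)
        (residue ↥A ⟨((c : ↥(K0 A)) : Kb), c.2⟩) := by
  rw [rho2_apply, ← red₂_algebraMap hA hqM ⟨((c : ↥(K0 A)) : Kb), c.2⟩]
  congr 1
  exact Subtype.ext (tB_constHom c)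

/-! ### (hdiv): both reductions zero implies divisible by `q` -/

/-- `q` as an element of the chart ring -/
theorem natCast_ne_zero_FK : ((q : ℕ) : FK Iq (M * q)) ≠ 0 := by
  intro h
  exact hq.out.ne_zero (Nat.cast_eq_zero.mp h)

/-- **(hdiv)**: an element of the chart ring with both reductions `0` is `q` times an element of
the chart ring -/
theorem exists_mul_of_rho_eq_zero (g : ↥(Oe hA hqM T)) (h1 : rho1 hA hqM T g = 0)
    (h2 : rho2 hA hqM T g = 0) :
    ∃ F : ↥(Oe hA hqM T), g = ((q : ℕ) : ↥(Oe hA hqM T)) * F := by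
  have hn1 : (g : FK Iq (M * q)) ∈ (V1K Iq hA hqM).nonunits := by
    rw [mem_nonunits_comap_iff']
    rw [rho1_apply, red₁_eq_zero_iff_mem_nonunits] at h1
    exact h1
  have hn2 : (g : FK Iq (M * q)) ∈ (V2K Iq hA hqM).nonunits := by
    rw [mem_nonunits_comap_iff']
    rw [rho2_apply, red₂_eq_zero_iff_mem_nonunits] at h2
    exact h2
  have hm1 : (⟨(g : FK Iq (M * q)), g.2.1⟩ : ↥(V1K Iq hA hqM)) ∈
      maximalIdeal ↥(V1K Iq hA hqM) := ValuationSubring.coe_mem_nonunits_iff.mp hn1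
  have hm2 : (⟨(g : FK Iq (M * q)), g.2.2.1⟩ : ↥(V2K Iq hA hqM)) ∈
      maximalIdeal ↥(V2K Iq hA hqM) := ValuationSubring.coe_mem_nonunits_iff.mp hn2
  rw [maximalIdeal_V1z_eq hA hqM, Ideal.mem_span_singleton'] at hm1
  rw [maximalIdeal_V2z_eq hA hqM, Ideal.mem_span_singleton'] at hm2
  obtain ⟨r1, hr1⟩ := hm1
  obtain ⟨r2, hr2⟩ := hm2
  have e1 : (r1 : FK Iq (M * q)) * ((q : ℕ) : FK Iq (M * q)) = (g : FK Iq (M * q)) := by
    have := congrArg (Subtype.val : ↥(V1K Iq hA hqM) → FK Iq (M * q)) hr1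
    simpa using this
  have e2 : (r2 : FK Iq (M * q)) * ((q : ℕ) : FK Iq (M * q)) = (g : FK Iq (M * q)) := by
    have := congrArg (Subtype.val : ↥(V2K Iq hA hqM) → FK Iq (M * q)) hr2
    simpa using this
  have e12 : (r1 : FK Iq (M * q)) = (r2 : FK Iq (M * q)) :=
    mul_right_cancel₀ natCast_ne_zero_FK (e1.trans e2.symm)
  have hreg : ∀ P ∈ T, 0 ≤ P.ord (tB Iq (M * q) (r1 : FK Iq (M * q))) := by
    intro P hP
    have h3 := g.2.2.2 P hP
    rw [← e1, map_mul, map_natCast] at h3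
    have hq0 : ((q : ℕ) : Kb) ≠ 0 := by exact_mod_cast hq.out.ne_zero
    have h4 : ((q : ℕ) : ↥(modularFunctionFieldBar (M * q))) =
        algebraMap Kb ↥(modularFunctionFieldBar (M * q)) ((q : ℕ) : Kb) := (map_natCast _ _).symm
    rw [h4, Fermat.Agent.S18.CoreOrd.ord_mul_const P hq0] at h3
    exact h3
  refine ⟨⟨(r1 : FK Iq (M * q)), r1.2, e12 ▸ r2.2, hreg⟩, ?_⟩
  apply Subtype.ext
  have hq' : (((q : ℕ) : ↥(Oe hA hqM T)) : FK Iq (M * q)) = ((q : ℕ) : FK Iq (M * q)) :=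
    SubringClass.coe_natCast _ _
  show (g : FK Iq (M * q)) = (((q : ℕ) : ↥(Oe hA hqM T)) : FK Iq (M * q)) * (r1 : FK Iq (M * q))
  rw [hq', ← e1]
  exact mul_comm _ _

end Fermat.Agent.S44.X0.NodeRing

end
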