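/-
PROJECT P (S44), brick [X1.b] = serial head [S1], file 2 of 3 (helper25): `K0`-RATIONAL LIFTS INTO
THE CHART RING OF A NODE, ALONG `α` AND ALONG `β`.

Setting of `X0/NodeRing`: `Oe hA hqM T`, `rho1`, `rho2`.  `H` Deuring's hypotheses at level `M`
(`placeMap H` the place map), `T` a set of places of `ℚ̄(X₀(M q))` stable under the inertia group
of `A`, `Q1 Q2` two places of `κ = F_k(M)` with `sp1 = Q1` and `sp2 = Q2` on `T`
(`sp1 = placeMap H ∘ resAlong α`, `sp2 = placeMap H ∘ resAlong β`).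

* `exists_alpha_lift` : every `y ∈ κ` regular at `Q1` is `rho1 g` for a `g ∈ Oe T` with
  `rho2 g = φ y` (`φ = S34/FrobK.phi`);
* `exists_beta_lift` : every `y ∈ κ` regular at `Q2` is `rho2 g` for a `g ∈ Oe T` with
  `rho1 g = φ y`.

Proof: `S34/LevelMLiftX0.exists_lift_regular_over_X0` (lift at level `M` regular over `Q_i`), then
`α` resp. `β` (`S34/GaussPairX0.red₁_alpha`, `coe_red₂_alpha`, `red₂_beta`, `coe_red₁_beta`;
`S34/Generic/RestrAlong.restrAlong` for the poles), then helper29's rationalisation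
`X0/RatLift.exists_K0_lift_pair_regOn`.
-/
import Mathlib
import Fermat.Agent.S44.X0.NodeRing

set_option autoImplicit false
set_option linter.unusedSectionVars false
set_option linter.style.haveILetI false
set_option synthInstance.maxHeartbeats 400000
set_option maxHeartbeats 400000

noncomputable section

namespace Fermat.Agent.S44.X0.NodeLift

open ModularCurve AlgebraicCurve IsLocalRing IntermediateField
open Fermat.Agent.S36.PowerBasisK0 Fermat.Agent.S36.ThetaK0 Fermat.Agent.S36.LevelQK0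
open Fermat.Agent.S34.GaussPairX0 Fermat.Agent.S34.FrobK
open Fermat.Agent.S37.Gauss.Datum Fermat.Agent.S37.Deuring.Core
open Fermat.Agent.S34.Generic.RestrAlong
open Fermat.Agent.S34.EulerClosedX0 Fermat.Agent.S36.PairLiftK0 Fermat.Agent.S36.LiftK0
open Fermat.Agent.S44.X0.RatLift Fermat.Agent.S44.X0.NodeRing

local notation "Kb" => AlgebraicClosure ℚ
local notation "GQ" => (AlgebraicClosure ℚ ≃ₐ[ℚ] AlgebraicClosure ℚ)

attribute [local instance 2000] Fermat.Agent.S34.EulerX0.algResFk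

local instance instACk3 (A : ValuationSubring Kb) : IsAlgClosed (ResidueField ↥A) :=
  Fermat.Agent.S18.ResidueBasics.isAlgClosed_residueField A

local instance instPerfect3 (A : ValuationSubring Kb) : PerfectField (ResidueField ↥A) :=
  haveI := Fermat.Agent.S18.ResidueBasics.isAlgClosed_residueField A
  inferInstance

local instance instNeZeroMul3 (M q : ℕ) [NeZero M] [NeZero q] : NeZero (M * q) :=
  ⟨Nat.mul_ne_zero (NeZero.ne M) (NeZero.ne q)⟩

variable {q : ℕ} [hq : Fact q.Prime] [NeZero q] {M : ℕ} [NeZero M]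
variable {A : ValuationSubring Kb} {hA : A.LiesOverPrime q} {hqM : ¬ q ∣ M}
variable [CharP (ResidueField ↥A) q]

local notation "Iq" => A.inertiaSubgroupIn ℚ

variable {gL gk : ℕ}
variable [HasPrincipalDivisors Kb ↥(modularFunctionFieldBar M)]
variable [HasPrincipalDivisors (ResidueField A) ↥(modularFunctionFieldFullC (ResidueField A) M)]
variable [Infinite (ResidueField A)]
variable (H : Hyp (gaussDatum M A hA hqM) gL gk)
variable (hα : (heckeAlphaBar Kb M q).toRingHom.IsIntegral)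
variable (hβ : (heckeBetaBar Kb M q).toRingHom.IsIntegral)
variable {T : Set (Place Kb ↥(modularFunctionFieldBar (M * q)))}
variable {Q1 Q2 : Place (ResidueField A) ↥(modularFunctionFieldFullC (ResidueField A) M)}

/-- the poles of `φ f` lie over the poles of `f` -/
theorem ord_map_nonneg {L FM F : Type*} [Field L] [Field FM] [Algebra L FM] [Field F] [Algebra L F]
    (φ : FM →ₐ[L] F) (hφ : φ.toRingHom.IsIntegral) (P : Place L F) {f : FM}
    (hf : f = 0 ∨ 0 ≤ (resAlong φ hφ P).ord f) : 0 ≤ P.ord (φ f) := by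
  rcases hf with rfl | hf
  · rw [map_zero, Place.ord_zero]
  · have h1 := (restrAlong φ hφ).ord_map P f
    change P.ord (φ f) = _ at h1
    rw [h1]
    exact mul_nonneg (Int.natCast_nonneg _) hf

/-- **lifting along `α`** -/
theorem exists_alpha_lift
    (hT : ∀ σ : GQ, σ ∈ Iq → ∀ P ∈ T,
      arithmeticGalois (modularFunctionFieldFull (M * q)) σ • P ∈ T)
    (hT1 : ∀ P ∈ T, placeMap H (resAlong (heckeAlphaBar Kb M q) hα P) = Q1)
    (Q₀ : Place (ResidueField A) ↥(modularFunctionFieldFullC (ResidueField A) M)) (hQ₀ : Q₀ ≠ Q1)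
    (y : ↥(modularFunctionFieldFullC (ResidueField A) M)) (hy : y = 0 ∨ 0 ≤ Q1.ord y) :
    ∃ g : ↥(Oe hA hqM T), rho1 hA hqM T g = y ∧ rho2 hA hqM T g = phi (ResidueField A) M q y := by
  obtain ⟨f, hfred, hfreg⟩ := Fermat.Agent.S34.LevelMLiftX0.exists_lift_regular_over_X0 hA hqM H y
    {Q1} Q₀ (by rw [Set.mem_singleton_iff]; exact hQ₀)
    (fun Q hQ => by rw [Set.mem_singleton_iff] at hQ; subst hQ; exact hy)
  have m₁ : heckeAlphaBar Kb M q (f : ↥(modularFunctionFieldBar M)) ∈ (G1X0 hA hqM).O :=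
    (alpha_mem_V₁_iff hA hqM _).mpr f.2
  have m₂' : heckeAlphaBar Kb M q (f : ↥(modularFunctionFieldBar M)) ∈ V₂ hA hqM :=
    (alpha_mem_V₂_iff hA hqM _).mpr f.2
  have m₂ : heckeAlphaBar Kb M q (f : ↥(modularFunctionFieldBar M)) ∈ (G2X0 hA hqM).O := by
    rw [G2X0_O]; exact m₂'
  have hF : ∀ P ∈ T, 0 ≤ P.ord (heckeAlphaBar Kb M q (f : ↥(modularFunctionFieldBar M))) := by
    intro P hP
    exact ord_map_nonneg _ hα P (hfreg _ (by rw [hT1 P hP]; exact Set.mem_singleton _))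
  obtain ⟨g₀, h₁, h₂, hreg, hr1, hr2⟩ := exists_K0_lift_pair_regOn hA hqM Iq
    (ratPi_surjective_inertia hA) T hT m₁ m₂ hF
  have h₂' : tB Iq (M * q) g₀ ∈ V₂ hA hqM := by rw [← G2X0_O]; exact h₂
  refine ⟨⟨g₀, h₁, h₂', hreg⟩, ?_, ?_⟩
  · rw [rho1_apply]
    refine Eq.trans hr1 ?_
    exact (red₁_alpha hA hqM f).trans hfred
  · rw [rho2_apply, ← G2X0_red hA hqM _ h₂ h₂', hr2, G2X0_red hA hqM _ m₂ m₂']
    apply Subtype.ext
    rw [coe_red₂_alpha hA hqM f, hfred, coe_phi]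

/-- **lifting along `β`** -/
theorem exists_beta_lift
    (hT : ∀ σ : GQ, σ ∈ Iq → ∀ P ∈ T,
      arithmeticGalois (modularFunctionFieldFull (M * q)) σ • P ∈ T)
    (hT2 : ∀ P ∈ T, placeMap H (resAlong (heckeBetaBar Kb M q) hβ P) = Q2)
    (Q₀ : Place (ResidueField A) ↥(modularFunctionFieldFullC (ResidueField A) M)) (hQ₀ : Q₀ ≠ Q2)
    (y : ↥(modularFunctionFieldFullC (ResidueField A) M)) (hy : y = 0 ∨ 0 ≤ Q2.ord y) :
    ∃ g : ↥(Oe hA hqM T), rho1 hA hqM T g = phi (ResidueField A) M q y ∧ rho2 hA hqM T g = y := by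
  obtain ⟨f, hfred, hfreg⟩ := Fermat.Agent.S34.LevelMLiftX0.exists_lift_regular_over_X0 hA hqM H y
    {Q2} Q₀ (by rw [Set.mem_singleton_iff]; exact hQ₀)
    (fun Q hQ => by rw [Set.mem_singleton_iff] at hQ; subst hQ; exact hy)
  have m₁ : heckeBetaBar Kb M q (f : ↥(modularFunctionFieldBar M)) ∈ (G1X0 hA hqM).O :=
    beta_mem_V₁ hA hqM f.2
  have m₂' : heckeBetaBar Kb M q (f : ↥(modularFunctionFieldBar M)) ∈ V₂ hA hqM :=
    (beta_mem_V₂_iff hA hqM _).mpr f.2
  have m₂ : heckeBetaBar Kb M q (f : ↥(modularFunctionFieldBar M)) ∈ (G2X0 hA hqM).O := by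
    rw [G2X0_O]; exact m₂'
  have hF : ∀ P ∈ T, 0 ≤ P.ord (heckeBetaBar Kb M q (f : ↥(modularFunctionFieldBar M))) := by
    intro P hP
    exact ord_map_nonneg _ hβ P (hfreg _ (by rw [hT2 P hP]; exact Set.mem_singleton _))
  obtain ⟨g₀, h₁, h₂, hreg, hr1, hr2⟩ := exists_K0_lift_pair_regOn hA hqM Iq
    (ratPi_surjective_inertia hA) T hT m₁ m₂ hF
  have h₂' : tB Iq (M * q) g₀ ∈ V₂ hA hqM := by rw [← G2X0_O]; exact h₂
  refine ⟨⟨g₀, h₁, h₂', hreg⟩, ?_, ?_⟩
  · rw [rho1_apply]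
    refine Eq.trans hr1 ?_
    apply Subtype.ext
    rw [coe_phi, ← hfred]
    exact coe_red₁_beta hA hqM f
  · rw [rho2_apply, ← G2X0_red hA hqM _ h₂ h₂', hr2, G2X0_red hA hqM _ m₂ m₂']
    exact (red₂_beta hA hqM f).trans hfred

end Fermat.Agent.S44.X0.NodeLift

end
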