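/-
PROJECT P (S44), brick [X1.b] = serial head [S1], file 3 of 3 (helper25): THE PAIR `ξ⁰, η⁰` OF A
NODE AND THE GENERATION HYPOTHESES OF `Core/NodeGen` FOR THE CHART RING `Oe T`.

Setting of `X0/NodeRing`, `X0/NodeLift`.  `Q1 Q2` two places of `κ = F_k(M)` exchanged by the
Frobenius `Fr = S34/FrobK.Fr` (`Q1 = e1 e = Fr b`, `Q2 = e2 e = b` for a node `e`), `T` an
inertia-stable set of places of `ℚ̄(X₀(M q))` with `sp1 = Q1`, `sp2 = Q2` on `T`, `Q₀` an auxiliary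
place different from `Q1` and `Q2` (a cusp).

* `exists_pair` : `ξ⁰ η⁰ ∈ Oe T` with `rho2 ξ⁰ = 0`, `rho1 η⁰ = 0`, `ord_{Q1} (rho1 ξ⁰) = 1`,
  `ord_{Q2} (rho2 η⁰) = 1`  (`ξ⁰ = g₀ - g₁^q`, `η⁰ = g₁ - g₂^q`, `g₀ g₂` lifts along `α` of `t̄`, `ψψ t̄`,
  `g₁` the lift along `β` of `ψ t̄`, `t̄` a parameter at `Q1`);
* `exists_lift1`, `exists_lift2` : the hypotheses `hlift₁`, `hlift₂` of `NodeGen.hgen_of_lifts` with
  `Van_i φ := φ = 0 ∨ 0 < Q_i.ord φ`;
* `exists_const_of_glue` : `hglue` from the local gluing at the node (a hypothesis in the shape of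
  `Core/FrameHyp.NodeHyp.glue_node`);
* `isUnit_of_ord_eq_zero` : `hunit` from "no zero on the tube" (the shape of
  `Core/TubeCount.LocalCount.ord_eq_zero`).
-/
import Mathlib
import Fermat.Agent.S44.X0.NodeLift
import Fermat.Agent.S44.Core.NodeGen

set_option autoImplicit false
set_option linter.unusedSectionVars false
set_option linter.style.haveILetI false
set_option synthInstance.maxHeartbeats 400000
set_option maxHeartbeats 400000

noncomputable section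

namespace Fermat.Agent.S44.X0.NodePair

open ModularCurve AlgebraicCurve IsLocalRing IntermediateField
open Fermat.Agent.S36.PowerBasisK0 Fermat.Agent.S36.ThetaK0 Fermat.Agent.S36.LevelQK0
open Fermat.Agent.S34.GaussPairX0 Fermat.Agent.S34.FrobK
open Fermat.Agent.S37.Gauss.Datum Fermat.Agent.S37.Deuring.Core
open Fermat.Agent.S34.Generic.RestrAlong
open Fermat.Agent.S44.X0.NodeRing Fermat.Agent.S44.X0.NodeLift

local notation "Kb" => AlgebraicClosure ℚ
local notation "GQ" => (AlgebraicClosure ℚ ≃ₐ[ℚ] AlgebraicClosure ℚ)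

attribute [local instance 2000] Fermat.Agent.S34.EulerX0.algResFk

local instance instACk4 (A : ValuationSubring Kb) : IsAlgClosed (ResidueField ↥A) :=
  Fermat.Agent.S18.ResidueBasics.isAlgClosed_residueField A

local instance instPerfect4 (A : ValuationSubring Kb) : PerfectField (ResidueField ↥A) :=
  haveI := Fermat.Agent.S18.ResidueBasics.isAlgClosed_residueField A
  inferInstance

local instance instNeZeroMul4 (M q : ℕ) [NeZero M] [NeZero q] : NeZero (M * q) :=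
  ⟨Nat.mul_ne_zero (NeZero.ne M) (NeZero.ne q)⟩

/-! ### parameters -/

/-- every place has a parameter -/
theorem exists_ord_eq_one {K F : Type*} [Field K] [Field F] [Algebra K F] (v : Place K F) :
    ∃ t : F, v.ord t = 1 := by
  obtain ⟨π, hπ⟩ := IsDiscreteValuationRing.exists_irreducible v.toValuationSubring
  exact ⟨π, v.ord_coe_irreducible hπ⟩

/-- `ord (a - b) = ord a` when `ord a < ord b` -/
theorem ord_sub_eq_of_lt {K F : Type*} [Field K] [Field F] [Algebra K F] (v : Place K F) {a b : F}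
    (ha : a ≠ 0) (hb : b ≠ 0) (h : v.ord a < v.ord b) : v.ord (a - b) = v.ord a := by
  rw [sub_eq_add_neg]
  exact Fermat.Agent.S18.CoreOrd.ord_add_eq_of_lt v ha (neg_ne_zero.mpr hb)
    (by rw [Fermat.Agent.S18.CoreOrd.ord_neg']; exact h)

variable {q : ℕ} [hq : Fact q.Prime] [NeZero q] {M : ℕ} [NeZero M]
variable {A : ValuationSubring Kb} {hA : A.LiesOverPrime q} {hqM : ¬ q ∣ M}
variable [CharP (ResidueField ↥A) q]

local notation "Iq" => A.inertiaSubgroupIn ℚ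

variable {gL gk : ℕ}
variable [HasPrincipalDivisors Kb ↥(modularFunctionFieldBar M)]
variable [HasPrincipalDivisors (ResidueField A) ↥(modularFunctionFieldFullC (ResidueField A) M)]
variable [Infinite (ResidueField A)]
variable (H : Hyp (gaussDatum M A hA hqM) gL gk)
variable (hα : (heckeAlphaBar Kb M q).toRingHom.IsIntegral)
variable (hβ : (heckeBetaBar Kb M q).toRingHom.IsIntegral)
variable {T : Set (Place Kb ↥(modularFunctionFieldBar (M * q)))}
variable {Q1 Q2 : Place (ResidueField A) ↥(modularFunctionFieldFullC (ResidueField A) M)}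

/-- the `q`-th power of a Frobenius pull-back has order `q²` times the order two steps further -/
theorem ord_phi_pow (v : Place (ResidueField A) ↥(modularFunctionFieldFullC (ResidueField A) M))
    (g : ↥(modularFunctionFieldFullC (ResidueField A) M)) :
    v.ord (phi (ResidueField A) M q g ^ q) =
      (q : ℤ) * ((q : ℤ) * (Fr (ResidueField A) M q v).ord g) := by
  rw [Fermat.Agent.S18.CoreOrd.ord_pow, ord_phi]

/-- **the pair of a node** -/
theorem exists_pair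
    (hT : ∀ σ : GQ, σ ∈ Iq → ∀ P ∈ T,
      arithmeticGalois (modularFunctionFieldFull (M * q)) σ • P ∈ T)
    (hT1 : ∀ P ∈ T, placeMap H (resAlong (heckeAlphaBar Kb M q) hα P) = Q1)
    (hT2 : ∀ P ∈ T, placeMap H (resAlong (heckeBetaBar Kb M q) hβ P) = Q2)
    (h12 : Fr (ResidueField A) M q Q1 = Q2) (h21 : Fr (ResidueField A) M q Q2 = Q1)
    (Q₀ : Place (ResidueField A) ↥(modularFunctionFieldFullC (ResidueField A) M))
    (hQ₀1 : Q₀ ≠ Q1) (hQ₀2 : Q₀ ≠ Q2) :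
    ∃ ξ₀ η₀ : ↥(Oe hA hqM T), rho2 hA hqM T ξ₀ = 0 ∧ rho1 hA hqM T η₀ = 0 ∧
      Q1.ord (rho1 hA hqM T ξ₀) = 1 ∧ Q2.ord (rho2 hA hqM T η₀) = 1 := by
  obtain ⟨t, ht⟩ := exists_ord_eq_one Q1
  have ht0 : t ≠ 0 := by
    rintro rfl
    rw [Place.ord_zero] at ht
    exact zero_ne_one ht
  set ψ := psi (ResidueField A) M q with hψ
  have hq2 : (2 : ℤ) ≤ q := by exact_mod_cast hq.out.two_le
  -- the orders of `ψ t` at `Q2` and of `ψ (ψ t)` at `Q1`
  have ho1 : Q2.ord (ψ t) = 1 := by rw [hψ, ord_psi, h21, ht]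
  have ho2 : Q1.ord (ψ (ψ t)) = 1 := by rw [hψ, ord_psi, h12, ← hψ, ho1]
  have hψt0 : ψ t ≠ 0 := (map_ne_zero_iff _ ψ.injective).mpr ht0
  have hψψt0 : ψ (ψ t) ≠ 0 := (map_ne_zero_iff _ ψ.injective).mpr hψt0
  obtain ⟨g₀, hg₀1, hg₀2⟩ := exists_alpha_lift H hα hT hT1 Q₀ hQ₀1 t (Or.inr (by rw [ht]; norm_num))
  obtain ⟨g₁, hg₁1, hg₁2⟩ := exists_beta_lift H hβ hT hT2 Q₀ hQ₀2 (ψ t)
    (Or.inr (by rw [ho1]; norm_num))
  obtain ⟨g₂, hg₂1, hg₂2⟩ := exists_alpha_lift H hα hT hT1 Q₀ hQ₀1 (ψ (ψ t))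
    (Or.inr (by rw [ho2]; norm_num))
  refine ⟨g₀ - g₁ ^ q, g₁ - g₂ ^ q, ?_, ?_, ?_, ?_⟩
  · rw [map_sub, map_pow, hg₀2, hg₁2, phi_eq_pow, sub_self]
  · rw [map_sub, map_pow, hg₁1, hg₂1, phi_eq_pow, sub_self]
  · rw [map_sub, map_pow, hg₀1, hg₁1]
    have hφ0 : phi (ResidueField A) M q (ψ t) ^ q ≠ 0 :=
      pow_ne_zero _ (phi_ne_zero _ _ _ hψt0)
    have hlt : Q1.ord t < Q1.ord (phi (ResidueField A) M q (ψ t) ^ q) := by
      rw [ord_phi_pow, h12, ho1, ht]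
      nlinarith
    rw [ord_sub_eq_of_lt Q1 ht0 hφ0 hlt, ht]
  · rw [map_sub, map_pow, hg₁2, hg₂2]
    have hφ0 : phi (ResidueField A) M q (ψ (ψ t)) ^ q ≠ 0 :=
      pow_ne_zero _ (phi_ne_zero _ _ _ hψψt0)
    have hlt : Q2.ord (ψ t) < Q2.ord (phi (ResidueField A) M q (ψ (ψ t)) ^ q) := by
      rw [ord_phi_pow, h21, ho2, ho1]
      nlinarith
    rw [ord_sub_eq_of_lt Q2 hψt0 hφ0 hlt, ho1]

/-! ### the two lifting properties -/

/-- regularity of a quotient by a parameter -/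
theorem div_regular {K F : Type*} [Field K] [Field F] [Algebra K F] (v : Place K F) {a τ : F}
    (hτ : v.ord τ = 1) (ha : a = 0 ∨ 0 < v.ord a) : a / τ = 0 ∨ 0 ≤ v.ord (a / τ) := by
  rcases ha with rfl | ha
  · left; rw [zero_div]
  · right
    have ha0 : a ≠ 0 := by
      rintro rfl
      rw [Place.ord_zero] at ha
      exact lt_irrefl _ ha
    have hτ0 : τ ≠ 0 := by
      rintro rfl
      rw [Place.ord_zero] at hτ
      exact zero_ne_one hτ
    rw [Fermat.Agent.S18.CoreOrd.ord_div v ha0 hτ0, hτ]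
    omega

/-- **(hlift₁)**: if `rho1 g` vanishes at `Q1` then `rho1 g = rho1 ξ₀ * rho1 F` for some `F` of the
chart ring -/
theorem exists_lift1
    (hT : ∀ σ : GQ, σ ∈ Iq → ∀ P ∈ T,
      arithmeticGalois (modularFunctionFieldFull (M * q)) σ • P ∈ T)
    (hT1 : ∀ P ∈ T, placeMap H (resAlong (heckeAlphaBar Kb M q) hα P) = Q1)
    (Q₀ : Place (ResidueField A) ↥(modularFunctionFieldFullC (ResidueField A) M)) (hQ₀1 : Q₀ ≠ Q1)
    {ξ₀ : ↥(Oe hA hqM T)} (hξ : Q1.ord (rho1 hA hqM T ξ₀) = 1) (g : ↥(Oe hA hqM T))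
    (hg : rho1 hA hqM T g = 0 ∨ 0 < Q1.ord (rho1 hA hqM T g)) :
    ∃ F : ↥(Oe hA hqM T), rho1 hA hqM T (g - ξ₀ * F) = 0 := by
  obtain ⟨F, hF, -⟩ := exists_alpha_lift H hα hT hT1 Q₀ hQ₀1
    (rho1 hA hqM T g / rho1 hA hqM T ξ₀) (div_regular Q1 hξ hg)
  have hτ0 : rho1 hA hqM T ξ₀ ≠ 0 := by
    intro h0
    rw [h0, Place.ord_zero] at hξ
    exact zero_ne_one hξ
  refine ⟨F, ?_⟩
  rw [map_sub, map_mul, hF, mul_div_cancel₀ _ hτ0, sub_self]

/-- **(hlift₂)**: the same on the second component -/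
theorem exists_lift2
    (hT : ∀ σ : GQ, σ ∈ Iq → ∀ P ∈ T,
      arithmeticGalois (modularFunctionFieldFull (M * q)) σ • P ∈ T)
    (hT2 : ∀ P ∈ T, placeMap H (resAlong (heckeBetaBar Kb M q) hβ P) = Q2)
    (Q₀ : Place (ResidueField A) ↥(modularFunctionFieldFullC (ResidueField A) M)) (hQ₀2 : Q₀ ≠ Q2)
    {η₀ : ↥(Oe hA hqM T)} (hη : Q2.ord (rho2 hA hqM T η₀) = 1) (g : ↥(Oe hA hqM T))
    (hg : rho2 hA hqM T g = 0 ∨ 0 < Q2.ord (rho2 hA hqM T g)) :
    ∃ F : ↥(Oe hA hqM T), rho2 hA hqM T (g - η₀ * F) = 0 := by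
  obtain ⟨F, -, hF⟩ := exists_beta_lift H hβ hT hT2 Q₀ hQ₀2
    (rho2 hA hqM T g / rho2 hA hqM T η₀) (div_regular Q2 hη hg)
  have hτ0 : rho2 hA hqM T η₀ ≠ 0 := by
    intro h0
    rw [h0, Place.ord_zero] at hη
    exact zero_ne_one hη
  refine ⟨F, ?_⟩
  rw [map_sub, map_mul, hF, mul_div_cancel₀ _ hτ0, sub_self]

/-! ### gluing and units -/

open Fermat.Agent.S36.GaussUniqK0 (O0 K0) in
/-- every element of the residue field of `A` is the residue of a constant of `A ∩ K0` -/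
theorem exists_const_residue (hA : A.LiesOverPrime q) (γ : ResidueField ↥A) :
    ∃ w : ↥(O0 A), residue ↥A ⟨((w : ↥(K0 A)) : Kb), w.2⟩ = γ := by
  obtain ⟨w, hw⟩ := Fermat.Agent.S36.GaussK0.piW_surjective hA γ
  exact ⟨w, hw⟩

open Fermat.Agent.S36.GaussUniqK0 (O0 K0) in
/-- **(hglue)** from the local gluing at the node: if the two reductions of every function of the
chart ring take one and the same value at `Q1`, `Q2`, then after subtracting a constant of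
`A ∩ K0` both reductions vanish there -/
theorem exists_const_of_glue
    (hG : ∀ f : ↥(Oe hA hqM T), ∃ γ : ResidueField ↥A,
      (rho1 hA hqM T f = algebraMap (ResidueField ↥A) _ γ ∨
        0 < Q1.ord (rho1 hA hqM T f - algebraMap (ResidueField ↥A) _ γ)) ∧
      (rho2 hA hqM T f = algebraMap (ResidueField ↥A) _ γ ∨
        0 < Q2.ord (rho2 hA hqM T f - algebraMap (ResidueField ↥A) _ γ)))
    (f : ↥(Oe hA hqM T)) :
    ∃ w : ↥(O0 A),
      (rho1 hA hqM T (f - constHom hA hqM T w) = 0 ∨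
        0 < Q1.ord (rho1 hA hqM T (f - constHom hA hqM T w))) ∧
      (rho2 hA hqM T (f - constHom hA hqM T w) = 0 ∨
        0 < Q2.ord (rho2 hA hqM T (f - constHom hA hqM T w))) := by
  obtain ⟨γ, h1, h2⟩ := hG f
  obtain ⟨w, hw⟩ := exists_const_residue hA γ
  refine ⟨w, ?_, ?_⟩
  · rw [map_sub, rho1_constHom, hw]
    rcases h1 with h1 | h1
    · left; rw [h1, sub_self]
    · right; exact h1
  · rw [map_sub, rho2_constHom, hw]
    rcases h2 with h2 | h2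
    · left; rw [h2, sub_self]
    · right; exact h2

/-- **(hunit)**: a function of the chart ring whose two reductions are non-zero and which has no
zero on the tube is a unit of the chart ring -/
theorem isUnit_of_ord_eq_zero (g : ↥(Oe hA hqM T)) (h1 : rho1 hA hqM T g ≠ 0)
    (h2 : rho2 hA hqM T g ≠ 0) (h0 : ∀ P ∈ T, P.ord (tB Iq (M * q) (g : FK Iq (M * q))) = 0) :
    IsUnit g := by
  have hn1 : (g : FK Iq (M * q)) ∉ (V1K Iq hA hqM).nonunits := by
    rw [mem_nonunits_comap_iff']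
    rw [rho1_apply, Ne, red₁_eq_zero_iff_mem_nonunits] at h1
    exact h1
  have hn2 : (g : FK Iq (M * q)) ∉ (V2K Iq hA hqM).nonunits := by
    rw [mem_nonunits_comap_iff']
    rw [rho2_apply, Ne, red₂_eq_zero_iff_mem_nonunits] at h2
    exact h2
  have hv1 : (V1K Iq hA hqM).valuation (g : FK Iq (M * q)) = 1 :=
    le_antisymm (((V1K Iq hA hqM).valuation_le_one_iff _).mpr g.2.1)
      (not_lt.mp fun h => hn1 ((V1K Iq hA hqM).mem_nonunits_iff.mpr h))
  have hv2 : (V2K Iq hA hqM).valuation (g : FK Iq (M * q)) = 1 :=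
    le_antisymm (((V2K Iq hA hqM).valuation_le_one_iff _).mpr g.2.2.1)
      (not_lt.mp fun h => hn2 ((V2K Iq hA hqM).mem_nonunits_iff.mpr h))
  have hg0 : (g : FK Iq (M * q)) ≠ 0 := by
    intro h
    rw [h, map_zero] at hv1
    exact zero_ne_one hv1
  have hi1 : (g : FK Iq (M * q))⁻¹ ∈ V1K Iq hA hqM := by
    rw [← (V1K Iq hA hqM).valuation_le_one_iff, map_inv₀, hv1, inv_one]
  have hi2 : (g : FK Iq (M * q))⁻¹ ∈ V2K Iq hA hqM := by
    rw [← (V2K Iq hA hqM).valuation_le_one_iff, map_inv₀, hv2, inv_one]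
  have hi3 : ∀ P ∈ T, 0 ≤ P.ord (tB Iq (M * q) (g : FK Iq (M * q))⁻¹) := by
    intro P hP
    rw [map_inv₀, P.ord_inv, h0 P hP, neg_zero]
  refine isUnit_iff_exists_inv.mpr ⟨⟨(g : FK Iq (M * q))⁻¹, hi1, hi2, hi3⟩, ?_⟩
  exact Subtype.ext (mul_inv_cancel₀ hg0)

/-! ### the assembly: `Core/NodeGen.exists_node_pair` for the chart ring -/

open Fermat.Agent.S36.GaussUniqK0 (O0 K0) in
variable (hA hqM T) in
/-- the algebra structure of the chart ring over `A ∩ K0` (NOT a global instance) -/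
abbrev algOe : Algebra ↥(O0 A) ↥(Oe hA hqM T) := (constHom hA hqM T).toAlgebra

open Fermat.Agent.S36.GaussUniqK0 (O0 K0) in
theorem algebraMap_algOe (w : ↥(O0 A)) :
    @algebraMap ↥(O0 A) ↥(Oe hA hqM T) _ _ (algOe hA hqM T) w = constHom hA hqM T w := rfl

/-- `q = 0` in `κ` -/
theorem natCast_kappa_eq_zero :
    ((q : ℕ) : ↥(modularFunctionFieldFullC (ResidueField ↥A) M)) = 0 := by
  rw [← map_natCast (algebraMap (ResidueField ↥A)
    ↥(modularFunctionFieldFullC (ResidueField ↥A) M)), CharP.cast_eq_zero, map_zero]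

open Fermat.Agent.S36.GaussUniqK0 (O0 K0 isDiscreteValuationRing_O0 irreducible_natCast_O0) in
/-- **the exact pair of a node of `X₀(M q)`, one call.**  From the inertia-stability of the tube
`T`, the two specialisation identities on `T`, the Frobenius exchange of `Q1`, `Q2`, the local
gluing `hG` and the unit criterion `hU`: a pair `ξ₀ η₀` of the chart ring such that for every
a-priori bound `B` on the thickness the conclusion of `Core/NodeGen.exists_node_pair` holds. -/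
theorem exists_node_pair_X0
    (hT : ∀ σ : GQ, σ ∈ Iq → ∀ P ∈ T,
      arithmeticGalois (modularFunctionFieldFull (M * q)) σ • P ∈ T)
    (hT1 : ∀ P ∈ T, placeMap H (resAlong (heckeAlphaBar Kb M q) hα P) = Q1)
    (hT2 : ∀ P ∈ T, placeMap H (resAlong (heckeBetaBar Kb M q) hβ P) = Q2)
    (h12 : Fr (ResidueField A) M q Q1 = Q2) (h21 : Fr (ResidueField A) M q Q2 = Q1)
    (Q₀ : Place (ResidueField A) ↥(modularFunctionFieldFullC (ResidueField A) M))
    (hQ₀1 : Q₀ ≠ Q1) (hQ₀2 : Q₀ ≠ Q2)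
    (hG : ∀ f : ↥(Oe hA hqM T), ∃ γ : ResidueField ↥A,
      (rho1 hA hqM T f = algebraMap (ResidueField ↥A) _ γ ∨
        0 < Q1.ord (rho1 hA hqM T f - algebraMap (ResidueField ↥A) _ γ)) ∧
      (rho2 hA hqM T f = algebraMap (ResidueField ↥A) _ γ ∨
        0 < Q2.ord (rho2 hA hqM T f - algebraMap (ResidueField ↥A) _ γ)))
    (hU : ∀ g : ↥(Oe hA hqM T), rho1 hA hqM T g = 1 → rho2 hA hqM T g = 1 →
      ∀ P ∈ T, P.ord (tB Iq (M * q) (g : FK Iq (M * q))) = 0) :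
    ∃ ξ₀ η₀ : ↥(Oe hA hqM T), rho2 hA hqM T ξ₀ = 0 ∧ rho1 hA hqM T η₀ = 0 ∧
      Q1.ord (rho1 hA hqM T ξ₀) = 1 ∧ Q2.ord (rho2 hA hqM T η₀) = 1 ∧
      ∀ B : ℕ,
        (∀ ξ η : ↥(Oe hA hqM T),
          ξ - ξ₀ ∈ Ideal.span {((q : ℕ) : ↥(Oe hA hqM T))} →
          η - η₀ ∈ Ideal.span {((q : ℕ) : ↥(Oe hA hqM T))} →
          ξ * η ∉ Ideal.span {((q : ℕ) : ↥(Oe hA hqM T))} ^ (B + 1)) →
        ∃ (ξ ζ : ↥(Oe hA hqM T)) (U : (↥(Oe hA hqM T))ˣ) (w : ℕ), 1 ≤ w ∧ w ≤ B ∧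
          ξ * ζ = ((q : ℕ) : ↥(Oe hA hqM T)) ^ w ∧
          rho1 hA hqM T ξ = rho1 hA hqM T ξ₀ ∧ rho2 hA hqM T ξ = 0 ∧ rho1 hA hqM T ζ = 0 ∧
          rho2 hA hqM T ζ = rho2 hA hqM T (U : ↥(Oe hA hqM T)) * rho2 hA hqM T η₀ := by
  letI := algOe hA hqM T
  haveI := isDiscreteValuationRing_O0 hA
  obtain ⟨ξ₀, η₀, hξ2, hη1, hξo, hηo⟩ := exists_pair H hα hβ hT hT1 hT2 h12 h21 Q₀ hQ₀1 hQ₀2
  refine ⟨ξ₀, η₀, hξ2, hη1, hξo, hηo, fun B hB => ?_⟩
  have e : algebraMap ↥(O0 A) ↥(Oe hA hqM T) ((q : ℕ) : ↥(O0 A)) = ((q : ℕ) : ↥(Oe hA hqM T)) :=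
    map_natCast _ _
  have hπ1 : rho1 hA hqM T (algebraMap ↥(O0 A) ↥(Oe hA hqM T) ((q : ℕ) : ↥(O0 A))) = 0 := by
    rw [e, map_natCast]; exact natCast_kappa_eq_zero
  have hπ2 : rho2 hA hqM T (algebraMap ↥(O0 A) ↥(Oe hA hqM T) ((q : ℕ) : ↥(O0 A))) = 0 := by
    rw [e, map_natCast]; exact natCast_kappa_eq_zero
  have key := Fermat.Agent.S44.Core.NodeGen.exists_node_pair (rho1 hA hqM T) (rho2 hA hqM T)
    (irreducible_natCast_O0 hA)
    (fun φ => φ = 0 ∨ 0 < Q1.ord φ) (fun φ => φ = 0 ∨ 0 < Q2.ord φ) hξ2 hη1 hπ1 hπ2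
    (fun f => exists_const_of_glue hG f)
    (fun g hg => exists_lift1 H hα hT hT1 Q₀ hQ₀1 hξo g hg)
    (fun g hg => exists_lift2 H hβ hT hT2 Q₀ hQ₀2 hηo g hg)
    (fun g h1 h2 => by
      obtain ⟨F, hF⟩ := exists_mul_of_rho_eq_zero g h1 h2
      exact ⟨F, by rw [hF, e]⟩)
    (fun g h1 h2 => isUnit_of_ord_eq_zero g (by rw [h1]; exact one_ne_zero)
      (by rw [h2]; exact one_ne_zero) (hU g h1 h2))
    B (by rw [e]; exact hB)
  rw [e] at key
  exact key

end Fermat.Agent.S44.X0.NodePair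

end
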