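/-
PROJECT P (S44), X0/TubeDich (helper25): THE KRONECKER DICHOTOMY AT EVERY NON-CUSPIDAL PLACE.

Main proves `Generic.Compat.GenericAt.dich` at the GOOD places only.  The underlying statement
`Generic/Dich.DichHyp.dich'` needs nothing but "`Q` is not a cusp" and the integrality hypothesis
`hval`, which `Generic/PCSetup.hint_of_setup` delivers at EVERY place.  So for every place `P` of
`ℚ̄(X₀(M q))` whose first specialisation `Q = sp1 P` is not a cusp, the second specialisation is
`Fr Q` or `Fr⁻¹ Q`.  In particular on the tube of a node `(Fr b, b)`, `Fr (Fr b) = b`, the second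
specialisation map is constant equal to `b`.

* `dich_raw` : the statement in the vocabulary of `Generic/…X0` (`raX0`, `rbX0`);
* `sp_dich` : the same for `placeMap H ∘ resAlong α`, `placeMap H ∘ resAlong β`;
* `sp_eq_of_node` : `sp2 = b` on `{sp1 = Fr b}` if `Fr (Fr b) = b` and `Fr b` is not a cusp.
-/
import Mathlib
import Fermat.Agent.S34.CoreZX0

set_option autoImplicit false
set_option linter.unusedSectionVars false
set_option linter.style.haveILetI false
set_option synthInstance.maxHeartbeats 400000

noncomputable section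

namespace Fermat.Agent.S44.X0.TubeDich

open ModularCurve AlgebraicCurve IsLocalRing
open Fermat.Agent.S24.DegreeAlg (jgen)
open Fermat.Agent.S18.B.FkBasics (jk)
open Fermat.Agent.S24.Ord
open Fermat.Agent.S37.Deuring.Core Fermat.Agent.S37.Gauss.Datum
open Fermat.Agent.S34.FrobK Fermat.Agent.S34.PowerBasisX0 Fermat.Agent.S34.TwoGaussX0
open Fermat.Agent.S34.Generic.Dich Fermat.Agent.S34.Generic.CompatX0
open Fermat.Agent.S34.Generic.BranchX0 Fermat.Agent.S34.Generic.DichRecordX0
open Fermat.Agent.S34.Generic.RestrAlong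

local notation "Kb" => AlgebraicClosure ℚ

attribute [local instance] algFE
attribute [local instance] Fermat.Agent.S18.GaussFromHBar.hasPrincipalDivisors_bar
attribute [local instance] Fermat.Agent.S37.ReductionInputs.hasPrincipalDivisors_Fk
attribute [local instance] Fermat.Agent.S37.ReductionInputs.infinite_residueField
attribute [local instance] Fermat.Agent.S18.ResidueBasics.isAlgClosed_residueField

variable {q : ℕ} [hq : Fact q.Prime] {M : ℕ} [NeZero M] [NeZero q] {A : ValuationSubring Kb}
variable (hA : A.LiesOverPrime q) (hqM : ¬ q ∣ M)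
variable {gL gk : ℕ} (H : Hyp (gaussDatum M A hA hqM) gL gk)
variable [CharP (ResidueField ↥A) q]

set_option maxHeartbeats 1600000 in
/-- **the Kronecker dichotomy at EVERY non-cuspidal place** (good or not), in the vocabulary of
`S34/Generic/…X0` -/
theorem dich_raw (Q : Place (ResidueField ↥A) ↥(modularFunctionFieldFullC (ResidueField ↥A) M))
    (hQ0 : 0 ≤ Q.ord (jk (ResidueField ↥A) M))
    (P : Place Kb ↥(modularFunctionFieldBar (M * q)))
    (hP : placeMap H ((raX0 hqM).res P) = Q) :
    placeMap H ((rbX0 (M := M) (q := q)).res P) = Fr (ResidueField ↥A) M q Q ∨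
      Fr (ResidueField ↥A) M q (placeMap H ((rbX0 (M := M) (q := q)).res P)) = Q := by
  haveI := isScalarTower_along (heckeAlphaBar Kb M q)
  haveI := finite_FE (q := q) hqM
  haveI := isSeparable_FE (q := q) (M := M) hqM
  have hL := Fermat.Agent.S34.CoreZX0.liftX0 hA hqM H
  have HD := dichHyp_of hA hqM H hL.1 hL.2
  have hdegF : ∀ P : Place Kb ↥(modularFunctionFieldBar (M * q)), P.deg = 1 :=
    fun P => deg_eq_one (Fermat.Agent.S24.Degree.isFF (M * q)) P
  refine HD.dich' (mem_NCX0 Q hQ0) ?_ P hP
  exact hval_of_hint (RX0 hA hqM H) (raX0 hqM) HD.α_const HD.degM hdegF _ _ Q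
    (Fermat.Agent.S34.Generic.PCSetup.hint_of_setup (raX0 hqM) (fun P => rfl)
      (setupX0 hA hqM) (isExt₁ hA hqM) (isExt_comap hA hqM) Q)

variable {hA hqM}

/-- **the Kronecker dichotomy for the two total specialisation maps**
`placeMap H ∘ resAlong α`, `placeMap H ∘ resAlong β` -/
theorem sp_dich (hα : (heckeAlphaBar Kb M q).toRingHom.IsIntegral)
    (hβ : (heckeBetaBar Kb M q).toRingHom.IsIntegral)
    (Q : Place (ResidueField ↥A) ↥(modularFunctionFieldFullC (ResidueField ↥A) M))
    (hQ0 : 0 ≤ Q.ord (jk (ResidueField ↥A) M))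
    (P : Place Kb ↥(modularFunctionFieldBar (M * q)))
    (hP : placeMap H (resAlong (heckeAlphaBar Kb M q) hα P) = Q) :
    placeMap H (resAlong (heckeBetaBar Kb M q) hβ P) = Fr (ResidueField ↥A) M q Q ∨
      Fr (ResidueField ↥A) M q (placeMap H (resAlong (heckeBetaBar Kb M q) hβ P)) = Q :=
  dich_raw hA hqM H Q hQ0 P hP

/-- on the tube of a node `(Fr b, b)` (`Fr (Fr b) = b`, `Fr b` not a cusp) the second
specialisation map is constant equal to `b` -/
theorem sp_eq_of_node (hα : (heckeAlphaBar Kb M q).toRingHom.IsIntegral)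
    (hβ : (heckeBetaBar Kb M q).toRingHom.IsIntegral)
    (b : Place (ResidueField ↥A) ↥(modularFunctionFieldFullC (ResidueField ↥A) M))
    (hb0 : 0 ≤ (Fr (ResidueField ↥A) M q b).ord (jk (ResidueField ↥A) M))
    (hfr : Fr (ResidueField ↥A) M q (Fr (ResidueField ↥A) M q b) = b)
    (P : Place Kb ↥(modularFunctionFieldBar (M * q)))
    (hP : placeMap H (resAlong (heckeAlphaBar Kb M q) hα P) = Fr (ResidueField ↥A) M q b) :
    placeMap H (resAlong (heckeBetaBar Kb M q) hβ P) = b := by
  rcases sp_dich H hα hβ _ hb0 P hP with h | h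
  · rw [h, hfr]
  · exact (Fr (ResidueField ↥A) M q).injective h

end Fermat.Agent.S44.X0.TubeDich

end
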