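/-
PROJECT P (S44), X0/NodePairInst (helper25): THE NODE PAIR AT THE CHART FRAME.

`X0/NodePair.exists_node_pair_X0` instantiated at a node `e` of a chart frame `F` with local node
hypotheses `Y : NodeHyp F`, standard reductions `RedStd F`, `RedStd2 F`, helper15's local count and
STANDARD SPECIALISATION MAPS (`SpStd Y`: `Y.sp1`, `Y.sp2` are `placeMap H ∘ resAlong α / β`; true by
`rfl` for the explicit frame of `Core/FrameHyp`, see `spStd_nodeHypOf`).

* `glue_Oe` : the local gluing `hG` of `exists_node_pair_X0` for the chart ring of the tube `Y.tube e`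
  (from `NodeHyp.glue_node`);
* `ord_eq_zero_Oe` : the unit criterion `hU` (from `HasLocalCount.node`);
* `tube_sp2` : `sp2 = e2 e` on the tube (Kronecker dichotomy at the node, `X0/TubeDich`);
* `exists_nodeCoord` : from an a-priori bound `B` on the thickness (hypothesis `hB`, produced by
  `X0/NodeBound` from the modular unit): `w ξ ζ` with
  `Core.NodeFrame.IsNodeCoord … (Y.tube e) ξ ζ (thickPow A p w)`, `1 ≤ w ≤ B`, `ξ` inertia-fixed
  = one field-tuple of `X0/NodeFrameDef.NodeFrame` at `e`;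
* `nonempty_nodeFrame_of_bound` : all nodes at once.
-/
import Mathlib
import Fermat.Agent.S44.X0.TubeDich
import Fermat.Agent.S44.X0.NodePair
import Fermat.Agent.S44.X0.NodeFrameDef

set_option autoImplicit false
set_option linter.unusedSectionVars false
set_option linter.unusedVariables false
set_option linter.style.haveILetI false
set_option synthInstance.maxHeartbeats 400000
set_option maxHeartbeats 400000

noncomputable section

namespace Fermat.Agent.S44.X0.NodePairInst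

open ModularCurve AlgebraicCurve IsLocalRing
open Fermat.Agent.S34.NodalDefs Fermat.Agent.S34.CoreZX0Datum
open Fermat.Agent.S33.X0.Frame
open Fermat.Agent.S44.Core.FrameHyp Fermat.Agent.S44.Core.TubeCount
open Fermat.Agent.S44.Core.NodeFrame
open Fermat.Agent.S44.Eis.HeckeNode
open Fermat.Agent.S44.X0.FrameAll Fermat.Agent.S44.X0.NodeFrameDef
open Fermat.Agent.S44.X0.NodeRing Fermat.Agent.S44.X0.NodePair
open Fermat.Agent.S36.PowerBasisK0
open Fermat.Agent.S34.GaussPairX0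
open Fermat.Agent.S37.Deuring.Core Fermat.Agent.S37.Gauss.Datum
open Fermat.Agent.S34.Generic.RestrAlong
open Fermat.Agent.S34.Generic.FibAlphaX0 Fermat.Agent.S34.Generic.FibBetaX0

local notation "Qbar" => AlgebraicClosure ℚ
local notation "GQ" => (AlgebraicClosure ℚ ≃ₐ[ℚ] AlgebraicClosure ℚ)

attribute [local instance 2000] Fermat.Agent.S34.EulerX0.algResFk

local instance instPDBar5 (N : ℕ) [NeZero N] :
    HasPrincipalDivisors Qbar ↥(modularFunctionFieldBar N) :=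
  Fermat.Agent.S18.A.Instances.hasPrincipalDivisors_bar N

local instance instPDFk5 (A : ValuationSubring Qbar) (N : ℕ) [NeZero N] :
    HasPrincipalDivisors (ResidueField ↥A) ↥(modularFunctionFieldFullC (ResidueField ↥A) N) :=
  Fermat.Agent.S37.ReductionInputs.hasPrincipalDivisors_Fk A N

local instance instACk5 (A : ValuationSubring Qbar) : IsAlgClosed (ResidueField ↥A) :=
  Fermat.Agent.S18.ResidueBasics.isAlgClosed_residueField A

local instance instInfk5 (A : ValuationSubring Qbar) : Infinite (ResidueField ↥A) :=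
  Fermat.Agent.S37.ReductionInputs.infinite_residueField A

local instance instNeZeroMul5 (M q : ℕ) [NeZero M] [NeZero q] : NeZero (M * q) :=
  ⟨Nat.mul_ne_zero (NeZero.ne M) (NeZero.ne q)⟩

variable {p : ℕ} [hp : Fact p.Prime] {M : ℕ} [NeZero M] {A : ValuationSubring Qbar} [NeZero p]
variable {hA : A.LiesOverPrime p} {hpM : ¬ p ∣ M}

local notation "Iq" => A.inertiaSubgroupIn ℚ

/-! ### standard specialisation maps -/

/-- the two total specialisation maps of the frame are the standard ones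
`placeMap H ∘ resAlong α`, `placeMap H ∘ resAlong β` -/
def SpStd {F : ChartFrame hA hpM} (Y : NodeHyp F) : Prop :=
  ∃ (gL gk : ℕ) (H : Hyp (gaussDatum M A hA hpM) gL gk),
    (∀ P : Place Qbar ↥(modularFunctionFieldBar (M * p)),
      Y.sp1 P = placeMap H (resAlong (heckeAlphaBar Qbar M p) (isIntegral_alpha hpM) P)) ∧
    (∀ P : Place Qbar ↥(modularFunctionFieldBar (M * p)),
      Y.sp2 P = placeMap H (resAlong (heckeBetaBar Qbar M p) (isIntegral_beta M p) P))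

/-- the explicit frame of `Core/FrameHyp` has standard specialisation maps -/
theorem spStd_nodeHypOf [CharP (ResidueField ↥A) p] {gM : ℕ}
    (HM : Fermat.Agent.S18.NonSpecial.RiemannHyp (ResidueField ↥A)
      ↥(modularFunctionFieldFullC (ResidueField ↥A) M) gM)
    (hgen : Fermat.Agent.S34.CoreZX0OfGeneric.GenericX0 hA hpM
      (Fermat.Agent.S34.CoreZX0OfGeneric.HX0 hA hpM HM))
    (Y : Fermat.Agent.S34.CoreZX0Build.NodesC (Fermat.Agent.S34.CoreZX0OfGeneric.inputsX0 hgen))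
    (hY : (Y.gE : ℤ) + 1 = gM + gM + Y.S.card)
    (hFF : ∀ b ∈ Y.S, Fermat.Agent.S34.FrobK.Fr (ResidueField ↥A) M p
      (Fermat.Agent.S34.FrobK.Fr (ResidueField ↥A) M p b) = b ∧
      b ∉ Fermat.Agent.S34.Euler.FrobSide.P0 (ResidueField ↥A) M) :
    SpStd (nodeHypOf HM hgen Y hY hFF) :=
  ⟨_, _, Fermat.Agent.S34.CoreZX0OfGeneric.HX0 hA hpM HM, fun _ => rfl, fun _ => rfl⟩

/-! ### the chart ring of a tube inside the two Gauss rings of the frame -/

variable {F : ChartFrame hA hpM}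

theorem tB_mem_R1 (F : ChartFrame hA hpM)
    {T : Set (Place Qbar ↥(modularFunctionFieldBar (M * p)))} (g : ↥(Oe hA hpM T)) :
    tB Iq (M * p) (g : FK Iq (M * p)) ∈ F.X.N.R1.O :=
  mem_of_mem_V₁ F (ValuationSubring.mem_comap.mp g.2.1)

theorem tB_mem_R2 (F : ChartFrame hA hpM)
    {T : Set (Place Qbar ↥(modularFunctionFieldBar (M * p)))} (g : ↥(Oe hA hpM T)) :
    tB Iq (M * p) (g : FK Iq (M * p)) ∈ F.X.N.R2.O :=
  mem_of_mem_V₂ F (ValuationSubring.mem_comap.mp g.2.2.1)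

/-- the first reduction of the frame on the chart ring is `rho1` -/
theorem red1_tB (hstd : RedStd F)
    {T : Set (Place Qbar ↥(modularFunctionFieldBar (M * p)))} (g : ↥(Oe hA hpM T)) :
    F.X.N.R1.red ⟨tB Iq (M * p) (g : FK Iq (M * p)), tB_mem_R1 F g⟩ = rho1 hA hpM T g := by
  rw [rho1_apply]
  exact hstd _ _ _

/-- the second reduction of the frame on the chart ring is `rho2` -/
theorem red2_tB (hstd2 : Fermat.Agent.S44.Eis.HeckeNode.RedStd2 F)
    {T : Set (Place Qbar ↥(modularFunctionFieldBar (M * p)))} (g : ↥(Oe hA hpM T)) :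
    F.X.N.R2.red ⟨tB Iq (M * p) (g : FK Iq (M * p)), tB_mem_R2 F g⟩ = rho2 hA hpM T g := by
  rw [rho2_apply]
  exact hstd2 _ _ _

variable (Y : NodeHyp F)

/-- **(hG)** the local gluing at the node `e` for the chart ring of its tube -/
theorem glue_Oe (hstd : RedStd F) (hstd2 : Fermat.Agent.S44.Eis.HeckeNode.RedStd2 F) (e : {b // b ∈ F.X.S})
    (f : ↥(Oe hA hpM (Y.tube e))) :
    ∃ γ : ResidueField ↥A,
      (rho1 hA hpM (Y.tube e) f = algebraMap (ResidueField ↥A) _ γ ∨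
        0 < (F.X.N.e1 e).ord (rho1 hA hpM (Y.tube e) f - algebraMap (ResidueField ↥A) _ γ)) ∧
      (rho2 hA hpM (Y.tube e) f = algebraMap (ResidueField ↥A) _ γ ∨
        0 < (F.X.N.e2 e).ord (rho2 hA hpM (Y.tube e) f - algebraMap (ResidueField ↥A) _ γ)) := by
  obtain ⟨γ, h1, h2⟩ := Y.glue_node ⟨_, tB_mem_R1 F f⟩ ⟨_, tB_mem_R2 F f⟩ rfl e
    (fun P hP hPT => absurd (f.2.2.2 P hPT) (not_le.mpr hP))
  rw [red1_tB hstd] at h1
  rw [red2_tB hstd2] at h2
  exact ⟨γ, h1, h2⟩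

/-- **(hU)** a function of the chart ring with both reductions `1` has neither zero nor pole on
the tube -/
theorem ord_eq_zero_Oe (hstd : RedStd F) (hstd2 : Fermat.Agent.S44.Eis.HeckeNode.RedStd2 F) (hLC : HasLocalCount F Y)
    (e : {b // b ∈ F.X.S}) (g : ↥(Oe hA hpM (Y.tube e)))
    (h1 : rho1 hA hpM (Y.tube e) g = 1) (h2 : rho2 hA hpM (Y.tube e) g = 1) :
    ∀ P ∈ Y.tube e, P.ord (tB Iq (M * p) (g : FK Iq (M * p))) = 0 := by
  refine (hLC.node e).ord_eq_zero (φ1 := 1) (φ2 := 1) ⟨tB_mem_R1 F g, ?_⟩ ⟨tB_mem_R2 F g, ?_⟩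
    one_ne_zero one_ne_zero (Place.ord_one _) (Place.ord_one _) g.2.2.2
  · exact (red1_tB hstd g).trans h1
  · exact (red2_tB hstd2 g).trans h2

/-- the tube of a node is stable under the inertia group -/
theorem tube_smul (e : {b // b ∈ F.X.S}) : ∀ σ : GQ, σ ∈ Iq → ∀ P ∈ Y.tube e,
    arithmeticGalois (modularFunctionFieldFull (M * p)) σ • P ∈ Y.tube e :=
  fun σ hσ P hP => (Y.smul_mem_tube_iff hσ e P).mpr hP

/-- the second reduction of a function of the chart ring is regular at `e2 e` -/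
theorem ord_rho2_nonneg (hstd : RedStd F) (hstd2 : Fermat.Agent.S44.Eis.HeckeNode.RedStd2 F)
    (e : {b // b ∈ F.X.S}) (f : ↥(Oe hA hpM (Y.tube e))) :
    0 ≤ (F.X.N.e2 e).ord (rho2 hA hpM (Y.tube e) f) := by
  obtain ⟨γ, -, h2⟩ := glue_Oe Y hstd hstd2 e f
  have hc : 0 ≤ (F.X.N.e2 e).ord (algebraMap (ResidueField ↥A)
      ↥(modularFunctionFieldFullC (ResidueField ↥A) M) γ) :=
    (Fermat.Agent.S24.Ord.ord_algebraMap _ γ).ge
  rcases h2 with h2 | h2
  · rw [h2]; exact hc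
  · have h3 : rho2 hA hpM (Y.tube e) f = (rho2 hA hpM (Y.tube e) f -
        algebraMap (ResidueField ↥A) ↥(modularFunctionFieldFullC (ResidueField ↥A) M) γ) +
        algebraMap (ResidueField ↥A) ↥(modularFunctionFieldFullC (ResidueField ↥A) M) γ := by ring
    rw [h3]
    exact Fermat.Agent.S18.CoreOrd.ord_add_nonneg _ h2.le hc

/-- regularity in valuation form -/
theorem adicValuation_le_one_of_ord_nonneg {K E : Type*} [Field K] [Field E] [Algebra K E]
    (P : Place K E) {f : E} (h : 0 ≤ P.ord f) : P.adicValuation f ≤ 1 := by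
  rcases eq_or_ne f 0 with rfl | hf
  · rw [map_zero]; exact zero_le_one
  · exact (Fermat.Agent.S24.Ord.ord_nonneg_iff P hf).mp h

/-- `p` lies in the maximal ideal of `A` -/
theorem natCast_mem_maximalIdeal (hA : A.LiesOverPrime p) :
    ((p : ℕ) : ↥A) ∈ IsLocalRing.maximalIdeal ↥A := by
  haveI : CharP (ResidueField ↥A) p := Fermat.Agent.S18.ResidueBasics.charP_residueField A hA
  rw [← IsLocalRing.residue_eq_zero_iff, map_natCast]
  exact CharP.cast_eq_zero _ p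

set_option maxHeartbeats 1600000 in
/-- **THE NODE COORDINATES AT ONE NODE OF THE FRAME**, from an a-priori bound `B` on the thickness
(`hB`, produced by `X0/NodeBound` from the modular unit). -/
theorem exists_nodeCoord (hsp : SpStd Y) (hstd : RedStd F)
    (hstd2 : Fermat.Agent.S44.Eis.HeckeNode.RedStd2 F) (hLC : HasLocalCount F Y)
    (e : {b // b ∈ F.X.S}) (B : ℕ)
    (hB : ∀ ξ₀ η₀ : ↥(Oe hA hpM (Y.tube e)),
      rho2 hA hpM (Y.tube e) ξ₀ = 0 → rho1 hA hpM (Y.tube e) η₀ = 0 →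
      (F.X.N.e1 e).ord (rho1 hA hpM (Y.tube e) ξ₀) = 1 →
      (F.X.N.e2 e).ord (rho2 hA hpM (Y.tube e) η₀) = 1 →
      ∀ ξ η : ↥(Oe hA hpM (Y.tube e)),
        ξ - ξ₀ ∈ Ideal.span {((p : ℕ) : ↥(Oe hA hpM (Y.tube e)))} →
        η - η₀ ∈ Ideal.span {((p : ℕ) : ↥(Oe hA hpM (Y.tube e)))} →
        ξ * η ∉ Ideal.span {((p : ℕ) : ↥(Oe hA hpM (Y.tube e)))} ^ (B + 1)) :
    ∃ (w : ℕ) (ξ ζ : ↥(modularFunctionFieldBar (M * p))), 1 ≤ w ∧ w ≤ B ∧
      IsNodeCoord F.X.N.R1.toBranch F.X.N.R2.toBranch (F.X.N.e1 e) (F.X.N.e2 e) (Y.tube e) ξ ζ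
        (thickPow A p w) ∧
      ∀ σ ∈ Iq, arithmeticGalois (modularFunctionFieldFull (M * p)) σ • ξ = ξ := by
  haveI : CharP (ResidueField ↥A) p := Fermat.Agent.S18.ResidueBasics.charP_residueField A hA
  obtain ⟨gL, gk, H, hsp1, hsp2⟩ := hsp
  have hFr : Y.Fr = Fermat.Agent.S34.FrobK.Fr (ResidueField ↥A) M p := Y.Fr_eq
  have he1 : F.X.N.e1 e = Fermat.Agent.S34.FrobK.Fr (ResidueField ↥A) M p e.1 := by
    rw [Y.e1_eq e, hFr]
  have he2 : F.X.N.e2 e = e.1 := Y.e2_eq e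
  have hfr : Fermat.Agent.S34.FrobK.Fr (ResidueField ↥A) M p
      (Fermat.Agent.S34.FrobK.Fr (ResidueField ↥A) M p e.1) = e.1 := by
    have h := Y.fr_fr e.1 e.2
    rwa [hFr] at h
  have hreg : 0 ≤ (Fermat.Agent.S34.FrobK.Fr (ResidueField ↥A) M p e.1).ord
      (Fermat.Agent.S18.B.FkBasics.jk (ResidueField ↥A) M) := by
    have h := Y.node_reg e.1 e.2
    rwa [hFr] at h
  have hT1 : ∀ P ∈ Y.tube e, placeMap H (resAlong (heckeAlphaBar Qbar M p)
      (isIntegral_alpha hpM) P) = F.X.N.e1 e := fun P hP => (hsp1 P).symm.trans hP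
  have hT2 : ∀ P ∈ Y.tube e, placeMap H (resAlong (heckeBetaBar Qbar M p)
      (isIntegral_beta M p) P) = F.X.N.e2 e := fun P hP => by
    rw [he2]
    exact Fermat.Agent.S44.X0.TubeDich.sp_eq_of_node H _ _ e.1 hreg hfr P
      ((hT1 P hP).trans he1)
  have h12 : Fermat.Agent.S34.FrobK.Fr (ResidueField ↥A) M p (F.X.N.e1 e) = F.X.N.e2 e := by
    rw [he1, he2, hfr]
  have h21 : Fermat.Agent.S34.FrobK.Fr (ResidueField ↥A) M p (F.X.N.e2 e) = F.X.N.e1 e := by
    rw [he1, he2]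
  obtain ⟨Q₀, hQ₀⟩ := Fermat.Agent.S18.A.PoleBridge.exists_pole
    (Fermat.Agent.S18.B.FkBasics.isFF (ResidueField ↥A) M)
    (Fermat.Agent.S18.B.SeparableFk.isSeparable_jk (ResidueField ↥A) M)
  have hQ₀1 : Q₀ ≠ F.X.N.e1 e := by
    rintro rfl
    rw [he1] at hQ₀
    exact absurd hreg (not_le.mpr hQ₀)
  have hQ₀2 : Q₀ ≠ F.X.N.e2 e := by
    rintro rfl
    rw [he2] at hQ₀
    exact absurd (Y.node_reg2 e.1 e.2) (not_le.mpr hQ₀)
  obtain ⟨ξ₀, η₀, hξ2, hη1, hξo, hηo, hall⟩ :=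
    exists_node_pair_X0 H (isIntegral_alpha hpM) (isIntegral_beta M p)
      (tube_smul Y e) hT1 hT2 h12 h21 Q₀ hQ₀1 hQ₀2 (glue_Oe Y hstd hstd2 e)
      (ord_eq_zero_Oe Y hstd hstd2 hLC e)
  obtain ⟨ξ, ζ, U, w, hw1, hwB, hmul, hξ1, hξ2', hζ1, hζ2⟩ :=
    hall B (hB ξ₀ η₀ hξ2 hη1 hξo hηo)
  -- the unit `U` has a second reduction of order `0` at `e2 e`
  have hU0 : (F.X.N.e2 e).ord (rho2 hA hpM (Y.tube e) (U : ↥(Oe hA hpM (Y.tube e)))) = 0 := by
    have hne : rho2 hA hpM (Y.tube e) (U : ↥(Oe hA hpM (Y.tube e))) ≠ 0 :=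
      (U.isUnit.map (rho2 hA hpM (Y.tube e))).ne_zero
    have hne' : rho2 hA hpM (Y.tube e) ((U⁻¹ : (↥(Oe hA hpM (Y.tube e)))ˣ) :
        ↥(Oe hA hpM (Y.tube e))) ≠ 0 :=
      ((U⁻¹).isUnit.map (rho2 hA hpM (Y.tube e))).ne_zero
    have h1 := ord_rho2_nonneg Y hstd hstd2 e (U : ↥(Oe hA hpM (Y.tube e)))
    have h2 := ord_rho2_nonneg Y hstd hstd2 e
      ((U⁻¹ : (↥(Oe hA hpM (Y.tube e)))ˣ) : ↥(Oe hA hpM (Y.tube e)))
    have h3 : rho2 hA hpM (Y.tube e) (U : ↥(Oe hA hpM (Y.tube e))) *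
        rho2 hA hpM (Y.tube e) ((U⁻¹ : (↥(Oe hA hpM (Y.tube e)))ˣ) :
          ↥(Oe hA hpM (Y.tube e))) = 1 := by
      rw [← map_mul, Units.mul_inv, map_one]
    have h4 := congrArg (F.X.N.e2 e).ord h3
    rw [Place.ord_mul _ hne hne', Place.ord_one] at h4
    omega
  have hη0 : rho2 hA hpM (Y.tube e) η₀ ≠ 0 := by
    intro h
    rw [h, Place.ord_zero] at hηo
    exact zero_ne_one hηo
  have hpE : ((p : ℕ) : ↥(modularFunctionFieldBar (M * p))) ≠ 0 :=
    Nat.cast_ne_zero.mpr (NeZero.ne p)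
  have hmulE : tB Iq (M * p) (ξ : FK Iq (M * p)) * tB Iq (M * p) (ζ : FK Iq (M * p)) =
      ((p : ℕ) : ↥(modularFunctionFieldBar (M * p))) ^ w := by
    have h := congrArg (fun g : ↥(Oe hA hpM (Y.tube e)) => tB Iq (M * p) (g : FK Iq (M * p))) hmul
    simp only [Subring.coe_mul, Subring.coe_pow, Subring.coe_natCast, map_mul, map_pow,
      map_natCast] at h
    exact h
  refine ⟨w, tB Iq (M * p) (ξ : FK Iq (M * p)), tB Iq (M * p) (ζ : FK Iq (M * p)), hw1, hwB,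
    ⟨?_, ?_, ?_, ?_, ?_, ?_, ?_⟩, ?_⟩
  · exact Ideal.pow_mem_of_mem _ (natCast_mem_maximalIdeal hA) w hw1
  · rw [coe_thickPow]
    exact pow_ne_zero w (Nat.cast_ne_zero.mpr (NeZero.ne p))
  · rw [coe_thickPow, map_pow, map_natCast]
    exact hmulE
  · refine ⟨tB_mem_R1 F ξ, ?_⟩
    rw [red1_tB hstd ξ, hξ1]
    exact hξo
  · refine ⟨tB_mem_R2 F ζ, ?_⟩
    rw [red2_tB hstd2 ζ, hζ2, Place.ord_mul _ (U.isUnit.map (rho2 hA hpM (Y.tube e))).ne_zero hη0,
      hU0, hηo, zero_add]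
  · exact fun P hP => adicValuation_le_one_of_ord_nonneg P (ξ.2.2.2 P hP)
  · exact fun P hP => adicValuation_le_one_of_ord_nonneg P (ζ.2.2.2 P hP)
  · intro σ hσ
    exact Fermat.Agent.S36.K0Fixed.arithmeticGalois_smul_toBar (modularFunctionFieldFull (M * p)) _ σ
      (fun c : IntermediateField.fixedField Iq => c.2 ⟨σ, hσ⟩) (ξ : FK Iq (M * p))

/-- **THE NODE FRAME, all nodes at once**, from an a-priori bound `B` on the thickness at every
node. -/
theorem exists_nodeFrame_of_bound (hsp : SpStd Y) (hstd : RedStd F)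
    (hstd2 : Fermat.Agent.S44.Eis.HeckeNode.RedStd2 F) (hLC : HasLocalCount F Y) (B : ℕ)
    (hB : ∀ (e : {b // b ∈ F.X.S}) (ξ₀ η₀ : ↥(Oe hA hpM (Y.tube e))),
      rho2 hA hpM (Y.tube e) ξ₀ = 0 → rho1 hA hpM (Y.tube e) η₀ = 0 →
      (F.X.N.e1 e).ord (rho1 hA hpM (Y.tube e) ξ₀) = 1 →
      (F.X.N.e2 e).ord (rho2 hA hpM (Y.tube e) η₀) = 1 →
      ∀ ξ η : ↥(Oe hA hpM (Y.tube e)),
        ξ - ξ₀ ∈ Ideal.span {((p : ℕ) : ↥(Oe hA hpM (Y.tube e)))} →
        η - η₀ ∈ Ideal.span {((p : ℕ) : ↥(Oe hA hpM (Y.tube e)))} →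
        ξ * η ∉ Ideal.span {((p : ℕ) : ↥(Oe hA hpM (Y.tube e)))} ^ (B + 1)) :
    ∃ NF : NodeFrame F Y, ∀ e, NF.w e ≤ B := by
  choose w ξ ζ hw1 hwB hC hfix using
    fun e => exists_nodeCoord Y hsp hstd hstd2 hLC e B (hB e)
  exact ⟨{ w := w, ξ := ξ, ζ := ζ, w_pos := hw1, coord := hC, fixed := hfix }, hwB⟩

theorem nonempty_nodeFrame_of_bound (hsp : SpStd Y) (hstd : RedStd F)
    (hstd2 : Fermat.Agent.S44.Eis.HeckeNode.RedStd2 F) (hLC : HasLocalCount F Y) (B : ℕ)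
    (hB : ∀ (e : {b // b ∈ F.X.S}) (ξ₀ η₀ : ↥(Oe hA hpM (Y.tube e))),
      rho2 hA hpM (Y.tube e) ξ₀ = 0 → rho1 hA hpM (Y.tube e) η₀ = 0 →
      (F.X.N.e1 e).ord (rho1 hA hpM (Y.tube e) ξ₀) = 1 →
      (F.X.N.e2 e).ord (rho2 hA hpM (Y.tube e) η₀) = 1 →
      ∀ ξ η : ↥(Oe hA hpM (Y.tube e)),
        ξ - ξ₀ ∈ Ideal.span {((p : ℕ) : ↥(Oe hA hpM (Y.tube e)))} →
        η - η₀ ∈ Ideal.span {((p : ℕ) : ↥(Oe hA hpM (Y.tube e)))} →
        ξ * η ∉ Ideal.span {((p : ℕ) : ↥(Oe hA hpM (Y.tube e)))} ^ (B + 1)) :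
    Nonempty (NodeFrame F Y) :=
  (exists_nodeFrame_of_bound Y hsp hstd hstd2 hLC B hB).elim fun NF _ => ⟨NF⟩

/-! ### the frame of `X0/FrameAll` has standard specialisation maps -/

set_option maxHeartbeats 1600000 in
/-- **`X0/FrameAll.exists_frame` with the extra conjunct `SpStd Y`** (same explicit frame). -/
theorem exists_frame_spStd (hA : A.LiesOverPrime p) (hpM : ¬ p ∣ M) :
    ∃ (F : ChartFrame hA hpM) (Y : NodeHyp F), RedStd F ∧
      Fermat.Agent.S44.Eis.HeckeNode.RedStd2 F ∧ HasLocalCount F Y ∧ SpStd Y := by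
  haveI : CharP (ResidueField ↥A) p := Fermat.Agent.S18.ResidueBasics.charP_residueField A hA
  obtain ⟨gM, HM, hgen, Y, hY, hFF⟩ := exists_frameData hA hpM
  exact ⟨frameOf HM hgen Y hY, nodeHypOf HM hgen Y hY hFF, redStd1_frameOf, redStd2_frameOf,
    fun Q => Fermat.Agent.S44.X0.NodeCount.localCount hgen Q, spStd_nodeHypOf HM hgen Y hY hFF⟩

end Fermat.Agent.S44.X0.NodePairInst

end
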