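/-
PROJECT P (S44), X0/NodeUnit (helper6): THE FRAME-SIDE INPUTS OF `Core/NodeChart.exists_nodeCoord` AT A
NODE `e` OF A CHART FRAME `F` WITH NODE HYPOTHESES `Y`.

* `glued Y e` : `NodeChart.Glued` at the node (`FrameHyp.NodeHyp.glue_node`);
* `jgen_mem_of_mem_tube`, `ord_unit_tube` : the full modular unit `U = Δ(z)/Δ(M p z)` has neither zero
  nor pole on the tube of a node (the poles of `j` specialise to cusps, the nodes are not cusps;
  `S15/G/UnitDiv.ord_uBar_of_jgen_mem`);
* `exists_red_unit` : `U` is a unit of the first Gauss ring (`Eis/UnitVal.valuation_V1X0_uBar`);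
* `valuation_two_unit`, `valuation_two_unit'` : `V₂ U = V₂ p ^ 12`
  (`Eis/UnitVal.valuation_V2X0_uBar_full`);
* `unitK H N`, `tB_unitK` : `U` is defined over every fixed field (`F_K(N)`, `S36/PowerBasisK0`).
-/
import Fermat.Agent.S44.Core.NodeChart
import Fermat.Agent.S44.X0.NodeFrameDef
import Fermat.Agent.S44.Eis.UnitVal
import Fermat.Agent.S15.G.UnitDiv
import Fermat.Agent.S36.LevelQK0

set_option autoImplicit false
set_option linter.unusedSectionVars false
set_option linter.unusedVariables false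
set_option linter.style.haveILetI false
set_option synthInstance.maxHeartbeats 400000

noncomputable section

namespace Fermat.Agent.S44.X0.NodeUnit

open ModularCurve AlgebraicCurve IsLocalRing
open Fermat.Agent.S34.NodalDefs Fermat.Agent.S34.CoreZX0Datum
open Fermat.Agent.S33.X0.Frame
open Fermat.Agent.S44.Core.FrameHyp Fermat.Agent.S44.Core.TubeCount
open Fermat.Agent.S44.Core.NodeChart
open Fermat.Agent.S34.ModularUnit
open Fermat.Agent.S36.PowerBasisK0

local notation "Qbar" => AlgebraicClosure ℚ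

attribute [local instance 2000] Fermat.Agent.S34.EulerX0.algResFk

local instance instNeZeroMul (M q : ℕ) [NeZero M] [NeZero q] : NeZero (M * q) :=
  ⟨Nat.mul_ne_zero (NeZero.ne M) (NeZero.ne q)⟩

variable {p : ℕ} [hp : Fact p.Prime] {M : ℕ} [NeZero M] {A : ValuationSubring Qbar} [NeZero p]
variable {hA : A.LiesOverPrime p} {hpM : ¬ p ∣ M}

/-! ### the modular unit over a fixed field -/

/-- the full modular unit `Δ(z)/Δ(N z)` over the fixed field of `H` -/
def unitK (H : Subgroup (Qbar ≃ₐ[ℚ] Qbar)) (N : ℕ) [NeZero N] : FK H N :=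
  ⟨coeffEmb _ (modularUnitSeries N),
    coeffEmb_mem_laurentBaseChange _ (modularUnitSeries_mem_of_dvd N N (dvd_refl N))⟩

theorem tB_unitK (H : Subgroup (Qbar ≃ₐ[ℚ] Qbar)) (N : ℕ) [NeZero N] :
    tB H N (unitK H N) = uBar N (dvd_refl N) := by
  apply Subtype.ext
  rw [Fermat.Agent.S36.K0Fixed.coe_toBar, coe_uBar]
  exact Fermat.Agent.S30.Descent.ConstExt.bc_coeffEmb _

/-! ### the frame-side inputs -/

variable {F : ChartFrame hA hpM} (Y : NodeHyp F)

/-- **local gluing at a node**, in the shape of `Core/NodeChart` -/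
theorem glued (e : {b // b ∈ F.X.S}) :
    Glued F.X.N.R1.toBranch F.X.N.R2.toBranch (F.X.N.e1 e) (F.X.N.e2 e) (Y.tube e) := by
  intro y h1 h2 hreg
  refine Y.glue_node ⟨y, h1⟩ ⟨y, h2⟩ rfl e fun P hP hPt => ?_
  exact absurd (ord_nonneg_of_le_one P (hreg P hPt)) (not_le.mpr hP)

/-- `j` is regular on the tube of a node -/
theorem jgen_mem_of_mem_tube (e : {b // b ∈ F.X.S})
    {P : Place Qbar ↥(modularFunctionFieldBar (M * p))} (hP : P ∈ Y.tube e) :
    Fermat.Agent.S24.DegreeAlg.jgen (M * p) ∈ P.toValuationSubring := by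
  rcases eq_or_ne (Fermat.Agent.S24.DegreeAlg.jgen (M * p)) 0 with h0 | h0
  · rw [h0]
    exact zero_mem _
  rw [Fermat.Agent.S24.Ord.mem_iff, ← Fermat.Agent.S24.Ord.ord_nonneg_iff P h0]
  by_contra hneg
  rw [not_le] at hneg
  have h1 := Y.sp1_pole P hneg
  rw [(Y.mem_tube_iff e P).mp hP, Y.e1_eq e] at h1
  exact absurd (Y.node_reg e.1 e.2) (not_le.mpr h1)

/-- **the full modular unit has neither zero nor pole on the tube of a node** -/
theorem ord_unit_tube (e : {b // b ∈ F.X.S}) :
    ∀ P ∈ Y.tube e, P.ord (uBar (M * p) (dvd_refl (M * p))) = 0 := fun P hP =>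
  Fermat.Agent.S15.G.UnitDiv.ord_uBar_of_jgen_mem P (jgen_mem_of_mem_tube Y e hP)

/-- **the full modular unit is a unit of the first Gauss ring** -/
theorem exists_red_unit (F : ChartFrame hA hpM) :
    ∃ υ : ↥(modularFunctionFieldFullC (ResidueField ↥A) M), υ ≠ 0 ∧
      Red F.X.N.R1.toBranch (uBar (M * p) (dvd_refl (M * p))) υ := by
  have hv : F.X.N.R1.O.valuation (uBar (M * p) (dvd_refl (M * p))) = 1 := by
    rw [F.X.O1_eq]
    exact Fermat.Agent.S44.Eis.UnitVal.valuation_V1X0_uBar hA hpM (dvd_refl (M * p))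
  have hmem : uBar (M * p) (dvd_refl (M * p)) ∈ F.X.N.R1.O :=
    (ValuationSubring.valuation_le_one_iff _ _).mp hv.le
  have hunit : IsUnit (⟨_, hmem⟩ : F.X.N.R1.O) :=
    (ValuationSubring.valuation_eq_one_iff _ ⟨_, hmem⟩).mpr hv
  refine ⟨F.X.N.R1.red ⟨_, hmem⟩, fun h0 => ?_, hmem, rfl⟩
  exact (F.X.N.R1.red_eq_zero_iff _).mp h0 hunit

/-- **the second Gauss valuation of the full modular unit is that of `p ^ 12`** -/
theorem valuation_two_unit (F : ChartFrame hA hpM) :
    F.X.N.R2.O.valuation (uBar (M * p) (dvd_refl (M * p))) =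
      F.X.N.R2.O.valuation (algebraMap Qbar ↥(modularFunctionFieldBar (M * p))
        (((p : ℕ) : A) : Qbar)) ^ 12 := by
  have h1 : algebraMap Qbar ↥(modularFunctionFieldBar (M * p)) (((p : ℕ) : A) : Qbar) =
      ((p : ℕ) : ↥(modularFunctionFieldBar (M * p))) := by
    have h2 : ((((p : ℕ) : A) : A) : Qbar) = ((p : ℕ) : Qbar) := by push_cast; rfl
    rw [h2]
    exact map_natCast (algebraMap Qbar ↥(modularFunctionFieldBar (M * p))) p
  rw [h1, F.X.O2_eq]
  exact Fermat.Agent.S44.Eis.UnitVal.valuation_V2X0_uBar_full hA hpM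

/-- **the second Gauss valuation of the full modular unit is that of `p ^ 12`**, natural-number
form -/
theorem valuation_two_unit' (F : ChartFrame hA hpM) :
    F.X.N.R2.O.valuation (uBar (M * p) (dvd_refl (M * p))) =
      F.X.N.R2.O.valuation ((p : ℕ) : ↥(modularFunctionFieldBar (M * p))) ^ 12 := by
  rw [F.X.O2_eq]
  exact Fermat.Agent.S44.Eis.UnitVal.valuation_V2X0_uBar_full hA hpM

end Fermat.Agent.S44.X0.NodeUnit
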