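/-
PROJECT P (S44), brick [a] SEAM (helper15): `Nonempty (NodeFrame F Y)` FROM THE FRAME BINDERS AND
`SpStd Y`, thickness `≤ 12` at every node.

= helper25's `X0/NodePairInst.exists_nodeFrame_of_bound` at `B = 12` with the a-priori bound
`X0/NodeBound.not_mem_span_pow` (helper15), the gluing `NodePairInst.glue_Oe` (helper25) and
`X0/NodeUnit.ord_unit_tube` (helper6): the modular unit has neither zero nor pole on the tube.
-/
import Mathlib
import Fermat.Agent.S44.X0.NodePairInst
import Fermat.Agent.S44.X0.NodeBound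
import Fermat.Agent.S44.X0.NodeUnit

set_option autoImplicit false
set_option linter.unusedSectionVars false
set_option linter.unusedVariables false
set_option linter.style.haveILetI false
set_option synthInstance.maxHeartbeats 400000
set_option maxHeartbeats 400000

noncomputable section

namespace Fermat.Agent.S44.X0.NodeFrameSeam

open ModularCurve AlgebraicCurve IsLocalRing
open Fermat.Agent.S33.X0.Frame
open Fermat.Agent.S44.Core.FrameHyp
open Fermat.Agent.S44.Eis.HeckeNode
open Fermat.Agent.S44.X0.FrameAll Fermat.Agent.S44.X0.NodeFrameDef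
open Fermat.Agent.S44.X0.NodePairInst

local notation "Qbar" => AlgebraicClosure ℚ

variable {p : ℕ} [hp : Fact p.Prime] {M : ℕ} [NeZero M] {A : ValuationSubring Qbar} [NeZero p]
variable {hA : A.LiesOverPrime p} {hpM : ¬ p ∣ M}
variable {F : ChartFrame hA hpM} (Y : NodeHyp F)

/-- **a node frame with every thickness `≤ 12`** -/
theorem exists_nodeFrame_le_twelve (hsp : SpStd Y) (hstd : RedStd F)
    (hstd2 : Fermat.Agent.S44.Eis.HeckeNode.RedStd2 F) (hLC : HasLocalCount F Y) :
    ∃ NF : NodeFrame F Y, ∀ e, NF.w e ≤ 12 :=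
  exists_nodeFrame_of_bound Y hsp hstd hstd2 hLC 12 fun e _ _ _ _ hξo hηo =>
    Fermat.Agent.S44.X0.NodeBound.not_mem_span_pow (glue_Oe Y hstd hstd2 e) hξo hηo
      (Fermat.Agent.S44.X0.NodeUnit.ord_unit_tube Y e)

/-- **brick [a]**: a node frame exists -/
theorem nonempty_nodeFrame (hsp : SpStd Y) (hstd : RedStd F)
    (hstd2 : Fermat.Agent.S44.Eis.HeckeNode.RedStd2 F) (hLC : HasLocalCount F Y) :
    Nonempty (NodeFrame F Y) :=
  (exists_nodeFrame_le_twelve Y hsp hstd hstd2 hLC).elim fun NF _ => ⟨NF⟩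

/-- **ONE chart frame for all of project P, with its node frame**: the frame of
`X0/FrameAll.exists_frame` (same explicit frame, `NodePairInst.exists_frame_spStd`) carries a node
frame with every thickness `≤ 12`. -/
theorem exists_frame_nodeFrame (hA : A.LiesOverPrime p) (hpM : ¬ p ∣ M) :
    ∃ (F : ChartFrame hA hpM) (Y : NodeHyp F), RedStd F ∧
      Fermat.Agent.S44.Eis.HeckeNode.RedStd2 F ∧ HasLocalCount F Y ∧ SpStd Y ∧
      ∃ NF : NodeFrame F Y, ∀ e, NF.w e ≤ 12 := by
  obtain ⟨F, Y, hstd, hstd2, hLC, hsp⟩ := exists_frame_spStd hA hpM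
  exact ⟨F, Y, hstd, hstd2, hLC, hsp, exists_nodeFrame_le_twelve Y hsp hstd hstd2 hLC⟩

end Fermat.Agent.S44.X0.NodeFrameSeam

end
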