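/-
PROJECT P (S44), core seam (helper4): THE PRODUCER OF THE DEEP DIVISOR `Dz` OF THE DISPLACEMENT
(binder `hz` of `S44/Core/DiscFactor.exists_factor`; the "bridge" (P4) of the core page).
(Independent twin of helper1's `S44/X0/DeepBridge` + `S44/Core/DeepChart`, typed in parallel; this
file starts from `z ∈ oneUnit hA hpM p`, chooses the chart points itself off two given finite sets
of places of the components, and states the invariance pointwise.)

A class `z` of `J₀(M p)` which is a `1`-unit class (`z ∈ oneUnit hA hpM p`) and is fixed by a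
subgroup `G` of the inertia group lies in the kernel of reduction `J¹` of the chart frame; in the
nodal chart of a family of chart points it is `z = [∑ (P_i(z) - Q_i)]` with `P_i(z)`, `Q_i` in ONE
good disc and the value of the (inertia-fixed) parameter `T_i` at `P_i(z)` a `G`-fixed non-unit of
`A`.  If the `G`-fixed non-units of `A` are divisible by `w := ϖ ^ (s + 1)` (wild frame: they lie
in `K₁ ∩ 𝔪_A = π₁ (A ∩ K₁)`, `π₁ = ϖ ^ p · unit`, `s + 1 ≤ p`), then on every good disc of either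
component `Dz := ∑ (P_i(z) - Q_i)` is the divisor of a deep one-unit `1 + ι w · y`, `y` in the
Gauss ring.

* abstract part (`NodalChart` generality): `sum_single_disc`, `diffDiv_apply_centre`,
  `diffDiv_apply_off`, `exists_deep_unit1`, `exists_deep_unit2`;
* the instance: `exists_deep` (generic `G`, `w`), `dvd_of_fixed` (the wild frame gives the
  divisibility), `exists_deep_wild`.
-/
import Fermat.Agent.S33.X0.ChartApi
import Fermat.Agent.S44.Core.DiscFactor

set_option autoImplicit false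
set_option linter.unusedSectionVars false
set_option linter.unusedVariables false
set_option linter.style.haveILetI false
set_option synthInstance.maxHeartbeats 400000

noncomputable section

namespace Fermat.Agent.S44.X0.DeepInst

open ModularCurve AlgebraicCurve IsLocalRing
open Fermat.Agent.S24.Ord
open Fermat.Agent.S34.NodalDefs Fermat.Agent.S34.NodalDisc Fermat.Agent.S34.NodalCore
open Fermat.Agent.S33.Nodal.Chart
open Fermat.Agent.S19.Taylor (ValAt)
open Fermat.Agent.S44.Core.Break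

/-! ### Abstract part: the divisor of a point of the chart on the good discs -/

section Abstract

variable {L : Type*} [Field L] {FL : Type*} [Field FL] [Algebra L FL]
variable {k : Type*} [Field k] {F1 : Type*} [Field F1] [Algebra k F1]
  {F2 : Type*} [Field F2] [Algebra k F2]
variable {A : ValuationSubring L} {π : A →+* k} {ι : Type*}

/-- the value at a place `P` of the disc of `Qb i` of the sum of a family of points lying in the
discs of an injective family of centres -/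
theorem sum_single_disc {Fk : Type*} [Field Fk] [Algebra k Fk] (R : SmoothRed A π FL Fk) {n : ℕ}
    (Qb : Fin n → Place k Fk) (hQb : Function.Injective Qb) (Ps : Fin n → Place L FL)
    (hPs : ∀ i, R.r (Ps i) = some (Qb i)) (i : Fin n) (P : Place L FL)
    (hP : R.r P = some (Qb i)) [DecidableEq (Place L FL)] :
    (∑ i', Finsupp.single (Ps i') (1 : ℤ)) P = if P = Ps i then 1 else 0 := by
  rw [Finsupp.finsetSum_apply, Finset.sum_eq_single i]
  · by_cases h : P = Ps i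
    · rw [if_pos h, h, Finsupp.single_eq_same]
    · rw [if_neg h, Finsupp.single_eq_of_ne (fun h' => h h')]
  · intro i' _ hi'
    refine Finsupp.single_eq_of_ne fun h' => hi' (hQb (Option.some_injective _ ?_))
    rw [← hPs i', ← h', hP]
  · intro hi
    exact absurd (Finset.mem_univ i) hi

variable [HasPrincipalDivisors L FL] {N : GNodalDatum A π FL F1 F2 ι} {g1 m2 : ℕ}
  (C : NodalChart N g1 m2)

/-- the divisor `∑ Ps - ∑ Q` on the disc of the centre `Q1b i` -/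
theorem diffDiv_apply_centre1 (hdegL : ∀ P : Place L FL, P.deg = 1)
    (Ps1 : Fin g1 → Place L FL) (Ps2 : Fin m2 → Place L FL)
    (hPs1 : ∀ i, N.R1.r (Ps1 i) = some (C.Q1b i)) (hPs2 : ∀ j, N.R2.r (Ps2 j) = some (C.Q2b j))
    (i : Fin g1) (P : Place L FL) (hP : N.R1.r P = some (C.Q1b i)) [DecidableEq (Place L FL)] :
    ((C.diffDiv hdegL Ps1 Ps2 : Divisor.degZero (K := L) (F := FL)) : Divisor L FL) P =
      ((if P = Ps1 i then 1 else 0 : ℤ)) - (if P = C.Q1 i then 1 else 0) := by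
  rw [NodalChart.coe_diffDiv, Finsupp.sub_apply, ptsDiv_apply, ptsDiv_apply,
    sum_single_disc N.R1 C.Q1b C.Q1b_inj Ps1 hPs1 i P hP,
    sum_single_disc N.R1 C.Q1b C.Q1b_inj C.Q1 C.hQ1 i P hP,
    sum_single_apply_of_notMem' Ps2 P (fun j hj => N.excl P (C.Q1b i) (C.Q2b j) hP (hj ▸ hPs2 j)),
    sum_single_apply_of_notMem' C.Q2 P (fun j hj => N.excl P (C.Q1b i) (C.Q2b j) hP (hj ▸ C.hQ2 j)),
    add_zero, add_zero]

/-- the divisor `∑ Ps - ∑ Q` on the disc of the centre `Q2b j` -/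
theorem diffDiv_apply_centre2 (hdegL : ∀ P : Place L FL, P.deg = 1)
    (Ps1 : Fin g1 → Place L FL) (Ps2 : Fin m2 → Place L FL)
    (hPs1 : ∀ i, N.R1.r (Ps1 i) = some (C.Q1b i)) (hPs2 : ∀ j, N.R2.r (Ps2 j) = some (C.Q2b j))
    (j : Fin m2) (P : Place L FL) (hP : N.R2.r P = some (C.Q2b j)) [DecidableEq (Place L FL)] :
    ((C.diffDiv hdegL Ps1 Ps2 : Divisor.degZero (K := L) (F := FL)) : Divisor L FL) P =
      ((if P = Ps2 j then 1 else 0 : ℤ)) - (if P = C.Q2 j then 1 else 0) := by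
  rw [NodalChart.coe_diffDiv, Finsupp.sub_apply, ptsDiv_apply, ptsDiv_apply,
    sum_single_disc N.R2 C.Q2b C.Q2b_inj Ps2 hPs2 j P hP,
    sum_single_disc N.R2 C.Q2b C.Q2b_inj C.Q2 C.hQ2 j P hP,
    sum_single_apply_of_notMem' Ps1 P (fun i hi => N.excl P (C.Q1b i) (C.Q2b j) (hi ▸ hPs1 i) hP),
    sum_single_apply_of_notMem' C.Q1 P (fun i hi => N.excl P (C.Q1b i) (C.Q2b j) (hi ▸ C.hQ1 i) hP),
    zero_add, zero_add]

/-- the divisor `∑ Ps - ∑ Q` vanishes on the disc of a place of the first component which is not a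
centre -/
theorem diffDiv_apply_off1 (hdegL : ∀ P : Place L FL, P.deg = 1)
    (Ps1 : Fin g1 → Place L FL) (Ps2 : Fin m2 → Place L FL)
    (hPs1 : ∀ i, N.R1.r (Ps1 i) = some (C.Q1b i)) (hPs2 : ∀ j, N.R2.r (Ps2 j) = some (C.Q2b j))
    (Q : Place k F1) (hQ : ∀ i, C.Q1b i ≠ Q) (P : Place L FL) (hP : N.R1.r P = some Q) :
    ((C.diffDiv hdegL Ps1 Ps2 : Divisor.degZero (K := L) (F := FL)) : Divisor L FL) P = 0 := by
  rw [NodalChart.coe_diffDiv, Finsupp.sub_apply,
    ptsDiv_apply_of_notMem Ps1 Ps2 P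
      (fun i hi => hQ i (Option.some_injective _ (by rw [← hPs1 i, hi, hP])))
      (fun j hj => N.excl P Q (C.Q2b j) hP (hj ▸ hPs2 j)),
    ptsDiv_apply_of_notMem C.Q1 C.Q2 P
      (fun i hi => hQ i (Option.some_injective _ (by rw [← C.hQ1 i, hi, hP])))
      (fun j hj => N.excl P Q (C.Q2b j) hP (hj ▸ C.hQ2 j)), sub_zero]

/-- the divisor `∑ Ps - ∑ Q` vanishes on the disc of a place of the second component which is not
a centre -/
theorem diffDiv_apply_off2 (hdegL : ∀ P : Place L FL, P.deg = 1)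
    (Ps1 : Fin g1 → Place L FL) (Ps2 : Fin m2 → Place L FL)
    (hPs1 : ∀ i, N.R1.r (Ps1 i) = some (C.Q1b i)) (hPs2 : ∀ j, N.R2.r (Ps2 j) = some (C.Q2b j))
    (Q : Place k F2) (hQ : ∀ j, C.Q2b j ≠ Q) (P : Place L FL) (hP : N.R2.r P = some Q) :
    ((C.diffDiv hdegL Ps1 Ps2 : Divisor.degZero (K := L) (F := FL)) : Divisor L FL) P = 0 := by
  rw [NodalChart.coe_diffDiv, Finsupp.sub_apply,
    ptsDiv_apply_of_notMem Ps1 Ps2 P
      (fun i hi => N.excl P (C.Q1b i) Q (hi ▸ hPs1 i) hP)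
      (fun j hj => hQ j (Option.some_injective _ (by rw [← hPs2 j, hj, hP]))),
    ptsDiv_apply_of_notMem C.Q1 C.Q2 P
      (fun i hi => N.excl P (C.Q1b i) Q (hi ▸ C.hQ1 i) hP)
      (fun j hj => hQ j (Option.some_injective _ (by rw [← C.hQ2 j, hj, hP]))), sub_zero]

variable {σ : L ≃+* L} (B : BreakDatum A σ)

/-- **The deep unit of one pair of points of a good disc**: `P1` with `T`-value `a = ϖ^(s+1) t`
and the zero `P0` of `T`. -/
theorem exists_pair_unit {Fk : Type*} [Field Fk] [Algebra k Fk] (R : SmoothRed A π FL Fk)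
    {T : R.O} {Q : Place k Fk} (hT : IsGoodParam R T Q) {P1 P0 : Place L FL}
    (hP1 : R.r P1 = some Q) (hP0 : R.r P0 = some Q) {a : L}
    (ha : ValAt P1 (T : FL) a) (h0 : 0 < P0.ord ((T : R.O) : FL))
    (hab : ∃ t ∈ A, a = B.ϖ ^ (B.s + 1) * t) [DecidableEq (Place L FL)] :
    ∃ y ∈ R.O, ∀ P : Place L FL, R.r P = some Q →
      P.ord (1 + algebraMap L FL (B.ϖ ^ (B.s + 1)) * y) =
        ((if P = P1 then 1 else 0 : ℤ)) - (if P = P0 then 1 else 0) := by
  obtain ⟨t, ht, hat⟩ := hab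
  obtain ⟨y, hy, hyP⟩ := Fermat.Agent.S44.Core.DiscFactor.exists_pairs_unit R B hT
    (ιz := Unit) {()} (fun _ => P1) (fun _ => P0) (fun _ => a) (fun _ => 0)
    (fun _ _ => hP1) (fun _ _ => hP0) (fun _ _ => ha)
    (fun _ _ => by
      rw [map_zero, sub_zero]
      exact adicValuation_lt_one_of_ord_pos P0 h0)
    (fun _ _ => ⟨t, ht, by rw [sub_zero, hat]⟩)
  refine ⟨y, hy, fun P hP => ?_⟩
  rw [hyP P hP, Finset.sum_singleton]

end Abstract

/-! ### The instance at `X₀(M p)` -/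

section Instance

open Fermat.Agent.S19.SymmX0
open Fermat.Agent.S34.CoreZX0Datum
open Fermat.Agent.S33.Nodal.Symm
open Fermat.Agent.S33.X0.Frame Fermat.Agent.S33.X0.ChartX0 Fermat.Agent.S33.KP.OneUnit

local notation "Qbar" => AlgebraicClosure ℚ
local notation "GQ" => (AlgebraicClosure ℚ ≃ₐ[ℚ] AlgebraicClosure ℚ)

variable {p : ℕ} [hp : Fact p.Prime] {M : ℕ} [NeZero M] {A : ValuationSubring Qbar} [NeZero p]
variable {hA : A.LiesOverPrime p} {hpM : ¬ p ∣ M}

/-- local instance: principal divisors on `E` -/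
local instance instPDBar (N : ℕ) [NeZero N] :
    HasPrincipalDivisors Qbar ↥(modularFunctionFieldBar N) :=
  Fermat.Agent.S18.A.Instances.hasPrincipalDivisors_bar N

/-- local instance: principal divisors on the components -/
local instance instPDFk (A : ValuationSubring Qbar) (N : ℕ) [NeZero N] :
    HasPrincipalDivisors (ResidueField ↥A) ↥(modularFunctionFieldFullC (ResidueField ↥A) N) :=
  Fermat.Agent.S37.ReductionInputs.hasPrincipalDivisors_Fk A N

local instance instNeZeroMul : NeZero (M * p) :=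
  ⟨Nat.mul_ne_zero (NeZero.ne M) (NeZero.ne p)⟩

/-- local instance: the nodes exist -/
local instance instNonemptyNodes (F : ChartFrame hA hpM) : Nonempty {b // b ∈ F.X.S} :=
  F.nonempty_nodes

/-- a point of a good disc whose parameter value is fixed by an inertial automorphism fixing the
parameter is fixed -/
theorem smul_place_eq_of_valAt {L : Type*} [Field L] {FL : Type*} [Field FL] [Algebra L FL]
    {k : Type*} [Field k] {A : ValuationSubring L} {π : A →+* k}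
    {Fk : Type*} [Field Fk] [Algebra k Fk] [HasPrincipalDivisors L FL] {R : SmoothRed A π FL Fk}
    (D : Fermat.Agent.S33.Nodal.Taylor.DiscParam R) (γ : SemilinearAut L FL)
    (hin : ∀ P : Place L FL, R.r (γ • P) = R.r P)
    (hT : γ • ((D.T : R.O) : FL) = ((D.T : R.O) : FL)) {P : Place L FL} (hP : R.r P = some D.Q)
    {a : A} (ha : a ∈ IsLocalRing.maximalIdeal A) (hv : ValAt P (D.T : FL) (a : L))
    (hfix : SemilinearAut.baseAut γ (a : L) = (a : L)) : γ • P = P := by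
  have h1 : ValAt (γ • P) (γ • ((D.T : R.O) : FL)) (SemilinearAut.baseAut γ (a : L)) :=
    Fermat.Agent.S19.Chart.valAt_map
      ((SemilinearAut.baseAut γ : L ≃+* L) : L →+* L)
      ((SemilinearAut.toRingAut γ : FL ≃+* FL) : FL →+* FL)
      (fun c => SemilinearAut.commutes γ c)
      (Fermat.Agent.S19.Chart.adicValuation_map_of_ord _
        (fun y => SemilinearAut.ord_smul γ P y)) hv
  rw [hT, hfix] at h1
  exact D.eq_of_valAt hP (by rw [hin, hP]) ha hv h1

set_option maxHeartbeats 1600000 in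
/-- **The deep divisor of a `1`-unit class fixed by a subgroup of the inertia group.** -/
theorem exists_deep (F : ChartFrame hA hpM)
    (B1 B2 : Set (Place (ResidueField ↥A) ↥(modularFunctionFieldFullC (ResidueField ↥A) M)))
    (hB1 : B1.Finite) (hB2 : B2.Finite)
    {σ : Qbar ≃+* Qbar} (B : BreakDatum A σ)
    (G : Subgroup GQ) (hG : G ≤ A.inertiaSubgroupIn ℚ)
    (hw : ∀ a : Qbar, a ∈ A.nonunits → (∀ τ ∈ G, τ a = a) →
      ∃ t ∈ A, a = B.ϖ ^ (B.s + 1) * t)
    {z : JZero (M * p)} (hz : z ∈ oneUnit hA hpM p) (hfix : ∀ τ ∈ G, τ • z = z) :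
    ∃ Dz : Divisor.degZero (K := Qbar) (F := ↥(modularFunctionFieldBar (M * p))),
      Pic0.mk Dz = z ∧
      (∀ P : Place Qbar ↥(modularFunctionFieldBar (M * p)),
        (Dz : Divisor Qbar ↥(modularFunctionFieldBar (M * p))) P ≠ 0 →
          (∃ Q ∈ F.X.N.R1.good, Q ∉ B1 ∧ F.X.N.R1.r P = some Q) ∨
            (∃ Q ∈ F.X.N.R2.good, Q ∉ B2 ∧ F.X.N.R2.r P = some Q)) ∧
      (∀ τ ∈ G, ∀ P : Place Qbar ↥(modularFunctionFieldBar (M * p)),
        (Dz : Divisor Qbar ↥(modularFunctionFieldBar (M * p))) P ≠ 0 →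
          arithmeticGalois (modularFunctionFieldFull (M * p)) τ • P = P) ∧
      (∀ Q ∈ F.X.N.R1.good, ∃ y ∈ F.X.N.R1.O,
        ∀ P : Place Qbar ↥(modularFunctionFieldBar (M * p)), F.X.N.R1.r P = some Q →
          P.ord (1 + algebraMap Qbar ↥(modularFunctionFieldBar (M * p)) (B.ϖ ^ (B.s + 1)) * y) =
            (Dz : Divisor Qbar ↥(modularFunctionFieldBar (M * p))) P) ∧
      (∀ Q ∈ F.X.N.R2.good, ∃ y ∈ F.X.N.R2.O,
        ∀ P : Place Qbar ↥(modularFunctionFieldBar (M * p)), F.X.N.R2.r P = some Q →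
          P.ord (1 + algebraMap Qbar ↥(modularFunctionFieldBar (M * p)) (B.ϖ ^ (B.s + 1)) * y) =
            (Dz : Divisor Qbar ↥(modularFunctionFieldBar (M * p))) P) := by
  classical
  haveI : CharP (ResidueField ↥A) p := Fermat.Agent.S18.ResidueBasics.charP_residueField A hA
  obtain ⟨d, hd1, hd2⟩ := F.exists_chartPts (B1 ∪ {F.X.Qstar}) B2
    (hB1.union (Set.finite_singleton _)) hB2
  have hoff : ∀ i, d.Q1 i ≠ F.X.Qstar := fun i h =>
    hd1 i (Or.inr (by rw [h]; exact Set.mem_singleton _))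
  have hzJ : z ∈ J1 F.X.N :=
    Fermat.Agent.S33.X0.OneUnitJ1.oneUnit_pow_le_J1 F d hoff 1 z (by rwa [pow_one])
  obtain ⟨C, hCdef⟩ : ∃ C : NodalChart F.X.N F.X.gk (F.X.gk + F.X.S.card - 1),
      C = chartOf F d hoff := ⟨_, rfl⟩
  have hCQ1b : ∀ i, C.Q1b i = d.Q1 i := fun i => by rw [hCdef]; rfl
  have hCQ2b : ∀ j, C.Q2b j = d.Q2 j := fun j => by rw [hCdef]; rfl
  obtain ⟨zJ, hzJdef⟩ : ∃ zJ : J1 F.X.N, (zJ : JZero (M * p)) = z := ⟨⟨z, hzJ⟩, rfl⟩
  obtain ⟨Ps1, hPs1def⟩ : ∃ Ps1, Ps1 = C.pts1 F.deg_eq_one F.riemannGe zJ := ⟨_, rfl⟩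
  obtain ⟨Ps2, hPs2def⟩ : ∃ Ps2, Ps2 = C.pts2 F.deg_eq_one F.riemannGe zJ := ⟨_, rfl⟩
  have hPs1 : ∀ i, F.X.N.R1.r (Ps1 i) = some (C.Q1b i) := fun i => by
    rw [hPs1def]; exact C.r_pts1 F.deg_eq_one F.riemannGe zJ i
  have hPs2 : ∀ j, F.X.N.R2.r (Ps2 j) = some (C.Q2b j) := fun j => by
    rw [hPs2def]; exact C.r_pts2 F.deg_eq_one F.riemannGe zJ j
  have hcls : C.cls F.deg_eq_one Ps1 Ps2 = z := by
    rw [hPs1def, hPs2def, C.cls_pts F.deg_eq_one F.riemannGe zJ, hzJdef]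
  -- the coordinates are fixed by `G`
  have hcoord : ∀ τ ∈ G,
      (∀ i, τ ((C.coord1 F.deg_eq_one F.riemannGe zJ i : A) : Qbar) =
        ((C.coord1 F.deg_eq_one F.riemannGe zJ i : A) : Qbar)) ∧
      ∀ j, τ ((C.coord2 F.deg_eq_one F.riemannGe zJ j : A) : Qbar) =
        ((C.coord2 F.deg_eq_one F.riemannGe zJ j : A) : Qbar) := by
    intro τ hτ
    have hτI := hG hτ
    have h := coord_baseAut_fixed C F.deg_eq_one Fermat.Agent.S33.X0.ChartX0.hπ F.riemannGe
      (arithmeticGalois (modularFunctionFieldFull (M * p)) τ)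
      (fun P => F.X.r1_smul τ hτI P) (fun P => F.X.r2_smul τ hτI P)
      (fun i => by rw [hCdef]; exact chartOf_smul_T1 F hτI d hoff i)
      (fun j => by rw [hCdef]; exact chartOf_smul_T2 F hτI d hoff j) zJ
      (by rw [hzJdef]; exact hfix τ hτ)
    exact ⟨fun i => (baseAut_arithmeticGalois_apply (M * p) τ _).symm.trans (h.1 i),
      fun j => (baseAut_arithmeticGalois_apply (M * p) τ _).symm.trans (h.2 j)⟩
  -- the coordinates are divisible by `ϖ ^ (s + 1)`
  have hnon : ∀ a : A, a ∈ IsLocalRing.maximalIdeal A → (a : Qbar) ∈ A.nonunits := fun a ha =>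
    ValuationSubring.mem_nonunits_iff_exists_mem_maximalIdeal.mpr ⟨a.2, ha⟩
  have hdiv1 : ∀ i, ∃ t ∈ A,
      ((C.coord1 F.deg_eq_one F.riemannGe zJ i : A) : Qbar) = B.ϖ ^ (B.s + 1) * t := fun i =>
    hw _ (hnon _ (C.coord1_mem F.deg_eq_one F.riemannGe zJ i)) (fun τ hτ => (hcoord τ hτ).1 i)
  have hdiv2 : ∀ j, ∃ t ∈ A,
      ((C.coord2 F.deg_eq_one F.riemannGe zJ j : A) : Qbar) = B.ϖ ^ (B.s + 1) * t := fun j =>
    hw _ (hnon _ (C.coord2_mem F.deg_eq_one F.riemannGe zJ j)) (fun τ hτ => (hcoord τ hτ).2 j)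
  have hv1 : ∀ i, ValAt (Ps1 i) ((C.T1 i : F.X.N.R1.O) : ↥(modularFunctionFieldBar (M * p)))
      ((C.coord1 F.deg_eq_one F.riemannGe zJ i : A) : Qbar) := fun i => by
    rw [hPs1def]; exact C.valAt_coord1 F.deg_eq_one F.riemannGe zJ i
  have hv2 : ∀ j, ValAt (Ps2 j) ((C.T2 j : F.X.N.R2.O) : ↥(modularFunctionFieldBar (M * p)))
      ((C.coord2 F.deg_eq_one F.riemannGe zJ j : A) : Qbar) := fun j => by
    rw [hPs2def]; exact C.valAt_coord2 F.deg_eq_one F.riemannGe zJ j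
  refine ⟨C.diffDiv F.deg_eq_one Ps1 Ps2, hcls, ?_, ?_, ?_, ?_⟩
  · -- support
    intro P hP
    rw [NodalChart.coe_diffDiv] at hP
    have hsupp := (goodSupp_ptsDiv (N := F.X.N) C.Q1b_good C.Q2b_good hPs1 hPs2).sub F.X.N
      (goodSupp_ptsDiv (N := F.X.N) C.Q1b_good C.Q2b_good C.hQ1 C.hQ2) P hP
    by_cases h1 : ∃ i, F.X.N.R1.r P = some (C.Q1b i)
    · obtain ⟨i, hi⟩ := h1
      exact Or.inl ⟨C.Q1b i, C.Q1b_good i,
        fun hB => hd1 i (Or.inl (by rw [← hCQ1b i]; exact hB)), hi⟩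
    · by_cases h2 : ∃ j, F.X.N.R2.r P = some (C.Q2b j)
      · obtain ⟨j, hj⟩ := h2
        exact Or.inr ⟨C.Q2b j, C.Q2b_good j, fun hB => hd2 j (by rw [← hCQ2b j]; exact hB), hj⟩
      · exfalso
        apply hP
        rw [Finsupp.sub_apply,
          ptsDiv_apply_of_notMem Ps1 Ps2 P (fun i hi => h1 ⟨i, hi ▸ hPs1 i⟩)
            (fun j hj => h2 ⟨j, hj ▸ hPs2 j⟩),
          ptsDiv_apply_of_notMem C.Q1 C.Q2 P (fun i hi => h1 ⟨i, hi ▸ C.hQ1 i⟩)
            (fun j hj => h2 ⟨j, hj ▸ C.hQ2 j⟩), sub_zero]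
  · -- the points are fixed
    intro τ hτ P hP
    have hτI := hG hτ
    have hin1 : ∀ P : Place Qbar ↥(modularFunctionFieldBar (M * p)),
        F.X.N.R1.r (arithmeticGalois (modularFunctionFieldFull (M * p)) τ • P) = F.X.N.R1.r P :=
      fun P => F.X.r1_smul τ hτI P
    have hin2 : ∀ P : Place Qbar ↥(modularFunctionFieldBar (M * p)),
        F.X.N.R2.r (arithmeticGalois (modularFunctionFieldFull (M * p)) τ • P) = F.X.N.R2.r P :=
      fun P => F.X.r2_smul τ hτI P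
    have hT1 : ∀ i, arithmeticGalois (modularFunctionFieldFull (M * p)) τ •
        ((C.T1 i : F.X.N.R1.O) : ↥(modularFunctionFieldBar (M * p))) =
          ((C.T1 i : F.X.N.R1.O) : ↥(modularFunctionFieldBar (M * p))) := fun i => by
      rw [hCdef]; exact chartOf_smul_T1 F hτI d hoff i
    have hT2 : ∀ j, arithmeticGalois (modularFunctionFieldFull (M * p)) τ •
        ((C.T2 j : F.X.N.R2.O) : ↥(modularFunctionFieldBar (M * p))) =
          ((C.T2 j : F.X.N.R2.O) : ↥(modularFunctionFieldBar (M * p))) := fun j => by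
      rw [hCdef]; exact chartOf_smul_T2 F hτI d hoff j
    rw [NodalChart.coe_diffDiv, Finsupp.sub_apply] at hP
    have hcases : ptsDiv Ps1 Ps2 P ≠ 0 ∨ ptsDiv C.Q1 C.Q2 P ≠ 0 := by
      by_contra hcon
      rw [not_or, not_not, not_not] at hcon
      apply hP
      rw [hcon.1, hcon.2, sub_zero]
    rcases hcases with h | h
    · rcases exists_of_ptsDiv_ne_zero Ps1 Ps2 P h with ⟨i, rfl⟩ | ⟨j, rfl⟩
      · exact smul_place_eq_of_valAt (C.disc1 F.deg_eq_one i) _ hin1 (hT1 i) (hPs1 i)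
          (C.coord1_mem F.deg_eq_one F.riemannGe zJ i) (hv1 i)
          ((baseAut_arithmeticGalois_apply (M * p) τ _).trans ((hcoord τ hτ).1 i))
      · exact smul_place_eq_of_valAt (C.disc2 F.deg_eq_one j) _ hin2 (hT2 j) (hPs2 j)
          (C.coord2_mem F.deg_eq_one F.riemannGe zJ j) (hv2 j)
          ((baseAut_arithmeticGalois_apply (M * p) τ _).trans ((hcoord τ hτ).2 j))
    · rcases exists_of_ptsDiv_ne_zero C.Q1 C.Q2 P h with ⟨i, rfl⟩ | ⟨j, rfl⟩
      · exact smul_Q1 C _ hin1 hT1 i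
      · exact smul_Q2 C _ hin2 hT2 j
  · -- the first component
    intro Q hQ
    by_cases h : ∃ i, C.Q1b i = Q
    · obtain ⟨i, rfl⟩ := h
      obtain ⟨y, hy, hyP⟩ := exists_pair_unit B F.X.N.R1 (C.hT1 i) (hPs1 i) (C.hQ1 i) (hv1 i)
        (C.hT10 i) (hdiv1 i)
      refine ⟨y, hy, fun P hP => ?_⟩
      rw [hyP P hP, diffDiv_apply_centre1 C F.deg_eq_one Ps1 Ps2 hPs1 hPs2 i P hP]
    · refine ⟨0, F.X.N.R1.O.zero_mem, fun P hP => ?_⟩
      rw [mul_zero, add_zero, Place.ord_one,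
        diffDiv_apply_off1 C F.deg_eq_one Ps1 Ps2 hPs1 hPs2 Q (fun i hi => h ⟨i, hi⟩) P hP]
  · -- the second component
    intro Q hQ
    by_cases h : ∃ j, C.Q2b j = Q
    · obtain ⟨j, rfl⟩ := h
      obtain ⟨y, hy, hyP⟩ := exists_pair_unit B F.X.N.R2 (C.hT2 j) (hPs2 j) (C.hQ2 j) (hv2 j)
        (C.hT20 j) (hdiv2 j)
      refine ⟨y, hy, fun P hP => ?_⟩
      rw [hyP P hP, diffDiv_apply_centre2 C F.deg_eq_one Ps1 Ps2 hPs1 hPs2 j P hP]
    · refine ⟨0, F.X.N.R2.O.zero_mem, fun P hP => ?_⟩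
      rw [mul_zero, add_zero, Place.ord_one,
        diffDiv_apply_off2 C F.deg_eq_one Ps1 Ps2 hPs1 hPs2 Q (fun j hj => h ⟨j, hj⟩) P hP]

/-- **The wild frame gives the divisibility**: a non-unit of `A` fixed by `G` lies in
`K₁ ∩ 𝔪_A = π₁ (A ∩ K₁)`, `π₁ = ϖ ^ p · unit`, and `s + 1 ≤ p`. -/
theorem dvd_of_fixed {σ : Qbar ≃+* Qbar} {G H : Subgroup GQ} {q : ℕ}
    (W : WildDatum A σ q G H) (hs : W.s + 1 ≤ q) (a : Qbar) (ha : a ∈ A.nonunits)
    (hfix : ∀ τ ∈ G, τ a = a) : ∃ t ∈ A, a = W.ϖ ^ (W.s + 1) * t := by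
  have hK1 : a ∈ W.K1 := (W.fixed1_iff a).mpr fun τ hτ => hfix τ hτ
  have hdiv := W.π1_div a hK1 ha
  obtain ⟨u, hu, hπ1⟩ := W.π1_eq
  have hϖ0 : W.ϖ ≠ 0 := W.ϖ_ne
  have hπ10 : W.π1 ≠ 0 := by
    rw [hπ1]
    exact mul_ne_zero (pow_ne_zero _ hϖ0) hu.ne_zero
  refine ⟨W.ϖ ^ (q - (W.s + 1)) * u * (a / W.π1),
    A.mul_mem _ _ (A.mul_mem _ _ (pow_mem W.toBreakDatum.ϖ_memA _) hu.mem) hdiv, ?_⟩
  have hpow : W.ϖ ^ (W.s + 1) * W.ϖ ^ (q - (W.s + 1)) = W.ϖ ^ q := by
    rw [← pow_add, Nat.add_sub_cancel' hs]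
  calc a = W.π1 * (a / W.π1) := by field_simp
    _ = W.ϖ ^ q * u * (a / W.π1) := by rw [← hπ1]
    _ = W.ϖ ^ (W.s + 1) * (W.ϖ ^ (q - (W.s + 1)) * u * (a / W.π1)) := by
        rw [← hpow]; ring

/-- **The deep divisor of the displacement in the wild frame**: `z` a `1`-unit class fixed by
`G ≤ I`, `W` a wild frame with tame group `G` and `s + 1 ≤ q`. -/
theorem exists_deep_wild (F : ChartFrame hA hpM)
    (B1 B2 : Set (Place (ResidueField ↥A) ↥(modularFunctionFieldFullC (ResidueField ↥A) M)))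
    (hB1 : B1.Finite) (hB2 : B2.Finite)
    {σ : Qbar ≃+* Qbar} {G H : Subgroup GQ} {q : ℕ} (W : WildDatum A σ q G H)
    (hs : W.s + 1 ≤ q) (hG : G ≤ A.inertiaSubgroupIn ℚ)
    {z : JZero (M * p)} (hz : z ∈ oneUnit hA hpM p) (hfix : ∀ τ ∈ G, τ • z = z) :
    ∃ Dz : Divisor.degZero (K := Qbar) (F := ↥(modularFunctionFieldBar (M * p))),
      Pic0.mk Dz = z ∧
      (∀ P : Place Qbar ↥(modularFunctionFieldBar (M * p)),
        (Dz : Divisor Qbar ↥(modularFunctionFieldBar (M * p))) P ≠ 0 →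
          (∃ Q ∈ F.X.N.R1.good, Q ∉ B1 ∧ F.X.N.R1.r P = some Q) ∨
            (∃ Q ∈ F.X.N.R2.good, Q ∉ B2 ∧ F.X.N.R2.r P = some Q)) ∧
      (∀ τ ∈ G, ∀ P : Place Qbar ↥(modularFunctionFieldBar (M * p)),
        (Dz : Divisor Qbar ↥(modularFunctionFieldBar (M * p))) P ≠ 0 →
          arithmeticGalois (modularFunctionFieldFull (M * p)) τ • P = P) ∧
      (∀ Q ∈ F.X.N.R1.good, ∃ y ∈ F.X.N.R1.O,
        ∀ P : Place Qbar ↥(modularFunctionFieldBar (M * p)), F.X.N.R1.r P = some Q →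
          P.ord (1 + algebraMap Qbar ↥(modularFunctionFieldBar (M * p)) (W.ϖ ^ (W.s + 1)) * y) =
            (Dz : Divisor Qbar ↥(modularFunctionFieldBar (M * p))) P) ∧
      (∀ Q ∈ F.X.N.R2.good, ∃ y ∈ F.X.N.R2.O,
        ∀ P : Place Qbar ↥(modularFunctionFieldBar (M * p)), F.X.N.R2.r P = some Q →
          P.ord (1 + algebraMap Qbar ↥(modularFunctionFieldBar (M * p)) (W.ϖ ^ (W.s + 1)) * y) =
            (Dz : Divisor Qbar ↥(modularFunctionFieldBar (M * p))) P) :=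
  exists_deep F B1 B2 hB1 hB2 W.toBreakDatum G hG (dvd_of_fixed W hs) hz hfix

/-- the divisor form of the invariance: a divisor all of whose points are fixed is fixed -/
theorem smul_divisor_eq_of_pointwise {L : Type*} [Field L] {FL : Type*} [Field FL]
    [Algebra L FL] (γ : SemilinearAut L FL) (D : Divisor L FL)
    (h : ∀ P : Place L FL, D P ≠ 0 → γ • P = P) : γ • D = D := by
  rw [← mapDomain_smul_eq]
  have h1 : Finsupp.mapDomain (fun P : Place L FL => γ • P) D = Finsupp.mapDomain id D :=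
    Finsupp.mapDomain_congr fun P hP => h P (Finsupp.mem_support_iff.mp hP)
  rw [h1, Finsupp.mapDomain_id]

end Instance

end Fermat.Agent.S44.X0.DeepInst

end
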