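/-
PROJECT P (S44), CORE instance, X0/DiscInst (helper1): THE LOCAL FACTOR ON THE GOOD DISCS OF `X₀(M p)`.

`Core/DiscFactor.exists_factor` at an arbitrary nodal chart frame `F : ChartFrame hA hpM`
(`S33/X0/Frame`): for a place `Q` of the component off the finite set `F.Bad1` (resp. `F.Bad2`) the
inertia-fixed good parameter `x₁ - c` (resp. `x₂ - c`) of `ChartFrame.exists_fixed_param_1/2`
serves, so

  `∃ ρ θ, IsFactor R_i R_i B {P | R_i.r P = some Q} h ρ θ 0 0`

for an element `τ` of the inertia group (the wild generator), a break datum `B` over `τ`, a subgroup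
`H` of the inertia group whose fixed constants lie in `B.K'`, an `H`-stable divisor `D`, a divisor
`Dz` which on the disc is the divisor of a deep one-unit, and `h` with
`ord_P h = (τ • D - D - Dz) P` on the disc.  Hypothesis-first: no wild frame is imported; the
assembler passes `H := stab p A x`, `hH := stab_le.trans I1_le`, `hfix := (W.fixed_iff _).2`.
-/
import Fermat.Agent.S33.X0.Frame
import Fermat.Agent.S44.Core.DiscFactor

set_option autoImplicit false
set_option linter.unusedSectionVars false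
set_option linter.unusedVariables false
set_option synthInstance.maxHeartbeats 400000

noncomputable section

namespace Fermat.Agent.S44.X0.DiscInst

open ModularCurve AlgebraicCurve IsLocalRing
open Fermat.Agent.S34.NodalDefs Fermat.Agent.S34.NodalDisc
open Fermat.Agent.S33.X0.Frame Fermat.Agent.S19.ArithX0
open Fermat.Agent.S44.Core.Break Fermat.Agent.S44.Core.Factor

local notation "Qbar" => AlgebraicClosure ℚ
local notation "GQ" => (AlgebraicClosure ℚ ≃ₐ[ℚ] AlgebraicClosure ℚ)

attribute [local instance 2000] Fermat.Agent.S34.EulerX0.algResFk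

/-- local instance: principal divisors on `E` -/
local instance instPDBar (N : ℕ) [NeZero N] :
    HasPrincipalDivisors Qbar ↥(modularFunctionFieldBar N) :=
  Fermat.Agent.S18.A.Instances.hasPrincipalDivisors_bar N

local instance instNeZeroMul (M q : ℕ) [NeZero M] [NeZero q] : NeZero (M * q) :=
  ⟨Nat.mul_ne_zero (NeZero.ne M) (NeZero.ne q)⟩

variable {p : ℕ} [hp : Fact p.Prime] {M : ℕ} [NeZero M] {A : ValuationSubring Qbar} [NeZero p]
variable {hA : A.LiesOverPrime p} {hpM : ¬ p ∣ M}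

/-- the group of semilinear automorphisms of `E` induced by a group of automorphisms of `ℚ̄` -/
def lifts (H : Subgroup GQ) :
    Subgroup (SemilinearAut Qbar ↥(modularFunctionFieldBar (M * p))) :=
  H.map (arithmeticGalois (modularFunctionFieldFull (M * p)))

theorem mem_lifts {H : Subgroup GQ}
    {g' : SemilinearAut Qbar ↥(modularFunctionFieldBar (M * p))} :
    g' ∈ lifts (M := M) (p := p) H ↔
      ∃ τ' ∈ H, arithmeticGalois (modularFunctionFieldFull (M * p)) τ' = g' := Subgroup.mem_map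

include hA in
/-- **The local factor on a good disc of the first component.** -/
theorem exists_factor_1 (F : ChartFrame hA hpM) {τ : GQ} (hτ : τ ∈ A.inertiaSubgroupIn ℚ)
    (B : BreakDatum A (τ : Qbar ≃+* Qbar)) (H : Subgroup GQ) (hH : H ≤ A.inertiaSubgroupIn ℚ)
    (hfix : ∀ c : Qbar, (∀ τ' ∈ H, τ' c = c) → c ∈ B.K')
    {Q : Place (ResidueField ↥A) ↥(modularFunctionFieldFullC (ResidueField ↥A) M)}
    (hQ : Q ∉ F.Bad1) (D Dz : Divisor Qbar ↥(modularFunctionFieldBar (M * p)))
    (hHD : ∀ τ' ∈ H, arithmeticGalois (modularFunctionFieldFull (M * p)) τ' • D = D)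
    (hz : ∃ x ∈ F.X.N.R1.O, ∀ P : Place Qbar ↥(modularFunctionFieldBar (M * p)),
      F.X.N.R1.r P = some Q →
        P.ord (1 + algebraMap Qbar ↥(modularFunctionFieldBar (M * p)) (B.ϖ ^ (B.s + 1)) * x) = Dz P)
    {h : ↥(modularFunctionFieldBar (M * p))} (hh0 : h ≠ 0)
    (hdiv : ∀ P : Place Qbar ↥(modularFunctionFieldBar (M * p)), F.X.N.R1.r P = some Q →
      P.ord h = (arithmeticGalois (modularFunctionFieldFull (M * p)) τ • D - D - Dz) P) :
    ∃ ρ θ : ↥(modularFunctionFieldBar (M * p)),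
      IsFactor F.X.N.R1.toBranch F.X.N.R1.toBranch B {P | F.X.N.R1.r P = some Q} h ρ θ 0 0 := by
  obtain ⟨c, P0, hcW, hgood, -, -, -⟩ := F.exists_fixed_param_1 Q hQ
  refine Fermat.Agent.S44.Core.DiscFactor.exists_factor F.X.N.R1 B
    (arithmeticGalois (modularFunctionFieldFull (M * p)) τ)
    (fun a => Fermat.Agent.S19.SymmX0.baseAut_arithmeticGalois_apply (M * p) τ a)
    (lifts (M := M) (p := p) H) ?_ F.deg_eq_one hgood
    (F.smul_param_1 (inertia_fixed hcW hτ)) ?_ (F.X.r1_smul τ hτ) ?_ D Dz ?_ hz hh0 hdiv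
  · intro a ha
    refine hfix a fun τ' hτ' => ?_
    have h1 := ha _ (mem_lifts.mpr ⟨τ', hτ', rfl⟩)
    rw [Fermat.Agent.S19.SymmX0.baseAut_arithmeticGalois_apply] at h1
    exact h1
  · intro g' hg'
    obtain ⟨τ', hτ', rfl⟩ := mem_lifts.mp hg'
    exact F.smul_param_1 (inertia_fixed hcW (hH hτ'))
  · intro g' hg' P
    obtain ⟨τ', hτ', rfl⟩ := mem_lifts.mp hg'
    exact F.X.r1_smul τ' (hH hτ') P
  · intro g' hg'
    obtain ⟨τ', hτ', rfl⟩ := mem_lifts.mp hg'
    exact hHD τ' hτ'

include hA in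
/-- **The local factor on a good disc of the second component.** -/
theorem exists_factor_2 (F : ChartFrame hA hpM) {τ : GQ} (hτ : τ ∈ A.inertiaSubgroupIn ℚ)
    (B : BreakDatum A (τ : Qbar ≃+* Qbar)) (H : Subgroup GQ) (hH : H ≤ A.inertiaSubgroupIn ℚ)
    (hfix : ∀ c : Qbar, (∀ τ' ∈ H, τ' c = c) → c ∈ B.K')
    {Q : Place (ResidueField ↥A) ↥(modularFunctionFieldFullC (ResidueField ↥A) M)}
    (hQ : Q ∉ F.Bad2) (D Dz : Divisor Qbar ↥(modularFunctionFieldBar (M * p)))
    (hHD : ∀ τ' ∈ H, arithmeticGalois (modularFunctionFieldFull (M * p)) τ' • D = D)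
    (hz : ∃ x ∈ F.X.N.R2.O, ∀ P : Place Qbar ↥(modularFunctionFieldBar (M * p)),
      F.X.N.R2.r P = some Q →
        P.ord (1 + algebraMap Qbar ↥(modularFunctionFieldBar (M * p)) (B.ϖ ^ (B.s + 1)) * x) = Dz P)
    {h : ↥(modularFunctionFieldBar (M * p))} (hh0 : h ≠ 0)
    (hdiv : ∀ P : Place Qbar ↥(modularFunctionFieldBar (M * p)), F.X.N.R2.r P = some Q →
      P.ord h = (arithmeticGalois (modularFunctionFieldFull (M * p)) τ • D - D - Dz) P) :
    ∃ ρ θ : ↥(modularFunctionFieldBar (M * p)),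
      IsFactor F.X.N.R2.toBranch F.X.N.R2.toBranch B {P | F.X.N.R2.r P = some Q} h ρ θ 0 0 := by
  obtain ⟨c, P0, hcW, hgood, -, -, -⟩ := F.exists_fixed_param_2 Q hQ
  refine Fermat.Agent.S44.Core.DiscFactor.exists_factor F.X.N.R2 B
    (arithmeticGalois (modularFunctionFieldFull (M * p)) τ)
    (fun a => Fermat.Agent.S19.SymmX0.baseAut_arithmeticGalois_apply (M * p) τ a)
    (lifts (M := M) (p := p) H) ?_ F.deg_eq_one hgood
    (F.smul_param_2 (inertia_fixed hcW hτ)) ?_ (F.X.r2_smul τ hτ) ?_ D Dz ?_ hz hh0 hdiv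
  · intro a ha
    refine hfix a fun τ' hτ' => ?_
    have h1 := ha _ (mem_lifts.mpr ⟨τ', hτ', rfl⟩)
    rw [Fermat.Agent.S19.SymmX0.baseAut_arithmeticGalois_apply] at h1
    exact h1
  · intro g' hg'
    obtain ⟨τ', hτ', rfl⟩ := mem_lifts.mp hg'
    exact F.smul_param_2 (inertia_fixed hcW (hH hτ'))
  · intro g' hg' P
    obtain ⟨τ', hτ', rfl⟩ := mem_lifts.mp hg'
    exact F.X.r2_smul τ' (hH hτ') P
  · intro g' hg'
    obtain ⟨τ', hτ', rfl⟩ := mem_lifts.mp hg'
    exact hHD τ' hτ'

end Fermat.Agent.S44.X0.DiscInst
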