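/-
PROJECT P (S44), X0 instance of (VG) (helper18): **the hypotheses `hVG1`, `hVG2` of `Core/Induct` at
`X₀(M p)`.**

`A` a valuation subring of `ℚ̄` over `p ∤ M`, `I` its inertia group, `E = ℚ̄(X₀(M p))`, `V₁`, `V₂` the
two Gauss rings of `E` (`S34/GaussPairX0`, `= V1X0, V2X0` by `S34/GaussPairBridge`).  `Hs` a subgroup
of `Gal(ℚ̄/ℚ)` such that `I` is covered by at most `e'` cosets `t Hs`, `t ∈ T ⊆ I`; `ϖ ∈ ℚ̄` fixed by
`Hs`, a non-unit of `A` with `p = ϖ ^ e' * unit`.  Then for every non-zero function `f ∈ E` fixed by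
`Hs` there is `n : ℤ` with `f * ϖ ^ (-n)` a unit of `V_i` (`i = 1, 2`).

Inputs: `Core/ValNorm.exists_zpow_eq_of_fixed` (norm trick), `S36/LevelQK0.exists_zpow_eq_V1z / V2z`
(the value group of the inertia-fixed functions is `v(p)^ℤ`), `S36/PowerBasisK0.exists_tB_eq_of_fixed`
(inertia-fixed functions come from the `K₀`-form), `S34/GaussPairX0.smul_mem_V₁_iff / V₂`.
-/
import Mathlib
import Fermat.Agent.S36.LevelQK0
import Fermat.Agent.S34.GaussPairBridge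
import Fermat.Agent.S44.Core.ValNorm

set_option autoImplicit false
set_option linter.unusedSectionVars false
set_option synthInstance.maxHeartbeats 400000

noncomputable section

namespace Fermat.Agent.S44.X0.ValGroupInst

open ModularCurve AlgebraicCurve IsLocalRing
open Fermat.Agent.S34.GaussPairX0 Fermat.Agent.S36.PowerBasisK0 Fermat.Agent.S36.ThetaK0
open Fermat.Agent.S36.LevelQK0 Fermat.Agent.S37.Deuring.Core

local notation "Kb" => AlgebraicClosure ℚ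

/-! ### generalities -/

section Gen

variable {F : Type*} [Field F]

theorem valuation_eq_one_of_mem (V : ValuationSubring F) {y : F} (hy0 : y ≠ 0) (h1 : y ∈ V)
    (h2 : y⁻¹ ∈ V) : V.valuation y = 1 := by
  have h3 : V.valuation y ≤ 1 := (V.valuation_le_one_iff y).mpr h1
  have h4 : V.valuation y⁻¹ ≤ 1 := (V.valuation_le_one_iff _).mpr h2
  rw [map_inv₀] at h4
  have hpos : 0 < V.valuation y := zero_lt_iff.mpr ((V.valuation.ne_zero_iff).mpr hy0)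
  exact le_antisymm h3 ((inv_le_one₀ hpos).mp h4)

theorem mem_of_valuation_eq_one (V : ValuationSubring F) {y : F} (h : V.valuation y = 1) :
    y ∈ V ∧ y⁻¹ ∈ V := by
  refine ⟨(V.valuation_le_one_iff y).mp h.le, (V.valuation_le_one_iff _).mp ?_⟩
  rw [map_inv₀, h, inv_one]

/-- transport of a value-group statement along a `comap` -/
theorem valuation_zpow_of_comap {F' : Type*} [Field F'] (φ : F →+* F') (V : ValuationSubring F')
    {z ϖ : F} (hz : z ≠ 0) (hϖ : ϖ ≠ 0) {m : ℤ}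
    (h : (V.comap φ).valuation z = (V.comap φ).valuation ϖ ^ m) :
    V.valuation (φ z) = V.valuation (φ ϖ) ^ m := by
  have hy : (V.comap φ).valuation (z * ϖ ^ (-m)) = 1 := by
    rw [map_mul, map_zpow₀, h, zpow_neg, mul_inv_cancel₀]
    exact zpow_ne_zero m (((V.comap φ).valuation.ne_zero_iff).mpr hϖ)
  obtain ⟨h1, h2⟩ := mem_of_valuation_eq_one _ hy
  have hy0 : z * ϖ ^ (-m) ≠ 0 := mul_ne_zero hz (zpow_ne_zero _ hϖ)
  have h1' : φ (z * ϖ ^ (-m)) ∈ V := h1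
  have h2' : (φ (z * ϖ ^ (-m)))⁻¹ ∈ V := by
    rw [← map_inv₀]
    exact h2
  have h3 := valuation_eq_one_of_mem V ((map_ne_zero φ).mpr hy0) h1' h2'
  rw [map_mul, map_zpow₀, map_mul, map_zpow₀, zpow_neg] at h3
  have hne : V.valuation (φ ϖ) ^ m ≠ 0 :=
    zpow_ne_zero m ((V.valuation.ne_zero_iff).mpr ((map_ne_zero φ).mpr hϖ))
  exact (mul_inv_eq_one₀ hne).mp h3

end Gen

/-! ### constants in a Gauss datum over `(A, residue A)` -/

section Const

variable {A : ValuationSubring Kb} {FL : Type*} [Field FL] [Algebra Kb FL] {Fk : Type*} [Field Fk]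
  [Algebra (ResidueField ↥A) Fk] (Gd : GaussDatum A (residue ↥A) FL Fk)

theorem valuation_const_unit {u : Kb} (hu : A.valuation u = 1) :
    Gd.O.valuation (algebraMap Kb FL u) = 1 := by
  obtain ⟨h1, h2⟩ := mem_of_valuation_eq_one A hu
  have hu0 : u ≠ 0 := by
    rintro rfl
    rw [map_zero] at hu
    exact zero_ne_one hu
  refine valuation_eq_one_of_mem _ ((map_ne_zero _).mpr hu0) (Gd.algebraMap_mem ⟨u, h1⟩) ?_
  rw [← map_inv₀]
  exact Gd.algebraMap_mem ⟨u⁻¹, h2⟩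

theorem valuation_const_lt_one {c : Kb} (hc : c ∈ A.nonunits) :
    Gd.O.valuation (algebraMap Kb FL c) < 1 := by
  have hcA : c ∈ A := by
    rw [A.mem_nonunits_iff] at hc
    exact (A.valuation_le_one_iff c).mp hc.le
  have hnu : ¬ IsUnit (⟨c, hcA⟩ : ↥A) := by
    intro hu
    rw [A.mem_nonunits_iff] at hc
    exact (ne_of_lt hc) ((A.valuation_eq_one_iff ⟨c, hcA⟩).mp hu)
  have h0 : Gd.red ⟨algebraMap Kb FL c, Gd.algebraMap_mem ⟨c, hcA⟩⟩ = 0 := by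
    rw [Gd.red_algebraMap ⟨c, hcA⟩, (residue_eq_zero_iff _).mpr ((mem_maximalIdeal _).mpr hnu),
      map_zero]
  have h1 := (Gd.red_eq_zero_iff _).mp h0
  have h2 : Gd.O.valuation (algebraMap Kb FL c) ≤ 1 :=
    (Gd.O.valuation_le_one_iff _).mpr (Gd.algebraMap_mem ⟨c, hcA⟩)
  rcases lt_or_eq_of_le h2 with h | h
  · exact h
  · exact absurd ((Gd.O.valuation_eq_one_iff ⟨_, Gd.algebraMap_mem ⟨c, hcA⟩⟩).mpr h) h1

end Const

/-! ### the abstract instance: a Gauss datum of `E = ℚ̄(X₀(N))` stable under inertia -/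

section Abstract

variable {p : ℕ} {N : ℕ} {A : ValuationSubring Kb}
variable {Fk : Type*} [Field Fk] [Algebra (ResidueField ↥A) Fk]
variable (Gd : GaussDatum A (residue ↥A) ↥(modularFunctionFieldBar N) Fk)

/-- **(VG) from the norm trick**, for any Gauss datum of `ℚ̄(X₀(N))` whose ring is stable under the
inertia group and whose inertia-fixed functions take their values in `v(p)^ℤ`. -/
theorem exists_valuation_mul_zpow_eq_one
    (hV : ∀ σ ∈ A.inertiaSubgroupIn ℚ, ∀ x : ↥(modularFunctionFieldBar N),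
      arithmeticGalois (modularFunctionFieldFull N) σ • x ∈ Gd.O ↔ x ∈ Gd.O)
    (hfix : ∀ x : ↥(modularFunctionFieldBar N),
      (∀ σ ∈ A.inertiaSubgroupIn ℚ, arithmeticGalois (modularFunctionFieldFull N) σ • x = x) →
      x ≠ 0 → ∃ n : ℤ, Gd.O.valuation x =
        Gd.O.valuation (algebraMap Kb ↥(modularFunctionFieldBar N) (p : Kb)) ^ n)
    (Hs : Subgroup (Kb ≃ₐ[ℚ] Kb)) (T : Finset (Kb ≃ₐ[ℚ] Kb)) {e' : ℕ} (hT : T.card ≤ e')
    (hTI : ∀ t ∈ T, t ∈ A.inertiaSubgroupIn ℚ)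
    (hcov : ∀ g ∈ A.inertiaSubgroupIn ℚ, ∃ t ∈ T, t⁻¹ * g ∈ Hs)
    (ϖ : Kb) (hϖ0 : ϖ ≠ 0) (hϖ : ϖ ∈ A.nonunits)
    (he : ∃ u : Kb, A.valuation u = 1 ∧ (p : Kb) = ϖ ^ e' * u)
    (hϖH : ∀ h ∈ Hs, h ϖ = ϖ)
    {f : ↥(modularFunctionFieldBar N)}
    (hf : ∀ h ∈ Hs, arithmeticGalois (modularFunctionFieldFull N) h • f = f) (hf0 : f ≠ 0) :
    ∃ n : ℤ, Gd.O.valuation
      (f * algebraMap Kb ↥(modularFunctionFieldBar N) (ϖ ^ (-n))) = 1 := by
  classical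
  -- the inertia group acting on `E`
  let act : MulSemiringAction ↥(A.inertiaSubgroupIn ℚ) ↥(modularFunctionFieldBar N) :=
    MulSemiringAction.compHom ↥(modularFunctionFieldBar N)
      ((arithmeticGalois (modularFunctionFieldFull N)).comp (A.inertiaSubgroupIn ℚ).subtype)
  have hact : ∀ (g : ↥(A.inertiaSubgroupIn ℚ)) (x : ↥(modularFunctionFieldBar N)),
      g • x = arithmeticGalois (modularFunctionFieldFull N) (g : Kb ≃ₐ[ℚ] Kb) • x :=
    fun _ _ => rfl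
  -- constants
  have hconst : ∀ (σ : Kb ≃ₐ[ℚ] Kb) (c : Kb),
      arithmeticGalois (modularFunctionFieldFull N) σ •
        algebraMap Kb ↥(modularFunctionFieldBar N) c =
        algebraMap Kb ↥(modularFunctionFieldBar N) (σ c) :=
    fun σ c => arithmeticRingAut_algebraMap (modularFunctionFieldFull N) σ c
  set ϖE : ↥(modularFunctionFieldBar N) := algebraMap Kb ↥(modularFunctionFieldBar N) ϖ with hϖE
  have hϖE0 : ϖE ≠ 0 := (map_ne_zero _).mpr hϖ0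
  have hϖE1 : Gd.O.valuation ϖE < 1 := valuation_const_lt_one Gd hϖ
  have hpE : Gd.O.valuation ϖE ^ e' =
      Gd.O.valuation (algebraMap Kb ↥(modularFunctionFieldBar N) (p : Kb)) := by
    obtain ⟨u, hu, hpu⟩ := he
    rw [hpu, map_mul, map_pow, map_mul, map_pow, valuation_const_unit Gd hu, mul_one]
  -- the covering set inside the inertia group
  let T' : Finset ↥(A.inertiaSubgroupIn ℚ) := T.attach.image fun t => ⟨t.1, hTI t.1 t.2⟩
  have hT' : T'.card ≤ e' :=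
    (Finset.card_image_le.trans (le_of_eq Finset.card_attach)).trans hT
  have hcov' : ∀ g : ↥(A.inertiaSubgroupIn ℚ),
      ∃ t ∈ T', t⁻¹ * g ∈ Hs.subgroupOf (A.inertiaSubgroupIn ℚ) := by
    intro g
    obtain ⟨t, ht, hth⟩ := hcov g.1 g.2
    refine ⟨⟨t, hTI t ht⟩, Finset.mem_image.mpr ⟨⟨t, ht⟩, Finset.mem_attach _ _, rfl⟩, ?_⟩
    rw [Subgroup.mem_subgroupOf]
    exact hth
  obtain ⟨m, hm⟩ := Fermat.Agent.S44.Core.ValNorm.exists_zpow_eq_of_fixed (V := Gd.O)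
    (G := ↥(A.inertiaSubgroupIn ℚ))
    (fun g x => by rw [hact]; exact hV g.1 g.2 x)
    (Hs.subgroupOf (A.inertiaSubgroupIn ℚ)) T' hT' hcov' ϖE
    (algebraMap Kb ↥(modularFunctionFieldBar N) (p : Kb)) hϖE0 hϖE1 hpE
    (fun h hh => by
      rw [hact, hϖE, hconst, hϖH _ (Subgroup.mem_subgroupOf.mp hh)])
    (fun x hx hx0 => hfix x (fun σ hσ => hx ⟨σ, hσ⟩) hx0)
    (f := f) (fun h hh => by rw [hact]; exact hf _ (Subgroup.mem_subgroupOf.mp hh)) hf0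
  refine ⟨m, ?_⟩
  rw [map_mul, map_zpow₀, map_zpow₀, hm, zpow_neg, mul_inv_cancel₀]
  exact zpow_ne_zero m ((Gd.O.valuation.ne_zero_iff).mpr hϖE0)

end Abstract

/-! ### the two Gauss rings of `X₀(M p)` -/

section X0

variable {p : ℕ} [hp : Fact p.Prime] {M : ℕ} [NeZero M] {A : ValuationSubring Kb}
variable (hA : A.LiesOverPrime p) (hpM : ¬ p ∣ M) [NeZero p]

/-- the inertia-fixed functions of `ℚ̄(X₀(M p))` have their `V₁`-values in `v(p)^ℤ` -/
theorem exists_zpow_eq_of_inertia_fixed₁ (x : ↥(modularFunctionFieldBar (M * p)))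
    (hx : ∀ σ ∈ A.inertiaSubgroupIn ℚ,
      arithmeticGalois (modularFunctionFieldFull (M * p)) σ • x = x) (hx0 : x ≠ 0) :
    ∃ n : ℤ, (V₁ hA hpM).valuation x =
      (V₁ hA hpM).valuation (algebraMap Kb ↥(modularFunctionFieldBar (M * p)) (p : Kb)) ^ n := by
  obtain ⟨c, rfl⟩ := exists_tB_eq_of_fixed (A.inertiaSubgroupIn ℚ) (M * p) x hx
  have hc0 : c ≠ 0 := by
    rintro rfl
    exact hx0 (map_zero _)
  obtain ⟨n, hn⟩ := exists_zpow_eq_V1z hA hpM hc0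
  have hp0 : ((p : ℕ) : FK (A.inertiaSubgroupIn ℚ) (M * p)) ≠ 0 := by
    exact_mod_cast hp.out.ne_zero
  refine ⟨n, ?_⟩
  have h1 : tB (A.inertiaSubgroupIn ℚ) (M * p) ((p : ℕ) : FK (A.inertiaSubgroupIn ℚ) (M * p)) =
      algebraMap Kb ↥(modularFunctionFieldBar (M * p)) (p : Kb) := by
    rw [map_natCast, map_natCast]
  have := valuation_zpow_of_comap (tB (A.inertiaSubgroupIn ℚ) (M * p)) (V₁ hA hpM) hc0 hp0 hn
  rw [this, h1]

/-- the inertia-fixed functions of `ℚ̄(X₀(M p))` have their `V₂`-values in `v(p)^ℤ` -/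
theorem exists_zpow_eq_of_inertia_fixed₂ (x : ↥(modularFunctionFieldBar (M * p)))
    (hx : ∀ σ ∈ A.inertiaSubgroupIn ℚ,
      arithmeticGalois (modularFunctionFieldFull (M * p)) σ • x = x) (hx0 : x ≠ 0) :
    ∃ n : ℤ, (V₂ hA hpM).valuation x =
      (V₂ hA hpM).valuation (algebraMap Kb ↥(modularFunctionFieldBar (M * p)) (p : Kb)) ^ n := by
  obtain ⟨c, rfl⟩ := exists_tB_eq_of_fixed (A.inertiaSubgroupIn ℚ) (M * p) x hx
  have hc0 : c ≠ 0 := by
    rintro rfl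
    exact hx0 (map_zero _)
  obtain ⟨n, hn⟩ := exists_zpow_eq_V2z hA hpM hc0
  have hp0 : ((p : ℕ) : FK (A.inertiaSubgroupIn ℚ) (M * p)) ≠ 0 := by
    exact_mod_cast hp.out.ne_zero
  refine ⟨n, ?_⟩
  have h1 : tB (A.inertiaSubgroupIn ℚ) (M * p) ((p : ℕ) : FK (A.inertiaSubgroupIn ℚ) (M * p)) =
      algebraMap Kb ↥(modularFunctionFieldBar (M * p)) (p : Kb) := by
    rw [map_natCast, map_natCast]
  have := valuation_zpow_of_comap (tB (A.inertiaSubgroupIn ℚ) (M * p)) (V₂ hA hpM) hc0 hp0 hn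
  rw [this, h1]

variable (Hs : Subgroup (Kb ≃ₐ[ℚ] Kb)) (T : Finset (Kb ≃ₐ[ℚ] Kb)) {e' : ℕ} (hT : T.card ≤ e')
  (hTI : ∀ t ∈ T, t ∈ A.inertiaSubgroupIn ℚ)
  (hcov : ∀ g ∈ A.inertiaSubgroupIn ℚ, ∃ t ∈ T, t⁻¹ * g ∈ Hs)
  (ϖ : Kb) (hϖ0 : ϖ ≠ 0) (hϖ : ϖ ∈ A.nonunits)
  (he : ∃ u : Kb, A.valuation u = 1 ∧ (p : Kb) = ϖ ^ e' * u)
  (hϖH : ∀ h ∈ Hs, h ϖ = ϖ)

include hT hTI hcov hϖ0 hϖ he hϖH

/-- **`hVG1` of `Core/Induct` at `X₀(M p)`**: every non-zero function fixed by `Hs` is `ϖ ^ n` times a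
unit of `V₁`. -/
theorem hVG₁ {f : ↥(modularFunctionFieldBar (M * p))}
    (hf : ∀ h ∈ Hs, arithmeticGalois (modularFunctionFieldFull (M * p)) h • f = f)
    (hf0 : f ≠ 0) :
    ∃ n : ℤ, (V₁ hA hpM).valuation
      (f * algebraMap Kb ↥(modularFunctionFieldBar (M * p)) (ϖ ^ (-n))) = 1 :=
  exists_valuation_mul_zpow_eq_one (p := p) (gaussDatumV₁ hA hpM)
    (fun _ hσ x => smul_mem_V₁_iff hA hpM hσ x)
    (exists_zpow_eq_of_inertia_fixed₁ hA hpM) Hs T hT hTI hcov ϖ hϖ0 hϖ he hϖH hf hf0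

/-- **`hVG2` of `Core/Induct` at `X₀(M p)`**. -/
theorem hVG₂ {f : ↥(modularFunctionFieldBar (M * p))}
    (hf : ∀ h ∈ Hs, arithmeticGalois (modularFunctionFieldFull (M * p)) h • f = f)
    (hf0 : f ≠ 0) :
    ∃ n : ℤ, (V₂ hA hpM).valuation
      (f * algebraMap Kb ↥(modularFunctionFieldBar (M * p)) (ϖ ^ (-n))) = 1 :=
  exists_valuation_mul_zpow_eq_one (p := p) (gaussDatumV₂ hA hpM)
    (fun _ hσ x => smul_mem_V₂_iff hA hpM hσ x)
    (exists_zpow_eq_of_inertia_fixed₂ hA hpM) Hs T hT hTI hcov ϖ hϖ0 hϖ he hϖH hf hf0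

/-- the same for `V1X0` (`S34/Z1X0`), the ring `R1.O` of every `ChartFrame` -/
theorem hVG1X0 {f : ↥(modularFunctionFieldBar (M * p))}
    (hf : ∀ h ∈ Hs, arithmeticGalois (modularFunctionFieldFull (M * p)) h • f = f)
    (hf0 : f ≠ 0) :
    ∃ n : ℤ, (Fermat.Agent.S34.Z1X0.V1X0 hA hpM).valuation
      (f * algebraMap Kb ↥(modularFunctionFieldBar (M * p)) (ϖ ^ (-n))) = 1 := by
  rw [Fermat.Agent.S34.GaussPairBridge.V1X0_eq]
  exact hVG₁ hA hpM Hs T hT hTI hcov ϖ hϖ0 hϖ he hϖH hf hf0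

/-- the same for `V2X0` -/
theorem hVG2X0 {f : ↥(modularFunctionFieldBar (M * p))}
    (hf : ∀ h ∈ Hs, arithmeticGalois (modularFunctionFieldFull (M * p)) h • f = f)
    (hf0 : f ≠ 0) :
    ∃ n : ℤ, (Fermat.Agent.S34.Z1X0.V2X0 hA hpM).valuation
      (f * algebraMap Kb ↥(modularFunctionFieldBar (M * p)) (ϖ ^ (-n))) = 1 := by
  rw [Fermat.Agent.S34.GaussPairBridge.V2X0_eq]
  exact hVG₂ hA hpM Hs T hT hTI hcov ϖ hϖ0 hϖ he hϖH hf hf0

end X0

end Fermat.Agent.S44.X0.ValGroupInst
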