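/-
PROJECT P (S44), X0 (helper18): **`hVG1`, `hVG2` of `Core/Induct` on the wild and tame frames, in one
call.**

`FKfix Hs N` : the subfield of `ℚ̄(X₀(N))` of the functions fixed by the subgroup `Hs` of `Gal(ℚ̄/ℚ)`
(coefficientwise action) = the `FK` of `Core/Induct`.

* wild frame `W : WildDatum A σ p (I1 p A) (stab p A x)` (helper9, `Loc/Frame`): `Hs = stab p A x`,
  `ϖ = W.ϖ`, `e' = p (p - 1)`, cover from `Loc/Cover.exists_cover`:
  `hVG1_wild`, `hVG2_wild`, `hKFK_wild`;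
* tame frame `Tm : TameDatum A p (I1 p A)` (`Loc/Tame`): `Hs = I1 p A`, `ϖ = Tm.π1`, `e' = p - 1`:
  `hVG1_tame`, `hVG2_tame`, `hKFK_tame`.

The conclusions are the binders of `Core/Induct.moment_eq` verbatim, with `R_i.O = V1X0 / V2X0`.
-/
import Mathlib
import Fermat.Agent.S44.X0.ValGroupInst
import Fermat.Agent.S44.Loc.Cover
import Fermat.Agent.S44.Loc.Tame

set_option autoImplicit false
set_option linter.unusedSectionVars false

noncomputable section

namespace Fermat.Agent.S44.X0.ValGroupWild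

open ModularCurve
open Fermat.Agent.S44.Core.Break Fermat.Agent.S44.Loc.Frame Fermat.Agent.S44.Loc.Tame
open Fermat.Agent.S44.X0.ValGroupInst

local notation "Qbar" => AlgebraicClosure ℚ
local notation "GQ" => (AlgebraicClosure ℚ ≃ₐ[ℚ] AlgebraicClosure ℚ)

/-! ### the field of functions fixed by a subgroup -/

section Fix

variable (Hs : Subgroup GQ) (N : ℕ)

/-- the functions of `ℚ̄(X₀(N))` fixed by `Hs` -/
def FKfix : Subfield ↥(modularFunctionFieldBar N) where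
  carrier := {f | ∀ h ∈ Hs, arithmeticGalois (modularFunctionFieldFull N) h • f = f}
  mul_mem' := by
    intro a b ha hb h hh
    rw [smul_mul', ha h hh, hb h hh]
  one_mem' := fun _ _ => smul_one _
  add_mem' := by
    intro a b ha hb h hh
    rw [smul_add, ha h hh, hb h hh]
  zero_mem' := fun _ _ => smul_zero _
  neg_mem' := by
    intro a ha h hh
    rw [smul_neg, ha h hh]
  inv_mem' := by
    intro a ha h hh
    rw [smul_inv'', ha h hh]

variable {Hs N}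

theorem mem_FKfix {f : ↥(modularFunctionFieldBar N)} :
    f ∈ FKfix Hs N ↔ ∀ h ∈ Hs, arithmeticGalois (modularFunctionFieldFull N) h • f = f := Iff.rfl

/-- constants fixed by `Hs` are functions fixed by `Hs` -/
theorem const_mem_FKfix {c : Qbar} (hc : ∀ h ∈ Hs, h c = c) :
    algebraMap Qbar ↥(modularFunctionFieldBar N) c ∈ FKfix Hs N := by
  intro h hh
  have := arithmeticRingAut_algebraMap (modularFunctionFieldFull N) h c
  rw [hc h hh] at this
  exact this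

end Fix

variable {p : ℕ} [hp : Fact p.Prime] {M : ℕ} [NeZero M] {A : ValuationSubring Qbar}
variable (hA : A.LiesOverPrime p) (hpM : ¬ p ∣ M) [NeZero p]

/-! ### the wild frame -/

section Wild

variable {J : Type*} [AddCommGroup J] [DistribMulAction GQ J] {x : J} {Lx : AddSubgroup J}
  {σ : GQ} (W : WildDatum A (σ : Qbar ≃+* Qbar) p (I1 p A) (stab p A x))

/-- `hKFK` of `Core/Induct` on the wild frame -/
theorem hKFK_wild (N : ℕ) (c : Qbar) (hc : c ∈ W.K') :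
    algebraMap Qbar ↥(modularFunctionFieldBar N) c ∈ FKfix (stab p A x) N :=
  const_mem_FKfix fun h hh => (W.fixed_iff c).mp hc h hh

variable (hLfix : ∀ τ ∈ I1 p A, ∀ z ∈ Lx, τ • z = z) (hx : ∀ τ ∈ I1 p A, τ • x - x ∈ Lx)
  (hcard : Nat.card Lx = p) (hσ : σ ∈ I1 p A) (hσx : σ • x ≠ x)

include hLfix hx hcard hσ hσx

/-- **`hVG1` of `Core/Induct` on the wild frame.** -/
theorem hVG1_wild (f : ↥(modularFunctionFieldBar (M * p))) (hf : f ∈ FKfix (stab p A x) (M * p))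
    (hf0 : f ≠ 0) :
    ∃ n : ℤ, UnitA (Fermat.Agent.S34.Z1X0.V1X0 hA hpM)
      (f * algebraMap Qbar ↥(modularFunctionFieldBar (M * p)) (W.ϖ ^ (-n))) := by
  obtain ⟨T, hT, hTI, hcov⟩ := Fermat.Agent.S44.Loc.Cover.exists_cover hLfix hx hcard hσ hσx
  exact hVG1X0 hA hpM (stab p A x) T hT hTI hcov W.ϖ W.ϖ_ne W.ϖ_non W.e_abs
    (fun h hh => (W.fixed_iff W.ϖ).mp W.ϖ_mem h hh) hf hf0

/-- **`hVG2` of `Core/Induct` on the wild frame.** -/
theorem hVG2_wild (f : ↥(modularFunctionFieldBar (M * p))) (hf : f ∈ FKfix (stab p A x) (M * p))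
    (hf0 : f ≠ 0) :
    ∃ n : ℤ, UnitA (Fermat.Agent.S34.Z1X0.V2X0 hA hpM)
      (f * algebraMap Qbar ↥(modularFunctionFieldBar (M * p)) (W.ϖ ^ (-n))) := by
  obtain ⟨T, hT, hTI, hcov⟩ := Fermat.Agent.S44.Loc.Cover.exists_cover hLfix hx hcard hσ hσx
  exact hVG2X0 hA hpM (stab p A x) T hT hTI hcov W.ϖ W.ϖ_ne W.ϖ_non W.e_abs
    (fun h hh => (W.fixed_iff W.ϖ).mp W.ϖ_mem h hh) hf hf0

end Wild

/-! ### the tame frame -/

section Tame

variable (Tm : TameDatum A p (I1 p A))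

/-- `hKFK` on the tame frame -/
theorem hKFK_tame (N : ℕ) (c : Qbar) (hc : c ∈ Tm.K1) :
    algebraMap Qbar ↥(modularFunctionFieldBar N) c ∈ FKfix (I1 p A) N :=
  const_mem_FKfix fun h hh => (Tm.fixed1_iff c).mp hc h hh

/-- the cover of the inertia group by the cosets of `I1` -/
theorem exists_cover_tame :
    ∃ T : Finset GQ, T.card ≤ p - 1 ∧ (∀ t ∈ T, t ∈ A.inertiaSubgroupIn ℚ) ∧
      ∀ g ∈ A.inertiaSubgroupIn ℚ, ∃ t ∈ T, t⁻¹ * g ∈ I1 p A := by
  classical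
  obtain ⟨τ₀, r, hτ₀, _, hrp, hgen⟩ :=
    Fermat.Agent.S44.Loc.Cover.exists_tame_generator_lt (p := p) (A := A)
  refine ⟨(Finset.range r).image (fun i => τ₀ ^ i), ?_, ?_, ?_⟩
  · exact (Finset.card_image_le.trans (le_of_eq (Finset.card_range r))).trans hrp
  · intro t ht
    obtain ⟨i, _, rfl⟩ := Finset.mem_image.mp ht
    exact pow_mem hτ₀ i
  · intro g hg
    obtain ⟨k, hk, hk1⟩ := hgen g hg
    exact ⟨τ₀ ^ k, Finset.mem_image.mpr ⟨k, Finset.mem_range.mpr hk, rfl⟩, hk1⟩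

/-- **`hVG1` on the tame frame.** -/
theorem hVG1_tame (f : ↥(modularFunctionFieldBar (M * p))) (hf : f ∈ FKfix (I1 p A) (M * p))
    (hf0 : f ≠ 0) :
    ∃ n : ℤ, UnitA (Fermat.Agent.S34.Z1X0.V1X0 hA hpM)
      (f * algebraMap Qbar ↥(modularFunctionFieldBar (M * p)) (Tm.π1 ^ (-n))) := by
  obtain ⟨T, hT, hTI, hcov⟩ := exists_cover_tame (p := p) (A := A)
  exact hVG1X0 hA hpM (I1 p A) T hT hTI hcov Tm.π1 Tm.π1_ne Tm.π1_non Tm.e_abs
    (fun h hh => (Tm.fixed1_iff Tm.π1).mp Tm.π1_mem h hh) hf hf0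

/-- **`hVG2` on the tame frame.** -/
theorem hVG2_tame (f : ↥(modularFunctionFieldBar (M * p))) (hf : f ∈ FKfix (I1 p A) (M * p))
    (hf0 : f ≠ 0) :
    ∃ n : ℤ, UnitA (Fermat.Agent.S34.Z1X0.V2X0 hA hpM)
      (f * algebraMap Qbar ↥(modularFunctionFieldBar (M * p)) (Tm.π1 ^ (-n))) := by
  obtain ⟨T, hT, hTI, hcov⟩ := exists_cover_tame (p := p) (A := A)
  exact hVG2X0 hA hpM (I1 p A) T hT hTI hcov Tm.π1 Tm.π1_ne Tm.π1_non Tm.e_abs
    (fun h hh => (Tm.fixed1_iff Tm.π1).mp Tm.π1_mem h hh) hf hf0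

end Tame

end Fermat.Agent.S44.X0.ValGroupWild
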