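/-
PROJECT P (S44), CORE instance, X0/CoreRep (helper18): THE CORE REPRESENTATIVE OF THE PEU EXPORT.

Frame: `F : ChartFrame hA hpM` with `Y : NodeHyp F`; `x ∈ J₀(M p)`, `σ ∈ I1 p A` the wild
generator, `W : WildDatum A σ p (I1 p A) (stab p A x)` the wild frame (`Loc/Frame`), the line `Lx`
of the displacements (`hLfix`, `hx` : binders of `X0/MomentInst`), `z = σ • x - x` a `1`-unit
class.  The CORE representative is a pair `(D, h)`:

* `D` a divisor of degree zero with `[D] = x`, stable under `stab p A x` (the moving lemma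
  `X0/MovingInst.exists_stable_rep_off`, which enters as the explicit hypothesis `hmov` in its own
  literal shape), without point over the bad smooth places;
* `Dz` the deep divisor of `z` (`X0/DeepInst.exists_deep_wild`), supported in good discs off
  `F.Bad1`, `F.Bad2`;
* `h ≠ 0` with `div h = σ • D - D - Dz`, normalised by `qLead h = 1`, hence FIXED by `stab p A x`
  (`stab p A x` is normal in `I1 p A` : `Loc/Frame.conj_mem_stab`).

Output `IsCoreRep F Y W D h` = the geometric binders of `X0/MomentInst.moment_eq_wild_disc_zero`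
verbatim (`hh`, `hh0`, `hgood1`, `hgood2`, `hbad1`) + the binder `hdiv` of
`X0/NodeInst.exists_factor_node` at every node (`ord_P h = (σ • D - D) P` on the tube) + `hHD`.
Everything is in `sp1`-form; the `sp2`-form binder `hbad2` of `X0/MomentInst` is NOT produced (it
would need the Kronecker dichotomy, which is not a field of `NodeHyp`): it is replaced by the local
count `hLC` in `X0/MomentLC` (helper1).

* abstract: `exists_fixed_of_principal` (a principal divisor stable under `H` is the divisor of a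
  function fixed by `H`, given a leading coefficient);
* instance: `smul_smul_divisor_eq`, `exists_fixed_function`, `IsCoreRep`, `exists_coreRep`.
-/
import Fermat.Agent.S36.K0DescentX0
import Fermat.Agent.S44.Core.FrameHyp
import Fermat.Agent.S44.X0.DeepInst
import Fermat.Agent.S44.X0.DiscInst
import Fermat.Agent.S44.X0.ValGroupWild

set_option autoImplicit false
set_option linter.unusedSectionVars false
set_option linter.unusedVariables false
set_option linter.style.haveILetI false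
set_option synthInstance.maxHeartbeats 400000

noncomputable section

namespace Fermat.Agent.S44.X0.CoreRep

open ModularCurve AlgebraicCurve IsLocalRing
open Fermat.Agent.S18.NonSpecial Fermat.Agent.S34.NodalDefs Fermat.Agent.S34.CoreZX0Datum
open Fermat.Agent.S33.X0.Frame Fermat.Agent.S33.KP.OneUnit
open Fermat.Agent.S44.Core.Break Fermat.Agent.S44.Core.Factor Fermat.Agent.S44.Core.FrameHyp
open Fermat.Agent.S44.Loc.Frame Fermat.Agent.S44.X0.ValGroupWild

/-! ### Abstract part: a stable principal divisor has a fixed function -/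

section Abstract

variable {K F : Type*} [Field K] [Field F] [Algebra K F]

/-- **A principal divisor stable under `H` is the divisor of a function fixed by `H`**, normalised
by the leading coefficient. -/
theorem exists_fixed_of_principal {g : ℕ} (HR : RiemannHyp K F g) [HasPrincipalDivisors K F]
    (H : Subgroup (SemilinearAut K F)) {lc : F → K}
    (hlc : Fermat.Agent.S36.K0Descent.LeadingCoeff H lc) (E : Divisor K F)
    (hE : ∀ h ∈ H, h • E = E) {f0 : F} (hf0 : f0 ≠ 0)
    (hdiv : ∀ w : Place K F, w.ord f0 = E w) :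
    ∃ f : F, f ≠ 0 ∧ (∀ w : Place K F, w.ord f = E w) ∧ (∀ h ∈ H, h • f = f) ∧ lc f = 1 := by
  have hc0 : lc f0 ≠ 0 := hlc.ne_zero f0 hf0
  obtain ⟨f, hf⟩ : ∃ f : F, f = algebraMap K F (lc f0)⁻¹ * f0 := ⟨_, rfl⟩
  have hcF : algebraMap K F (lc f0)⁻¹ ≠ 0 := (map_ne_zero _).mpr (inv_ne_zero hc0)
  have hfne : f ≠ 0 := by rw [hf]; exact mul_ne_zero hcF hf0
  have hlcf : lc f = 1 := by rw [hf, hlc.const_mul, inv_mul_cancel₀ hc0]
  have hordf : ∀ w : Place K F, w.ord f = E w := fun w => by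
    rw [hf, w.ord_mul hcF hf0, hdiv w, Fermat.Agent.S24.Ord.ord_algebraMap, zero_add]
  refine ⟨f, hfne, hordf, fun h hh => ?_, hlcf⟩
  have hhf : h • f ≠ 0 := by
    rw [Ne, smul_eq_zero_iff_eq]; exact hfne
  have hord : ∀ w : Place K F, w.ord (h • f * f⁻¹) = 0 := fun w => by
    rw [w.ord_mul hhf (inv_ne_zero hfne), w.ord_inv, hordf w]
    have e1 : w.ord (h • f) = (h⁻¹ • w).ord f := by
      have e := SemilinearAut.ord_smul h (h⁻¹ • w) f
      rwa [smul_inv_smul] at e
    rw [e1, hordf (h⁻¹ • w)]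
    have e2 : E (h⁻¹ • w) = E w := by
      have e := SemilinearAut.divisor_smul_apply h E w
      rw [hE h hh] at e
      exact e.symm
    rw [e2]; ring
  obtain ⟨c, hc, hcu⟩ := Fermat.Agent.S36.K0Descent.exists_const_of_ord_eq_zero HR
    (mul_ne_zero hhf (inv_ne_zero hfne)) hord
  have hhfc : h • f = algebraMap K F c * f := by
    rw [← hcu, mul_assoc, inv_mul_cancel₀ hfne, mul_one]
  have hc1 : c = 1 := by
    have e1 : lc (h • f) = 1 := by rw [hlc.equivariant h hh, hlcf, map_one]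
    rw [hhfc, hlc.const_mul, hlcf, mul_one] at e1
    exact e1
  rw [hhfc, hc1, map_one, one_mul]

end Abstract

/-! ### The instance at `X₀(M p)` -/

local notation "Qbar" => AlgebraicClosure ℚ
local notation "GQ" => (AlgebraicClosure ℚ ≃ₐ[ℚ] AlgebraicClosure ℚ)

attribute [local instance 2000] Fermat.Agent.S34.EulerX0.algResFk

/-- local instance: principal divisors on `E` -/
local instance instPDBar (N : ℕ) [NeZero N] :
    HasPrincipalDivisors Qbar ↥(modularFunctionFieldBar N) :=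
  Fermat.Agent.S18.A.Instances.hasPrincipalDivisors_bar N

local instance instNeZeroMul (M q : ℕ) [NeZero M] [NeZero q] : NeZero (M * q) :=
  ⟨Nat.mul_ne_zero (NeZero.ne M) (NeZero.ne q)⟩

variable {p : ℕ} [hp : Fact p.Prime] {M : ℕ} [NeZero M] {A : ValuationSubring Qbar} [NeZero p]
variable {hA : A.LiesOverPrime p} {hpM : ¬ p ∣ M}

/-- **`σ • D` is stable under a subgroup `S` normalised by `σ` when `D` is.** -/
theorem smul_smul_divisor_eq {N : ℕ} [NeZero N] {S : Subgroup GQ} {σ : GQ}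
    (hconj : ∀ τ ∈ S, σ⁻¹ * τ * σ ∈ S) (D : Divisor Qbar ↥(modularFunctionFieldBar N))
    (hD : ∀ τ ∈ S, arithmeticGalois (modularFunctionFieldFull N) τ • D = D) (τ : GQ) (hτ : τ ∈ S) :
    arithmeticGalois (modularFunctionFieldFull N) τ •
      (arithmeticGalois (modularFunctionFieldFull N) σ • D) =
        arithmeticGalois (modularFunctionFieldFull N) σ • D := by
  have h1 : τ * σ = σ * (σ⁻¹ * τ * σ) := by rw [mul_assoc, mul_inv_cancel_left]
  rw [← mul_smul, ← map_mul, h1, map_mul, mul_smul, hD _ (hconj τ hτ)]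

/-- **A principal divisor of `X₀(N)` stable under a subgroup `S` of `Gal(ℚ̄/ℚ)` is the divisor of
a function fixed by `S`.** -/
theorem exists_fixed_function {N : ℕ} [NeZero N] (S : Subgroup GQ)
    (E : Divisor Qbar ↥(modularFunctionFieldBar N))
    (hE : ∀ τ ∈ S, arithmeticGalois (modularFunctionFieldFull N) τ • E = E)
    (hprin : Divisor.IsPrincipal E) :
    ∃ f : ↥(modularFunctionFieldBar N), f ≠ 0 ∧ f ∈ FKfix S N ∧
      ∀ w : Place Qbar ↥(modularFunctionFieldBar N), w.ord f = E w := by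
  obtain ⟨g, HR⟩ := Fermat.Agent.S18.A.RiemannFk.exists_riemannHyp_FL N
  obtain ⟨f0, hf0, hf0E⟩ := hprin
  obtain ⟨f, hf, hord, hfix, -⟩ := exists_fixed_of_principal HR
    (S.map (arithmeticGalois (modularFunctionFieldFull N)))
    (Fermat.Agent.S36.K0DescentLaurent.leadingCoeff_qLead (modularFunctionFieldFull N) S) E
    (by rintro h ⟨τ, hτ, rfl⟩; exact hE τ hτ) hf0 (fun w => (hf0E w).symm)
  exact ⟨f, hf, fun τ hτ => hfix _ ⟨τ, hτ, rfl⟩, hord⟩

/-- **The CORE representative** `(D, h)` of `x` on the wild frame `W`: the geometric binders of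
`X0/MomentInst.moment_eq_wild_disc_zero` and of `X0/NodeInst.exists_factor_node`. -/
structure IsCoreRep (F : ChartFrame hA hpM) (Y : NodeHyp F) {x : JZero (M * p)} {σ : GQ}
    (W : WildDatum A (σ : Qbar ≃+* Qbar) p (I1 p A) (stab p A x))
    (D : Divisor Qbar ↥(modularFunctionFieldBar (M * p)))
    (h : ↥(modularFunctionFieldBar (M * p))) : Prop where
  /-- `D` is stable under the stabiliser -/
  stable : ∀ τ ∈ stab p A x, arithmeticGalois (modularFunctionFieldFull (M * p)) τ • D = D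
  /-- `h` is fixed by the stabiliser -/
  mem : h ∈ FKfix (stab p A x) (M * p)
  ne_zero : h ≠ 0
  /-- on the tube of a node the divisor of `h` is `σ • D - D` -/
  tube : ∀ e : {b // b ∈ F.X.S}, ∀ P ∈ Y.tube e,
    P.ord h = (arithmeticGalois (modularFunctionFieldFull (M * p)) σ • D - D) P
  good1 : ∀ Q ∈ F.X.N.R1.good, ∃ ρ θ : ↥(modularFunctionFieldBar (M * p)),
    IsFactor F.X.N.R1.toBranch F.X.N.R1.toBranch W.toBreakDatum
      {P | F.X.N.R1.r P = some Q} h ρ θ 0 0
  good2 : ∀ Q ∈ F.X.N.R2.good, ∃ ρ θ : ↥(modularFunctionFieldBar (M * p)),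
    IsFactor F.X.N.R2.toBranch F.X.N.R2.toBranch W.toBreakDatum
      {P | F.X.N.R2.r P = some Q} h ρ θ 0 0
  bad1 : ∀ Q : Place (ResidueField ↥A) ↥(modularFunctionFieldFullC (ResidueField ↥A) M),
    Q ∉ F.X.N.R1.good → (∀ b ∈ F.X.S, Q ≠ Y.Fr b) →
    ∀ P : Place Qbar ↥(modularFunctionFieldBar (M * p)), Y.sp1 P = Q → P.adicValuation h ≤ 1

set_option maxHeartbeats 1600000 in
/-- **The CORE representative exists.**  `hmov` is the literal of
`X0/MovingInst.exists_stable_rep_off` at `S := stab p A x`. -/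
theorem exists_coreRep (F : ChartFrame hA hpM) (Y : NodeHyp F)
    {x : JZero (M * p)} {Lx : AddSubgroup (JZero (M * p))}
    (hLfix : ∀ τ ∈ I1 p A, ∀ z ∈ Lx, τ • z = z) (hx : ∀ τ ∈ I1 p A, τ • x - x ∈ Lx)
    {σ : GQ} (hσ : σ ∈ I1 p A) (hz : σ • x - x ∈ oneUnit hA hpM p)
    (W : WildDatum A (σ : Qbar ≃+* Qbar) p (I1 p A) (stab p A x)) (hs : W.s + 1 ≤ p)
    (hmov : ∀ Bad : Finset (Place (ResidueField ↥A)
        ↥(modularFunctionFieldFullC (ResidueField ↥A) M)),
      (∀ Q ∈ Bad, ∀ a ∈ F.X.S, Q ≠ Y.Fr a) →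
      ∃ D : Divisor.degZero (K := Qbar) (F := ↥(modularFunctionFieldBar (M * p))),
        Pic0.mk D = x ∧
        (∀ τ ∈ stab p A x, arithmeticGalois (modularFunctionFieldFull (M * p)) τ •
          (D : Divisor Qbar ↥(modularFunctionFieldBar (M * p))) =
            (D : Divisor Qbar ↥(modularFunctionFieldBar (M * p)))) ∧
        ∀ P : Place Qbar ↥(modularFunctionFieldBar (M * p)),
          (D : Divisor Qbar ↥(modularFunctionFieldBar (M * p))) P ≠ 0 → Y.sp1 P ∉ Bad) :
    ∃ (D : Divisor.degZero (K := Qbar) (F := ↥(modularFunctionFieldBar (M * p))))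
      (h : ↥(modularFunctionFieldBar (M * p))), Pic0.mk D = x ∧
      IsCoreRep F Y W (D : Divisor Qbar ↥(modularFunctionFieldBar (M * p))) h := by
  classical
  -- the inertia
  have hσI : σ ∈ A.inertiaSubgroupIn ℚ := I1_le hσ
  have hσinvI : σ⁻¹ ∈ A.inertiaSubgroupIn ℚ := inv_mem hσI
  have hSI : stab p A x ≤ A.inertiaSubgroupIn ℚ := (stab_le x).trans I1_le
  -- the bad set of the moving lemma
  obtain ⟨BadS, hBadS⟩ : ∃ BadS : Set (Place (ResidueField ↥A)
      ↥(modularFunctionFieldFullC (ResidueField ↥A) M)),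
      BadS = (F.Bad1 ∪ Y.Fr '' F.Bad2) \ {Q | ∃ a ∈ F.X.S, Q = Y.Fr a} := ⟨_, rfl⟩
  have hfin : BadS.Finite := by
    rw [hBadS]
    exact (F.finite_Bad1.union (F.finite_Bad2.image _)).subset Set.sdiff_subset
  obtain ⟨D, hDx, hDS, hDoff⟩ := hmov hfin.toFinset (fun Q hQ a ha hQa => by
    have h1 := hfin.mem_toFinset.mp hQ
    rw [hBadS] at h1
    exact h1.2 ⟨a, ha, hQa⟩)
  -- the support of `D` and of `σ • D`
  have hsupp : ∀ P : Place Qbar ↥(modularFunctionFieldBar (M * p)),
      (Y.sp1 P ∈ F.Bad1 ∨ Y.sp1 P ∈ Y.Fr '' F.Bad2) → (∀ a ∈ F.X.S, Y.sp1 P ≠ Y.Fr a) →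
      (D : Divisor Qbar ↥(modularFunctionFieldBar (M * p))) P = 0 := by
    intro P hP hnode
    by_contra hne
    refine hDoff P hne (hfin.mem_toFinset.mpr ?_)
    rw [hBadS]
    exact ⟨hP, fun ⟨a, ha, hPa⟩ => hnode a ha hPa⟩
  have hsuppσ : ∀ P : Place Qbar ↥(modularFunctionFieldBar (M * p)),
      (Y.sp1 P ∈ F.Bad1 ∨ Y.sp1 P ∈ Y.Fr '' F.Bad2) → (∀ a ∈ F.X.S, Y.sp1 P ≠ Y.Fr a) →
      (arithmeticGalois (modularFunctionFieldFull (M * p)) σ •
        (D : Divisor Qbar ↥(modularFunctionFieldBar (M * p)))) P = 0 := by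
    intro P hP hnode
    rw [SemilinearAut.divisor_smul_apply, ← map_inv]
    have h1 : Y.sp1 (arithmeticGalois (modularFunctionFieldFull (M * p)) σ⁻¹ • P) = Y.sp1 P :=
      Y.sp1_smul σ⁻¹ hσinvI P
    exact hsupp _ (by rw [h1]; exact hP) (by rw [h1]; exact hnode)
  -- the deep divisor of the displacement
  have hzfix : ∀ τ ∈ I1 p A, τ • (σ • x - x) = σ • x - x := fun τ hτ =>
    hLfix τ hτ _ (hx σ hσ)
  obtain ⟨Dz, hDz, hDzsupp, hDzfix, hdeep1, hdeep2⟩ :=
    Fermat.Agent.S44.X0.DeepInst.exists_deep_wild F F.Bad1 F.Bad2 F.finite_Bad1 F.finite_Bad2 W hs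
      I1_le hz hzfix
  -- the function
  obtain ⟨ED, hED⟩ : ∃ ED : Divisor Qbar ↥(modularFunctionFieldBar (M * p)),
      ED = arithmeticGalois (modularFunctionFieldFull (M * p)) σ •
        (D : Divisor Qbar ↥(modularFunctionFieldBar (M * p))) -
          (D : Divisor Qbar ↥(modularFunctionFieldBar (M * p))) -
          (Dz : Divisor Qbar ↥(modularFunctionFieldBar (M * p))) := ⟨_, rfl⟩
  have hconj : ∀ τ ∈ stab p A x, σ⁻¹ * τ * σ ∈ stab p A x := fun τ hτ =>
    conj_mem_stab hLfix hx hσ hτ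
  have hEDS : ∀ τ ∈ stab p A x,
      arithmeticGalois (modularFunctionFieldFull (M * p)) τ • ED = ED := by
    intro τ hτ
    rw [hED, smul_sub, smul_sub, smul_smul_divisor_eq hconj _ hDS τ hτ, hDS τ hτ,
      Fermat.Agent.S44.X0.DeepInst.smul_divisor_eq_of_pointwise _ _
        (fun P hP => hDzfix τ (stab_le x hτ) P hP)]
  -- `ED` is principal
  have hprin : Divisor.IsPrincipal ED := by
    have h0 : Pic0.mk (SemilinearAut.degZeroSMulHom
        (arithmeticGalois (modularFunctionFieldFull (M * p)) σ) D - D - Dz) = 0 := by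
      have h1 : Pic0.mk (SemilinearAut.degZeroSMulHom
          (arithmeticGalois (modularFunctionFieldFull (M * p)) σ) D - D - Dz) =
          arithmeticGalois (modularFunctionFieldFull (M * p)) σ • Pic0.mk D - Pic0.mk D -
            Pic0.mk Dz := rfl
      rw [h1, hDx, hDz]
      exact sub_self _
    have h2 := (QuotientAddGroup.eq_zero_iff _).mp h0
    rw [AddSubgroup.mem_addSubgroupOf] at h2
    rw [hED]
    exact h2
  obtain ⟨h, hh0, hhfix, hdivh⟩ := exists_fixed_function (stab p A x) ED hEDS hprin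
  have hdiv : ∀ P : Place Qbar ↥(modularFunctionFieldBar (M * p)),
      P.ord h = (arithmeticGalois (modularFunctionFieldFull (M * p)) σ •
        (D : Divisor Qbar ↥(modularFunctionFieldBar (M * p))) -
          (D : Divisor Qbar ↥(modularFunctionFieldBar (M * p))) -
          (Dz : Divisor Qbar ↥(modularFunctionFieldBar (M * p)))) P := fun P => by
    rw [hdivh P, hED]
  -- `h` is regular where the three divisors vanish
  have hval : ∀ P : Place Qbar ↥(modularFunctionFieldBar (M * p)),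
      (arithmeticGalois (modularFunctionFieldFull (M * p)) σ •
        (D : Divisor Qbar ↥(modularFunctionFieldBar (M * p)))) P = 0 →
      (D : Divisor Qbar ↥(modularFunctionFieldBar (M * p))) P = 0 →
      (Dz : Divisor Qbar ↥(modularFunctionFieldBar (M * p))) P = 0 →
      P.adicValuation h ≤ 1 := by
    intro P h1 h2 h3
    rw [← Fermat.Agent.S24.Ord.ord_nonneg_iff P hh0, hdiv P, Finsupp.sub_apply,
      Finsupp.sub_apply, h1, h2, h3, sub_zero, sub_zero]
  refine ⟨D, h, hDx, ⟨hDS, hhfix, hh0, ?_, ?_, ?_, ?_⟩⟩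
  · -- the tubes of the nodes
    intro e P hP
    have hz0 : (Dz : Divisor Qbar ↥(modularFunctionFieldBar (M * p))) P = 0 := by
      by_contra hne
      rcases hDzsupp P hne with ⟨Q, -, -, hr⟩ | ⟨Q, -, -, hr⟩
      · exact Y.not_mem_tube_of_r1 hr e hP
      · exact Y.not_mem_tube_of_r2 hr e hP
    rw [hdiv P, Finsupp.sub_apply _ (Dz : Divisor Qbar ↥(modularFunctionFieldBar (M * p))),
      hz0, sub_zero]
  · -- the good discs of the first kind
    intro Q hQ
    by_cases hQB : Q ∈ F.Bad1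
    · refine ⟨1, 0, isFactor_one fun P hP => ?_⟩
      have hP' : F.X.N.R1.r P = some Q := hP
      obtain ⟨-, hsp1, -⟩ := (Y.r1_iff P Q).mp hP'
      have hnode : ∀ a ∈ F.X.S, Y.sp1 P ≠ Y.Fr a := fun a ha hPa =>
        F.X.N.e1_not_good ⟨a, ha⟩ (by rw [Y.e1_eq ⟨a, ha⟩, ← hPa, hsp1]; exact hQ)
      have hbad : Y.sp1 P ∈ F.Bad1 ∨ Y.sp1 P ∈ Y.Fr '' F.Bad2 := Or.inl (by rw [hsp1]; exact hQB)
      refine hval P (hsuppσ P hbad hnode) (hsupp P hbad hnode) ?_
      by_contra hne
      rcases hDzsupp P hne with ⟨Q', -, hQ'B, hr⟩ | ⟨Q', -, -, hr⟩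
      · have hQQ : Q' = Q := Option.some_injective _ (hr.symm.trans hP')
        exact hQ'B (by rw [hQQ]; exact hQB)
      · exact F.X.N.excl P Q Q' hP' hr
    · exact Fermat.Agent.S44.X0.DiscInst.exists_factor_1 F hσI W.toBreakDatum (stab p A x) hSI
        (fun c hc => (W.fixed_iff c).2 hc) hQB
        (D : Divisor Qbar ↥(modularFunctionFieldBar (M * p)))
        (Dz : Divisor Qbar ↥(modularFunctionFieldBar (M * p))) hDS (hdeep1 Q hQ) hh0
        (fun P _ => hdiv P)
  · -- the good discs of the second kind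
    intro Q hQ
    by_cases hQB : Q ∈ F.Bad2
    · refine ⟨1, 0, isFactor_one fun P hP => ?_⟩
      have hP' : F.X.N.R2.r P = some Q := hP
      obtain ⟨hQg, -, hsp1⟩ := (Y.r2_iff P Q).mp hP'
      have hnode : ∀ a ∈ F.X.S, Y.sp1 P ≠ Y.Fr a := fun a ha hPa => by
        have hQa : Q = a := Y.Fr.injective (hsp1.symm.trans hPa)
        exact Y.hyp.node2_not_good a ha (by rw [← hQa]; exact hQg)
      have hbad : Y.sp1 P ∈ F.Bad1 ∨ Y.sp1 P ∈ Y.Fr '' F.Bad2 :=
        Or.inr ⟨Q, hQB, hsp1.symm⟩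
      refine hval P (hsuppσ P hbad hnode) (hsupp P hbad hnode) ?_
      by_contra hne
      rcases hDzsupp P hne with ⟨Q', -, -, hr⟩ | ⟨Q', -, hQ'B, hr⟩
      · exact F.X.N.excl P Q' Q hr hP'
      · have hQQ : Q' = Q := Option.some_injective _ (hr.symm.trans hP')
        exact hQ'B (by rw [hQQ]; exact hQB)
    · exact Fermat.Agent.S44.X0.DiscInst.exists_factor_2 F hσI W.toBreakDatum (stab p A x) hSI
        (fun c hc => (W.fixed_iff c).2 hc) hQB
        (D : Divisor Qbar ↥(modularFunctionFieldBar (M * p)))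
        (Dz : Divisor Qbar ↥(modularFunctionFieldBar (M * p))) hDS (hdeep2 Q hQ) hh0
        (fun P _ => hdiv P)
  · -- the bad smooth places of the first component
    intro Q hQ hQnode P hP
    have hbad : Y.sp1 P ∈ F.Bad1 ∨ Y.sp1 P ∈ Y.Fr '' F.Bad2 :=
      Or.inl (Or.inr (by rw [hP]; exact hQ))
    have hnode : ∀ a ∈ F.X.S, Y.sp1 P ≠ Y.Fr a := fun a ha hPa =>
      hQnode a ha (hP.symm.trans hPa)
    refine hval P (hsuppσ P hbad hnode) (hsupp P hbad hnode) ?_
    by_contra hne
    rcases hDzsupp P hne with ⟨Q', -, -, hr⟩ | ⟨Q', -, -, hr⟩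
    · obtain ⟨hg, h1, -⟩ := (Y.r1_iff P Q').mp hr
      exact hQ (by rw [← hP, h1]; exact hg)
    · obtain ⟨hg, -, h1⟩ := (Y.r2_iff P Q').mp hr
      exact hQ (by rw [← hP, h1]; exact (Y.fr_good Q').mpr hg)

end Fermat.Agent.S44.X0.CoreRep
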