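/-
PROJECT P (S44), moving lemma, step (b2) AT THE CHART FRAME (helper24): LIFTING OF GLUED PAIRS OF
`κ × κ` TO `E = ℚ̄(X₀(M q))` WITH POLES IN INERTIA-FIXED POINTS OF GOOD DISCS.

* abstract (`GNodalDatum` frame): `exists_lift_div₁`, `exists_lift_div₂` : an effective divisor of a
  component, supported at good places, lifted point by point through a section `s` of the partial
  specialisation map: `E = ∑ D(Q) • s(Q)`, good-supported, effective, `push E = (D, 0)` resp.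
  `(0, D)`, stable under every automorphism fixing the points `s Q`;
* frame (`F : ChartFrame hA hqM`, `d : F.ChartPts` a rigid family): `exists_rigid_div` (the divisor
  `∑ d.P1 + ∑ d.P2`), `exists_pole_div` (the inertia-stable divisor `E` with
  `push E = (rigid₁ + D₁, rigid₂ + D₂)` for effective `D₁`, `D₂` off `Bad1`, `Bad2`) and
  `exists_lift_glued` : **every glued pair of `O(rigid₁ + D₁) × O(rigid₂ + D₂)` is the pair of
  reductions of an element of `O₁ ∩ O₂ ∩ L(E)`** (`Core/LiftGlued`, the squeeze).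
-/
import Fermat.Agent.S33.X0.ChartX0
import Fermat.Agent.S44.Core.LiftGlued

set_option autoImplicit false
set_option linter.unusedSectionVars false
set_option linter.unusedVariables false
set_option linter.style.haveILetI false
set_option synthInstance.maxHeartbeats 400000

noncomputable section

namespace Fermat.Agent.S44.X0.LiftGluedInst

open ModularCurve AlgebraicCurve IsLocalRing
open Fermat.Agent.S34.NodalDefs Fermat.Agent.S34.NodalDisc Fermat.Agent.S34.CoreZX0Datum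
open Fermat.Agent.S33.Nodal.Glued Fermat.Agent.S33.Nodal.SemiCont Fermat.Agent.S33.Nodal.Rigid3
open Fermat.Agent.S33.X0.Frame Fermat.Agent.S33.X0.ChartX0

/-! ### abstract part -/

section Abstract

variable {L : Type*} [Field L] {FL : Type*} [Field FL] [Algebra L FL]
variable {k : Type*} [Field k] {F1 : Type*} [Field F1] [Algebra k F1]
  {F2 : Type*} [Field F2] [Algebra k F2]
variable {A : ValuationSubring L} {π : A →+* k} {ι : Type*}
variable (N : GNodalDatum A π FL F1 F2 ι)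

/-- lifting an effective divisor of the first component to good discs, point by point -/
theorem exists_lift_div₁ (D : Divisor k F1) (hD : 0 ≤ D) (s : Place k F1 → Place L FL)
    (hs : ∀ Q, D Q ≠ 0 → Q ∈ N.R1.good ∧ N.R1.r (s Q) = some Q) :
    ∃ E : Divisor L FL, GoodSupp N E ∧ 0 ≤ E ∧ push1 N E = D ∧ push2 N E = 0 ∧
      ∀ g : SemilinearAut L FL, (∀ Q, D Q ≠ 0 → g • s Q = s Q) → g • E = E := by
  classical
  refine ⟨∑ Q ∈ D.support, Finsupp.single (s Q) (D Q), ?_, ?_, ?_, ?_, ?_⟩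
  · refine goodSupp_sum N _ _ fun Q hQ => ?_
    obtain ⟨hg, hr⟩ := hs Q (Finsupp.mem_support_iff.mp hQ)
    exact goodSupp_single1 N hg hr _
  · refine Finset.sum_nonneg fun Q _ => ?_
    exact Finsupp.single_nonneg.mpr (Finsupp.le_def.mp hD Q)
  · rw [push1_sum]
    have h1 : ∀ Q ∈ D.support, push1 N (Finsupp.single (s Q) (D Q)) = Finsupp.single Q (D Q) :=
      fun Q hQ => push1_single_of_some N (hs Q (Finsupp.mem_support_iff.mp hQ)).2 _
    rw [Finset.sum_congr rfl h1]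
    exact Finsupp.sum_single D
  · rw [push2_sum]
    refine Finset.sum_eq_zero fun Q hQ => ?_
    exact push2_single_of_some1 N (hs Q (Finsupp.mem_support_iff.mp hQ)).2 _
  · intro g hg
    rw [Finset.smul_sum]
    refine Finset.sum_congr rfl fun Q hQ => ?_
    rw [SemilinearAut.smul_single, hg Q (Finsupp.mem_support_iff.mp hQ)]

/-- lifting an effective divisor of the second component to good discs, point by point -/
theorem exists_lift_div₂ (D : Divisor k F2) (hD : 0 ≤ D) (s : Place k F2 → Place L FL)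
    (hs : ∀ Q, D Q ≠ 0 → Q ∈ N.R2.good ∧ N.R2.r (s Q) = some Q) :
    ∃ E : Divisor L FL, GoodSupp N E ∧ 0 ≤ E ∧ push1 N E = 0 ∧ push2 N E = D ∧
      ∀ g : SemilinearAut L FL, (∀ Q, D Q ≠ 0 → g • s Q = s Q) → g • E = E := by
  classical
  refine ⟨∑ Q ∈ D.support, Finsupp.single (s Q) (D Q), ?_, ?_, ?_, ?_, ?_⟩
  · refine goodSupp_sum N _ _ fun Q hQ => ?_
    obtain ⟨hg, hr⟩ := hs Q (Finsupp.mem_support_iff.mp hQ)
    exact goodSupp_single2 N hg hr _
  · refine Finset.sum_nonneg fun Q _ => ?_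
    exact Finsupp.single_nonneg.mpr (Finsupp.le_def.mp hD Q)
  · rw [push1_sum]
    refine Finset.sum_eq_zero fun Q hQ => ?_
    exact push1_single_of_some2 N (hs Q (Finsupp.mem_support_iff.mp hQ)).2 _
  · rw [push2_sum]
    have h1 : ∀ Q ∈ D.support, push2 N (Finsupp.single (s Q) (D Q)) = Finsupp.single Q (D Q) :=
      fun Q hQ => push2_single_of_some N (hs Q (Finsupp.mem_support_iff.mp hQ)).2 _
    rw [Finset.sum_congr rfl h1]
    exact Finsupp.sum_single D
  · intro g hg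
    rw [Finset.smul_sum]
    refine Finset.sum_congr rfl fun Q hQ => ?_
    rw [SemilinearAut.smul_single, hg Q (Finsupp.mem_support_iff.mp hQ)]

/-- the divisor `∑ P1 + ∑ P2` of two families of points in good discs -/
theorem exists_sum_div {g1 m2 : ℕ} (Q1 : Fin g1 → Place k F1) (Q2 : Fin m2 → Place k F2)
    (P1 : Fin g1 → Place L FL) (P2 : Fin m2 → Place L FL) (hQ1 : ∀ i, Q1 i ∈ N.R1.good)
    (hQ2 : ∀ j, Q2 j ∈ N.R2.good) (hP1 : ∀ i, N.R1.r (P1 i) = some (Q1 i))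
    (hP2 : ∀ j, N.R2.r (P2 j) = some (Q2 j)) :
    ∃ E : Divisor L FL, GoodSupp N E ∧ 0 ≤ E ∧
      push1 N E = ∑ i, Finsupp.single (Q1 i) (1 : ℤ) ∧
      push2 N E = ∑ j, Finsupp.single (Q2 j) (1 : ℤ) ∧
      ∀ g : SemilinearAut L FL, (∀ i, g • P1 i = P1 i) → (∀ j, g • P2 j = P2 j) → g • E = E := by
  classical
  refine ⟨(∑ i, Finsupp.single (P1 i) (1 : ℤ)) + ∑ j, Finsupp.single (P2 j) (1 : ℤ),
    ?_, ?_, ?_, ?_, ?_⟩
  · refine GoodSupp.add N ?_ ?_
    · exact goodSupp_sum N _ _ fun i _ => goodSupp_single1 N (hQ1 i) (hP1 i) _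
    · exact goodSupp_sum N _ _ fun j _ => goodSupp_single2 N (hQ2 j) (hP2 j) _
  · refine add_nonneg ?_ ?_
    · exact Finset.sum_nonneg fun i _ => Finsupp.single_nonneg.mpr zero_le_one
    · exact Finset.sum_nonneg fun j _ => Finsupp.single_nonneg.mpr zero_le_one
  · rw [push1_add, push1_sum, push1_sum]
    have h1 : ∀ i ∈ Finset.univ, push1 N (Finsupp.single (P1 i) (1 : ℤ)) =
        Finsupp.single (Q1 i) (1 : ℤ) := fun i _ => push1_single_of_some N (hP1 i) _
    have h2 : ∀ j ∈ Finset.univ, push1 N (Finsupp.single (P2 j) (1 : ℤ)) = 0 :=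
      fun j _ => push1_single_of_some2 N (hP2 j) _
    rw [Finset.sum_congr rfl h1, Finset.sum_eq_zero h2, add_zero]
  · rw [push2_add, push2_sum, push2_sum]
    have h1 : ∀ i ∈ Finset.univ, push2 N (Finsupp.single (P1 i) (1 : ℤ)) = 0 :=
      fun i _ => push2_single_of_some1 N (hP1 i) _
    have h2 : ∀ j ∈ Finset.univ, push2 N (Finsupp.single (P2 j) (1 : ℤ)) =
        Finsupp.single (Q2 j) (1 : ℤ) := fun j _ => push2_single_of_some N (hP2 j) _
    rw [Finset.sum_eq_zero h1, Finset.sum_congr rfl h2, zero_add]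
  · intro g hg1 hg2
    rw [smul_add, Finset.smul_sum, Finset.smul_sum]
    congr 1
    · refine Finset.sum_congr rfl fun i _ => ?_
      rw [SemilinearAut.smul_single, hg1 i]
    · refine Finset.sum_congr rfl fun j _ => ?_
      rw [SemilinearAut.smul_single, hg2 j]

/-- sum of three stable good-supported effective divisors -/
theorem exists_add_div {E0 E1 E2 : Divisor L FL} {D01 D1 : Divisor k F1} {D02 D2 : Divisor k F2}
    (hg0 : GoodSupp N E0) (hg1 : GoodSupp N E1) (hg2 : GoodSupp N E2) (hn0 : 0 ≤ E0)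
    (hn1 : 0 ≤ E1) (hn2 : 0 ≤ E2) (hp01 : push1 N E0 = D01) (hp02 : push2 N E0 = D02)
    (hp11 : push1 N E1 = D1) (hp12 : push2 N E1 = 0) (hp21 : push1 N E2 = 0)
    (hp22 : push2 N E2 = D2) :
    GoodSupp N (E0 + (E1 + E2)) ∧ 0 ≤ E0 + (E1 + E2) ∧ push1 N (E0 + (E1 + E2)) = D01 + D1 ∧
      push2 N (E0 + (E1 + E2)) = D02 + D2 ∧
      ∀ g : SemilinearAut L FL, g • E0 = E0 → g • E1 = E1 → g • E2 = E2 →
        g • (E0 + (E1 + E2)) = E0 + (E1 + E2) := by
  refine ⟨GoodSupp.add N hg0 (GoodSupp.add N hg1 hg2), add_nonneg hn0 (add_nonneg hn1 hn2),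
    ?_, ?_, ?_⟩
  · rw [push1_add, push1_add, hp01, hp11, hp21, add_zero]
  · rw [push2_add, push2_add, hp02, hp12, hp22, zero_add]
  · intro g h0 h1 h2
    rw [smul_add, smul_add, h0, h1, h2]

end Abstract

/-! ### the chart frame -/

local notation "Kb" => AlgebraicClosure ℚ

variable {q : ℕ} [hq : Fact q.Prime] {M : ℕ} [NeZero M] {A : ValuationSubring Kb} [NeZero q]
variable {hA : A.LiesOverPrime q} {hqM : ¬ q ∣ M}

/-- local instance: principal divisors on `E` -/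
local instance instPDBar (N : ℕ) [NeZero N] :
    HasPrincipalDivisors Kb ↥(modularFunctionFieldBar N) :=
  Fermat.Agent.S18.A.Instances.hasPrincipalDivisors_bar N

local instance instNeZeroMul : NeZero (M * q) :=
  ⟨Nat.mul_ne_zero (NeZero.ne M) (NeZero.ne q)⟩

variable (F : ChartFrame hA hqM)

/-- the divisor `∑ d.P1 + ∑ d.P2` of a rigid family of chart points -/
theorem exists_rigid_div (d : F.ChartPts) :
    ∃ E : Divisor Kb ↥(modularFunctionFieldBar (M * q)), GoodSupp F.X.N E ∧ 0 ≤ E ∧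
      push1 F.X.N E = ∑ i, Finsupp.single (d.Q1 i) (1 : ℤ) ∧
      push2 F.X.N E = ∑ j, Finsupp.single (d.Q2 j) (1 : ℤ) ∧
      ∀ σ ∈ A.inertiaSubgroupIn ℚ,
        arithmeticGalois (modularFunctionFieldFull (M * q)) σ • E = E := by
  obtain ⟨E, hg, hn, hp1, hp2, hst⟩ := exists_sum_div F.X.N d.Q1 d.Q2 d.P1 d.P2 d.Q1_good
    d.Q2_good d.hP1 d.hP2
  exact ⟨E, hg, hn, hp1, hp2, fun σ hσ => hst _ (fun i => d.smul_P1 hσ i)
    (fun j => d.smul_P2 hσ j)⟩

set_option maxHeartbeats 1600000 in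
include hA in
/-- **the pole divisor**: for effective divisors `D₁`, `D₂` of the two components supported off the
bad places, an inertia-stable effective divisor `E` of `E`, supported in good discs, with
push-forwards `rigid₁ + D₁`, `rigid₂ + D₂`. -/
theorem exists_pole_div (d : F.ChartPts) (D1 D2 : Divisor (ResidueField ↥A) ↥(modularFunctionFieldFullC (ResidueField ↥A) M)) (h1 : 0 ≤ D1) (h2 : 0 ≤ D2)
    (hD1 : ∀ Q, D1 Q ≠ 0 → Q ∉ F.Bad1) (hD2 : ∀ Q, D2 Q ≠ 0 → Q ∉ F.Bad2) :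
    ∃ E : Divisor Kb ↥(modularFunctionFieldBar (M * q)), GoodSupp F.X.N E ∧ 0 ≤ E ∧
      push1 F.X.N E = (∑ i, Finsupp.single (d.Q1 i) (1 : ℤ)) + D1 ∧
      push2 F.X.N E = (∑ j, Finsupp.single (d.Q2 j) (1 : ℤ)) + D2 ∧
      ∀ σ ∈ A.inertiaSubgroupIn ℚ,
        arithmeticGalois (modularFunctionFieldFull (M * q)) σ • E = E := by
  classical
  have key1 : ∀ Q : Place (ResidueField ↥A) ↥(modularFunctionFieldFullC (ResidueField ↥A) M), ∃ P0 : Place Kb ↥(modularFunctionFieldBar (M * q)), Q ∉ F.Bad1 →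
      (F.X.N.R1.r P0 = some Q ∧ ∀ σ ∈ A.inertiaSubgroupIn ℚ,
        arithmeticGalois (modularFunctionFieldFull (M * q)) σ • P0 = P0) := by
    intro Q
    by_cases hQ : Q ∈ F.Bad1
    · exact ⟨F.X.Pstar, fun h => absurd hQ h⟩
    · obtain ⟨c, P0, -, -, hr, -, hfix⟩ := F.exists_fixed_param_1 Q hQ
      exact ⟨P0, fun _ => ⟨hr, hfix⟩⟩
  have key2 : ∀ Q : Place (ResidueField ↥A) ↥(modularFunctionFieldFullC (ResidueField ↥A) M), ∃ P0 : Place Kb ↥(modularFunctionFieldBar (M * q)), Q ∉ F.Bad2 →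
      (F.X.N.R2.r P0 = some Q ∧ ∀ σ ∈ A.inertiaSubgroupIn ℚ,
        arithmeticGalois (modularFunctionFieldFull (M * q)) σ • P0 = P0) := by
    intro Q
    by_cases hQ : Q ∈ F.Bad2
    · exact ⟨F.X.Pstar, fun h => absurd hQ h⟩
    · obtain ⟨c, P0, -, -, hr, -, hfix⟩ := F.exists_fixed_param_2 Q hQ
      exact ⟨P0, fun _ => ⟨hr, hfix⟩⟩
  choose s1 hs1 using key1
  choose s2 hs2 using key2
  obtain ⟨E1, hg1, hn1, hp11, hp12, hst1⟩ := exists_lift_div₁ F.X.N D1 h1 s1
    (fun Q hQ => ⟨F.good_of_not_mem_Bad1 (hD1 Q hQ), (hs1 Q (hD1 Q hQ)).1⟩)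
  obtain ⟨E2, hg2, hn2, hp21, hp22, hst2⟩ := exists_lift_div₂ F.X.N D2 h2 s2
    (fun Q hQ => ⟨F.good_of_not_mem_Bad2 (hD2 Q hQ), (hs2 Q (hD2 Q hQ)).1⟩)
  obtain ⟨E0, hg0, hn0, hp01, hp02, hst0⟩ := exists_rigid_div F d
  obtain ⟨hg, hn, hp1, hp2, hst⟩ := exists_add_div F.X.N hg0 hg1 hg2 hn0 hn1 hn2 hp01 hp02 hp11
    hp12 hp21 hp22
  exact ⟨E0 + (E1 + E2), hg, hn, hp1, hp2, fun σ hσ => hst _ (hst0 σ hσ)
    (hst1 _ (fun Q hQ => (hs1 Q (hD1 Q hQ)).2 σ hσ))
    (hst2 _ (fun Q hQ => (hs2 Q (hD2 Q hQ)).2 σ hσ))⟩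

set_option maxHeartbeats 1600000 in
include hA in
/-- **lifting of glued pairs at the chart frame**: every glued pair of sections of
`O(rigid₁ + D₁)`, `O(rigid₂ + D₂)` (`D_i` effective, supported off the bad places) is the pair of
reductions of an element of `O₁ ∩ O₂ ∩ L(E)`, `E` an inertia-stable effective divisor supported in
good discs with `push E = (rigid₁ + D₁, rigid₂ + D₂)`. -/
theorem exists_lift_glued (d : F.ChartPts) (D1 D2 : Divisor (ResidueField ↥A) ↥(modularFunctionFieldFullC (ResidueField ↥A) M)) (h1 : 0 ≤ D1) (h2 : 0 ≤ D2)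
    (hD1 : ∀ Q, D1 Q ≠ 0 → Q ∉ F.Bad1) (hD2 : ∀ Q, D2 Q ≠ 0 → Q ∉ F.Bad2) {y : ↥(modularFunctionFieldFullC (ResidueField ↥A) M) ×
      ↥(modularFunctionFieldFullC (ResidueField ↥A) M)}
    (hy : y ∈ Glued F.X.N ((∑ i, Finsupp.single (d.Q1 i) (1 : ℤ)) + D1)
      ((∑ j, Finsupp.single (d.Q2 j) (1 : ℤ)) + D2)) :
    ∃ (E : Divisor Kb ↥(modularFunctionFieldBar (M * q))) (u : O12 F.X.N), GoodSupp F.X.N E ∧ 0 ≤ E ∧
      (∀ σ ∈ A.inertiaSubgroupIn ℚ,
        arithmeticGalois (modularFunctionFieldFull (M * q)) σ • E = E) ∧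
      push1 F.X.N E = (∑ i, Finsupp.single (d.Q1 i) (1 : ℤ)) + D1 ∧
      push2 F.X.N E = (∑ j, Finsupp.single (d.Q2 j) (1 : ℤ)) + D2 ∧
      ((u : O12 F.X.N) : ↥(modularFunctionFieldBar (M * q))) ∈ riemannRochSpace E ∧ red12 F.X.N u = y := by
  obtain ⟨E, hg, hn, hp1, hp2, hst⟩ := exists_pole_div F d D1 D2 h1 h2 hD1 hD2
  have hy' : y ∈ Glued F.X.N (push1 F.X.N E) (push2 F.X.N E) := by
    rw [hp1, hp2]
    exact hy
  obtain ⟨u, hu, hred⟩ := Fermat.Agent.S44.Core.LiftGlued.exists_red12_eq_of_mem_glued'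
    (orthoPair F) (riemannHyp F) (isRigidPair F d) (finite_k F) (finite_k F) F.deg_eq_one_k
    F.deg_eq_one_k E hg D1 D2 h1 h2 hp1 hp2 hπ hy'
  exact ⟨E, u, hg, hn, hst, hp1, hp2, hu, hred⟩

end Fermat.Agent.S44.X0.LiftGluedInst
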