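/-
PROJECT P (S44), moving lemma, step (b1) AT THE FRAME (helper27; literal of helper10): THE GLUED
PAIR OF REDUCTIONS OF A SEPARATING FUNCTION.

For a chart frame `F` of `X₀(M p)` at `A ∣ p` with its local node hypotheses `Y` and a finite set
`Bad` of non-node places of the component `κ`, there are functions `φ1 φ2 ∈ κ` with

* `(φ1, φ2)` a glued pair: value `0` at the two points of every node, poles only at good places
  off `F.Bad1 ∪ Bad`, resp. off `F.Bad2 ∪ Fr⁻¹ Bad`, so that it lies in `Glued N D1 D2` with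
  `D_i` the polar divisor of `φ_i` (the input of the lifting of glued pairs);
* simple values `gam1 Q` of `φ1` at `Q ∈ Bad` and `gam2 Q` of `φ2` at `Fr⁻¹ Q`, all these
  constants distinct (the input of the separation count on the bad tubes).

Everything comes from `Core/SimpleValues.exists_pair_values`.
-/
import Fermat.Agent.S33.X0.Frame
import Fermat.Agent.S33.Nodal.Glued
import Fermat.Agent.S44.Core.FrameHyp
import Fermat.Agent.S44.Core.SimpleValues

set_option autoImplicit false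
set_option linter.unusedSectionVars false
set_option linter.unusedVariables false
set_option linter.style.haveILetI false
set_option synthInstance.maxHeartbeats 400000

noncomputable section

namespace Fermat.Agent.S44.X0.MovingChoice

open ModularCurve AlgebraicCurve IsLocalRing
open Fermat.Agent.S34.NodalDefs
open Fermat.Agent.S33.X0.Frame Fermat.Agent.S33.Nodal.Glued
open Fermat.Agent.S44.Core.FrameHyp Fermat.Agent.S44.Core.SimpleValues

local notation "Qbar" => AlgebraicClosure ℚ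

/-! ### Abstract part: the polar divisor -/

section Abstract

variable {K F : Type*} [Field K] [Field F] [Algebra K F]

/-- **the polar divisor**: every function lies in `L(D)` for an effective divisor `D` supported
at its poles -/
theorem exists_polar_divisor [HasPrincipalDivisors K F] (φ : F) :
    ∃ D : Divisor K F, 0 ≤ D ∧ φ ∈ riemannRochSpace D ∧ ∀ Q : Place K F, D Q ≠ 0 → Q.ord φ < 0 := by
  classical
  rcases eq_or_ne φ 0 with rfl | hφ
  · exact ⟨0, le_refl _, Submodule.zero_mem _, fun Q h => absurd (Finsupp.zero_apply) h⟩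
  obtain ⟨Dφ, hD, -⟩ := HasPrincipalDivisors.exists_divisor (K := K) φ hφ
  have h0 : (fun n : ℤ => max 0 (-n)) 0 = 0 := by
    show max (0 : ℤ) (-0) = 0
    rw [neg_zero, max_self]
  refine ⟨Dφ.mapRange (fun n : ℤ => max 0 (-n)) h0, ?_, ?_, fun Q hQ => ?_⟩
  · refine Finsupp.le_def.mpr fun Q => ?_
    rw [Finsupp.zero_apply, Finsupp.mapRange_apply]
    exact le_max_left _ _
  · rw [mem_riemannRochSpace_iff]
    intro Q
    right
    rw [Finsupp.mapRange_apply, hD Q]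
    rcases le_total 0 (-(Q.ord φ)) with h | h
    · rw [max_eq_right h, neg_neg]
    · rw [max_eq_left h, neg_zero]
      omega
  · rw [Finsupp.mapRange_apply, hD Q] at hQ
    by_contra hcon
    rw [not_lt] at hcon
    apply hQ
    rw [max_eq_left (by omega)]

/-- a function with a simple zero at `Q` has the value `0` there -/
theorem hasValue_zero_of_ord_eq_one {k Fk : Type*} [Field k] [Field Fk] [Algebra k Fk]
    (Q : Place k Fk) {φ : Fk} {γ : k} (hγ : γ = 0)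
    (h : Q.ord (φ - algebraMap k Fk γ) = 1) : HasValue Q φ 0 := by
  subst hγ
  right
  rw [h]
  exact one_pos

end Abstract

/-! ### The instance at `E = ℚ̄(X₀(M p))` -/

attribute [local instance 2000] Fermat.Agent.S34.EulerX0.algResFk

/-- local instance: principal divisors on the components -/
local instance instPDFk (A : ValuationSubring Qbar) (N : ℕ) [NeZero N] :
    HasPrincipalDivisors (ResidueField ↥A) ↥(modularFunctionFieldFullC (ResidueField ↥A) N) :=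
  Fermat.Agent.S37.ReductionInputs.hasPrincipalDivisors_Fk A N

/-- local instance: the residue field is infinite -/
local instance instInfk (A : ValuationSubring Qbar) : Infinite (ResidueField ↥A) :=
  Fermat.Agent.S37.ReductionInputs.infinite_residueField A

local instance instNeZeroMul (M q : ℕ) [NeZero M] [NeZero q] : NeZero (M * q) :=
  ⟨Nat.mul_ne_zero (NeZero.ne M) (NeZero.ne q)⟩

variable {p : ℕ} [hp : Fact p.Prime] {M : ℕ} [NeZero M] {A : ValuationSubring Qbar} [NeZero p]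
variable {hA : A.LiesOverPrime p} {hpM : ¬ p ∣ M}

set_option maxHeartbeats 1600000 in
/-- **the glued pair of reductions of a separating function.** -/
theorem exists_glued_values (F : ChartFrame hA hpM) (Y : NodeHyp F)
    (Bad : Finset (Place (ResidueField ↥A) ↥(modularFunctionFieldFullC (ResidueField ↥A) M)))
    (hBad : ∀ Q ∈ Bad, ∀ a ∈ F.X.S, Q ≠ Y.Fr a) :
    ∃ (φ1 φ2 : ↥(modularFunctionFieldFullC (ResidueField ↥A) M))
      (D1 D2 : Divisor (ResidueField ↥A) ↥(modularFunctionFieldFullC (ResidueField ↥A) M))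
      (gam1 gam2 : {Q // Q ∈ Bad} → ResidueField ↥A),
      0 ≤ D1 ∧ 0 ≤ D2 ∧
      (∀ Q, D1 Q ≠ 0 → Q ∉ F.Bad1 ∧ Q ∉ Bad) ∧
      (∀ Q, D2 Q ≠ 0 → Q ∉ F.Bad2 ∧ Y.Fr Q ∉ Bad) ∧
      ((φ1, φ2) : ↥(modularFunctionFieldFullC (ResidueField ↥A) M) ×
          ↥(modularFunctionFieldFullC (ResidueField ↥A) M)) ∈ Glued F.X.N D1 D2 ∧
      (∀ j : {Q // Q ∈ Bad},
        (j : Place (ResidueField ↥A) ↥(modularFunctionFieldFullC (ResidueField ↥A) M)).ord
          (φ1 - algebraMap (ResidueField ↥A)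
            ↥(modularFunctionFieldFullC (ResidueField ↥A) M) (gam1 j)) = 1) ∧
      (∀ j : {Q // Q ∈ Bad},
        (Y.Fr.symm j).ord (φ2 - algebraMap (ResidueField ↥A)
          ↥(modularFunctionFieldFullC (ResidueField ↥A) M) (gam2 j)) = 1) ∧
      (∀ j j', gam1 j ≠ gam2 j') ∧
      (∀ j j', j ≠ j' → gam1 j ≠ gam1 j') ∧
      (∀ j j', j ≠ j' → gam2 j ≠ gam2 j') := by
  classical
  -- the finite sets of places and the node places
  obtain ⟨S1, hS1⟩ : ∃ S1 : Finset (Place (ResidueField ↥A)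
      ↥(modularFunctionFieldFullC (ResidueField ↥A) M)), S1 = F.finite_Bad1.toFinset ∪ Bad :=
    ⟨_, rfl⟩
  obtain ⟨S2, hS2⟩ : ∃ S2 : Finset (Place (ResidueField ↥A)
      ↥(modularFunctionFieldFullC (ResidueField ↥A) M)),
      S2 = F.finite_Bad2.toFinset ∪ Bad.image Y.Fr.symm := ⟨_, rfl⟩
  have hmem1 : ∀ Q, Q ∈ S1 ↔ Q ∈ F.Bad1 ∨ Q ∈ Bad := fun Q => by
    rw [hS1, Finset.mem_union, Set.Finite.mem_toFinset]
  have hmem2 : ∀ Q, Q ∈ S2 ↔ Q ∈ F.Bad2 ∨ Y.Fr Q ∈ Bad := fun Q => by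
    rw [hS2, Finset.mem_union, Set.Finite.mem_toFinset, Finset.mem_image]
    constructor
    · rintro (h | ⟨Q', hQ', rfl⟩)
      · exact Or.inl h
      · exact Or.inr (by rw [Equiv.apply_symm_apply]; exact hQ')
    · rintro (h | h)
      · exact Or.inl h
      · exact Or.inr ⟨Y.Fr Q, h, Equiv.symm_apply_apply _ _⟩
  obtain ⟨g1, g2, φ1, φ2, hφ1, hφ2, hN1, hN2, hne1, hne2, hinj1, hinj2, hcross⟩ :=
    exists_pair_values (K := ResidueField ↥A) S1 S2
      {Q | ∃ a ∈ F.X.S, Q = Y.Fr a} {Q | Q ∈ F.X.S}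
  -- the node places lie in `S1`, `S2`
  have hnode1 : ∀ e : {b // b ∈ F.X.S}, F.X.N.e1 e ∈ S1 := fun e =>
    (hmem1 _).mpr (Or.inl (Or.inr (F.X.N.e1_not_good e)))
  have hnode2 : ∀ e : {b // b ∈ F.X.S}, F.X.N.e2 e ∈ S2 := fun e =>
    (hmem2 _).mpr (Or.inl (Or.inr (F.X.N.e2_not_good e)))
  -- the bad places are not node places
  have hB1 : ∀ Q ∈ Bad, Q ∉ {Q | ∃ a ∈ F.X.S, Q = Y.Fr a} := fun Q hQ ⟨a, ha, hQa⟩ =>
    hBad Q hQ a ha hQa
  have hB2 : ∀ Q ∈ Bad, Y.Fr.symm Q ∉ {Q | Q ∈ F.X.S} := fun Q hQ ha =>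
    hBad Q hQ _ ha (Equiv.apply_symm_apply _ _).symm
  have hBS1 : ∀ Q ∈ Bad, Q ∈ S1 := fun Q hQ => (hmem1 Q).mpr (Or.inr hQ)
  have hBS2 : ∀ Q ∈ Bad, Y.Fr.symm Q ∈ S2 := fun Q hQ =>
    (hmem2 _).mpr (Or.inr (by rw [Equiv.apply_symm_apply]; exact hQ))
  -- polar divisors
  obtain ⟨D1, hD1, hφD1, hpole1⟩ := exists_polar_divisor (K := ResidueField ↥A) φ1
  obtain ⟨D2, hD2, hφD2, hpole2⟩ := exists_polar_divisor (K := ResidueField ↥A) φ2
  have hreg1 : ∀ Q ∈ S1, 0 ≤ Q.ord φ1 := fun Q hQ => by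
    have hm := mem_of_ord_sub_eq_one Q (hφ1 Q hQ)
    rcases eq_or_ne φ1 0 with h0 | h0
    · rw [h0, Place.ord_zero]
    · exact (Fermat.Agent.S19.MovingLemma.mem_iff_ord_nonneg Q h0).mp hm
  have hreg2 : ∀ Q ∈ S2, 0 ≤ Q.ord φ2 := fun Q hQ => by
    have hm := mem_of_ord_sub_eq_one Q (hφ2 Q hQ)
    rcases eq_or_ne φ2 0 with h0 | h0
    · rw [h0, Place.ord_zero]
    · exact (Fermat.Agent.S19.MovingLemma.mem_iff_ord_nonneg Q h0).mp hm
  have hoff1 : ∀ Q, D1 Q ≠ 0 → Q ∉ S1 := fun Q hQ hS =>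
    absurd (hreg1 Q hS) (not_le.mpr (hpole1 Q hQ))
  have hoff2 : ∀ Q, D2 Q ≠ 0 → Q ∉ S2 := fun Q hQ hS =>
    absurd (hreg2 Q hS) (not_le.mpr (hpole2 Q hQ))
  refine ⟨φ1, φ2, D1, D2, fun j => g1 j.1, fun j => g2 (Y.Fr.symm j.1), hD1, hD2,
    fun Q hQ => ?_, fun Q hQ => ?_, ?_, fun j => hφ1 j.1 (hBS1 j.1 j.2),
    fun j => hφ2 _ (hBS2 j.1 j.2), fun j j' => ?_, fun j j' hne h => hne ?_,
    fun j j' hne h => hne ?_⟩
  · have h := hoff1 Q hQ
    exact ⟨fun hb => h ((hmem1 Q).mpr (Or.inl hb)), fun hb => h ((hmem1 Q).mpr (Or.inr hb))⟩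
  · have h := hoff2 Q hQ
    exact ⟨fun hb => h ((hmem2 Q).mpr (Or.inl hb)), fun hb => h ((hmem2 Q).mpr (Or.inr hb))⟩
  · refine ⟨hφD1, hφD2, fun e => ⟨0, ?_, ?_⟩⟩
    · exact hasValue_zero_of_ord_eq_one _ (hN1 _ ⟨e.1, e.2, Y.e1_eq e⟩) (hφ1 _ (hnode1 e))
    · exact hasValue_zero_of_ord_eq_one _ (hN2 _ (by rw [Y.e2_eq e]; exact e.2))
        (hφ2 _ (hnode2 e))
  · exact hcross j.1 (hBS1 j.1 j.2) (hB1 j.1 j.2) _ (hBS2 j'.1 j'.2) (hB2 j'.1 j'.2)
  · exact Subtype.ext (hinj1 j.1 (hBS1 j.1 j.2) (hB1 j.1 j.2) j'.1 (hBS1 j'.1 j'.2)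
      (hB1 j'.1 j'.2) h)
  · exact Subtype.ext (Y.Fr.symm.injective (hinj2 _ (hBS2 j.1 j.2) (hB2 j.1 j.2) _
      (hBS2 j'.1 j'.2) (hB2 j'.1 j'.2) h))

end Fermat.Agent.S44.X0.MovingChoice
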