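import Mathlib
import Fermat.Agent.S36.PairLiftK0
import Fermat.Agent.S33.X0.Frame
import Fermat.Agent.S33.Nodal.Glued
import Fermat.Agent.S44.Eis.HeckeNode
import Fermat.Agent.S44.Core.TubeCount

/-!
# PROJECT P (S44), X0/MovingLift: step (b3) of `Core/Moving` at the chart frame, THE INERTIA-FIXED
# LIFT OF A PAIR OF REDUCTIONS INSIDE A RIEMANN-ROCH SPACE

`F : ChartFrame hA hpM` a chart frame of `E = ℚ̄(X₀(M p))` with standard reductions
(`RedStd F`, `RedStd2 F` of `Eis/HeckeNode`), `E₀` a divisor of `E` stable under the inertia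
group `I` of `A`, `u ∈ O₁ ∩ O₂` (`S33/Nodal/Glued.O12`) a function of `L(E₀)`.

* `exists_fixed_lift` : there is `T ∈ L(E₀)` FIXED by `I` (coefficientwise action) with the same
  two reductions as `u`, stated with `TubeCount.Red` on the two branches of the frame.

Proof: `S36/PairLiftK0.exists_K0_lift_pair` with the `I`-stable finite-dimensional space
`V := L(E₀)` (`LiftK0.rho_mem_rr`, `F.X.HL.finite`) and `hres := LiftK0.ratPi_surjective_inertia`;
a `K0`-rational function is `I`-fixed (`LiftK0.rho_toBar`); the bridge `G1X0 / G2X0 → F.X.N.R_i`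
is `F.X.O1_eq / O2_eq`, `GaussPairBridge.V1X0_eq / V2X0_eq`, `PairLiftK0.G1X0_red / G2X0_red` and
the two standardness hypotheses.
-/

set_option autoImplicit false
set_option linter.unusedSectionVars false
set_option linter.unusedVariables false
set_option linter.style.haveILetI false
set_option synthInstance.maxHeartbeats 400000

noncomputable section

namespace Fermat.Agent.S44.X0.MovingLift

open ModularCurve AlgebraicCurve IsLocalRing
open Fermat.Agent.S34.NodalDefs Fermat.Agent.S34.CoreZX0Datum Fermat.Agent.S33.X0.Frame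
open Fermat.Agent.S33.Nodal.Glued
open Fermat.Agent.S34.EulerClosedX0
open Fermat.Agent.S36.K0Fixed Fermat.Agent.S36.LiftK0 Fermat.Agent.S36.PairLiftK0
open Fermat.Agent.S44.Eis.HeckeNode Fermat.Agent.S44.Core.TubeCount

local notation "Qbar" => AlgebraicClosure ℚ
local notation "GQ" => (AlgebraicClosure ℚ ≃ₐ[ℚ] AlgebraicClosure ℚ)

attribute [local instance 2000] Fermat.Agent.S34.EulerX0.algResFk

local instance instNeZeroMul (M q : ℕ) [NeZero M] [NeZero q] : NeZero (M * q) :=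
  ⟨Nat.mul_ne_zero (NeZero.ne M) (NeZero.ne q)⟩

variable {p : ℕ} [hp : Fact p.Prime] {M : ℕ} [NeZero M] {A : ValuationSubring Qbar} [NeZero p]
variable {hA : A.LiesOverPrime p} {hpM : ¬ p ∣ M}

set_option maxHeartbeats 1600000 in
/-- **Step (b3)**: an inertia-fixed function of `L(E₀)` with the two reductions of `u`. -/
theorem exists_fixed_lift (F : ChartFrame hA hpM) (hstd : RedStd F) (hstd2 : RedStd2 F)
    (E₀ : Divisor Qbar ↥(modularFunctionFieldBar (M * p)))
    (hE : ∀ σ ∈ A.inertiaSubgroupIn ℚ,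
      arithmeticGalois (modularFunctionFieldFull (M * p)) σ • E₀ = E₀)
    (u : O12 F.X.N)
    (hu : ((u : O12 F.X.N) : ↥(modularFunctionFieldBar (M * p))) ∈ riemannRochSpace E₀) :
    ∃ T : ↥(modularFunctionFieldBar (M * p)),
      (∀ σ ∈ A.inertiaSubgroupIn ℚ,
        arithmeticGalois (modularFunctionFieldFull (M * p)) σ • T = T) ∧
      T ∈ riemannRochSpace E₀ ∧
      Red F.X.N.R1.toBranch T (red12 F.X.N u).1 ∧
      Red F.X.N.R2.toBranch T (red12 F.X.N u).2 := by
  haveI : CharP (ResidueField ↥A) p := Fermat.Agent.S18.ResidueBasics.charP_residueField A hA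
  obtain ⟨hu1, hu2⟩ := (mem_O12 F.X.N).mp u.2
  have hv1 : ((u : O12 F.X.N) : ↥(modularFunctionFieldBar (M * p))) ∈
      Fermat.Agent.S34.GaussPairX0.V₁ hA hpM := mem_V₁_of_mem F hu1
  have hv2 : ((u : O12 F.X.N) : ↥(modularFunctionFieldBar (M * p))) ∈
      Fermat.Agent.S34.GaussPairX0.V₂ hA hpM := mem_V₂_of_mem F hu2
  have m₁ : ((u : O12 F.X.N) : ↥(modularFunctionFieldBar (M * p))) ∈ (G1X0 hA hpM).O := by
    rw [G1X0_O]
    exact hv1
  have m₂ : ((u : O12 F.X.N) : ↥(modularFunctionFieldBar (M * p))) ∈ (G2X0 hA hpM).O := by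
    rw [G2X0_O]
    exact hv2
  haveI : FiniteDimensional Qbar (riemannRochSpace E₀) := F.X.HL.finite E₀
  obtain ⟨g₀, h₁, h₂, hgV, hr1, hr2⟩ := exists_K0_lift_pair hA hpM (A.inertiaSubgroupIn ℚ)
    (ratPi_surjective_inertia hA) (riemannRochSpace E₀)
    (fun σ z hz => rho_mem_rr (A.inertiaSubgroupIn ℚ) hE σ hz) m₁ m₂ hu
  have t1 : toBar (modularFunctionFieldFull (M * p))
      (IntermediateField.fixedField (A.inertiaSubgroupIn ℚ)) g₀ ∈
      Fermat.Agent.S34.GaussPairX0.V₁ hA hpM := h₁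
  have t2 : toBar (modularFunctionFieldFull (M * p))
      (IntermediateField.fixedField (A.inertiaSubgroupIn ℚ)) g₀ ∈
      Fermat.Agent.S34.GaussPairX0.V₂ hA hpM := by
    rw [← G2X0_O]
    exact h₂
  have T1 := mem_of_mem_V₁ F t1
  have T2 := mem_of_mem_V₂ F t2
  refine ⟨toBar (modularFunctionFieldFull (M * p))
      (IntermediateField.fixedField (A.inertiaSubgroupIn ℚ)) g₀, fun σ hσ => ?_, hgV,
    ⟨T1, ?_⟩, ⟨T2, ?_⟩⟩
  · exact rho_toBar (M * p) (A.inertiaSubgroupIn ℚ) ⟨σ, hσ⟩ g₀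
  · -- first reduction
    have e1 := hstd _ T1 t1
    have e2 : Fermat.Agent.S34.GaussPairX0.red₁ hA hpM ⟨_, t1⟩ =
        Fermat.Agent.S34.GaussPairX0.red₁ hA hpM ⟨_, hv1⟩ := hr1
    have e3 := hstd _ hu1 hv1
    exact e1.trans (e2.trans e3.symm)
  · -- second reduction
    have e1 := hstd2 _ T2 t2
    have e2 : Fermat.Agent.S34.GaussPairX0.red₂ hA hpM ⟨_, t2⟩ =
        Fermat.Agent.S34.GaussPairX0.red₂ hA hpM ⟨_, hv2⟩ :=
      (G2X0_red hA hpM _ h₂ t2).symm.trans (hr2.trans (G2X0_red hA hpM _ m₂ hv2))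
    have e3 := hstd2 _ hu2 hv2
    exact e1.trans (e2.trans e3.symm)

end Fermat.Agent.S44.X0.MovingLift
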