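/-
PROJECT P (S44), frame brick (helper10): THE MOVING LEMMA AT THE FRAME OF `X₀(M p)`.

`Core/Moving` (abstract: stable representative, moving lemma, coordinates from the local count)
instantiated at a chart frame `F` with its local node hypotheses `Y`:

* `le_push1_apply`, `le_push2_apply` : a point of an effective divisor is seen by its push-forward;
* `apply_eq_zero_of_sp1_mem` : an effective divisor with good support whose push-forwards avoid
  `Bad` (first component) and `Fr⁻¹ Bad` (second component) has no point on the tubes over `Bad`;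
* `exists_stable_rep_of_coordinate` : **from an inertia-fixed coordinate to the representative**
  (`Core/Moving.separates_of_localCount` + `Core/Moving.exists_stable_rep_off`);
* `exists_stable_rep_off` : **the moving lemma at the frame.**
-/
import Fermat.Agent.S44.X0.FrameAll
import Fermat.Agent.S44.Core.Moving
import Fermat.Agent.S44.X0.MovingChoice
import Fermat.Agent.S44.X0.LiftGluedInst
import Fermat.Agent.S44.X0.MovingLift

set_option autoImplicit false
set_option linter.unusedSectionVars false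
set_option linter.unusedVariables false
set_option linter.style.haveILetI false
set_option synthInstance.maxHeartbeats 400000

noncomputable section

namespace Fermat.Agent.S44.X0.MovingInst

open ModularCurve AlgebraicCurve IsLocalRing
open Fermat.Agent.S34.NodalDefs Fermat.Agent.S34.CoreZX0Datum
open Fermat.Agent.S33.X0.Frame Fermat.Agent.S33.Nodal.Glued
open Fermat.Agent.S44.Core.FrameHyp Fermat.Agent.S44.Core.TubeCount
open Fermat.Agent.S44.X0.FrameAll

local notation "Qbar" => AlgebraicClosure ℚ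
local notation "GQ" => (AlgebraicClosure ℚ ≃ₐ[ℚ] AlgebraicClosure ℚ)

attribute [local instance 2000] Fermat.Agent.S34.EulerX0.algResFk

/-- local instance: principal divisors on `E` -/
local instance instPDBar (N : ℕ) [NeZero N] :
    HasPrincipalDivisors Qbar ↥(modularFunctionFieldBar N) :=
  Fermat.Agent.S18.A.Instances.hasPrincipalDivisors_bar N

local instance instNeZeroMul (M q : ℕ) [NeZero M] [NeZero q] : NeZero (M * q) :=
  ⟨Nat.mul_ne_zero (NeZero.ne M) (NeZero.ne q)⟩

/-! ### push-forwards of effective divisors -/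

section Push

variable {L : Type*} [Field L] {k : Type*} [Field k]
variable {A' : ValuationSubring L} {π : A' →+* k} {FL : Type*} [Field FL] [Algebra L FL]
  {F1 : Type*} [Field F1] [Algebra k F1] {F2 : Type*} [Field F2] [Algebra k F2] {ι : Type*}
variable (N : GNodalDatum A' π FL F1 F2 ι)

/-- an effective divisor minus one of its points is effective -/
theorem sub_single_nonneg {E : Divisor L FL} (hE : 0 ≤ E) (P : Place L FL) :
    0 ≤ E - Finsupp.single P (E P) := by
  classical
  rw [Finsupp.le_def]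
  intro P'
  rw [Finsupp.coe_zero, Pi.zero_apply, Finsupp.coe_sub, Pi.sub_apply, Finsupp.single_apply]
  by_cases h : P = P'
  · rw [if_pos h, h, sub_self]
  · rw [if_neg h, sub_zero]
    have := Finsupp.le_def.mp hE P'
    rwa [Finsupp.coe_zero, Pi.zero_apply] at this

/-- a point of an effective divisor is seen by the push-forward to the first component -/
theorem le_push1_apply {E : Divisor L FL} (hE : 0 ≤ E) {P : Place L FL} {Q : Place k F1}
    (h : N.R1.r P = some Q) : E P ≤ push1 N E Q := by
  classical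
  have hsplit : E = Finsupp.single P (E P) + (E - Finsupp.single P (E P)) := by abel
  have h0 := push1_nonneg N (sub_single_nonneg hE P)
  have h1 : 0 ≤ push1 N (E - Finsupp.single P (E P)) Q := by
    have := Finsupp.le_def.mp h0 Q
    rwa [Finsupp.coe_zero, Pi.zero_apply] at this
  have h2 : push1 N E Q = E P + push1 N (E - Finsupp.single P (E P)) Q := by
    conv_lhs => rw [hsplit]
    rw [push1_add, Finsupp.coe_add, Pi.add_apply, push1_single_of_some N h, Finsupp.single_apply,
      if_pos rfl]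
  omega

/-- a point of an effective divisor is seen by the push-forward to the second component -/
theorem le_push2_apply {E : Divisor L FL} (hE : 0 ≤ E) {P : Place L FL} {Q : Place k F2}
    (h : N.R2.r P = some Q) : E P ≤ push2 N E Q := by
  classical
  have hsplit : E = Finsupp.single P (E P) + (E - Finsupp.single P (E P)) := by abel
  have h0 := push2_nonneg N (sub_single_nonneg hE P)
  have h1 : 0 ≤ push2 N (E - Finsupp.single P (E P)) Q := by
    have := Finsupp.le_def.mp h0 Q
    rwa [Finsupp.coe_zero, Pi.zero_apply] at this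
  have h2 : push2 N E Q = E P + push2 N (E - Finsupp.single P (E P)) Q := by
    conv_lhs => rw [hsplit]
    rw [push2_add, Finsupp.coe_add, Pi.add_apply, push2_single_of_some N h, Finsupp.single_apply,
      if_pos rfl]
  omega

end Push

variable {p : ℕ} [hp : Fact p.Prime] {M : ℕ} [NeZero M] {A : ValuationSubring Qbar} [NeZero p]
variable {hA : A.LiesOverPrime p} {hpM : ¬ p ∣ M}

/-! ### the pole locus -/

/-- an effective divisor with good support whose push-forwards avoid `Bad` on the first component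
and `Fr⁻¹ Bad` on the second has no point on the tubes over `Bad` -/
theorem apply_eq_zero_of_sp1_mem {F : ChartFrame hA hpM} (Y : NodeHyp F)
    (Bad : Set (Place (ResidueField ↥A) ↥(modularFunctionFieldFullC (ResidueField ↥A) M)))
    {E : Divisor Qbar ↥(modularFunctionFieldBar (M * p))} (hE0 : 0 ≤ E)
    (hGS : GoodSupp F.X.N E)
    (h1 : ∀ Q, push1 F.X.N E Q ≠ 0 → Q ∉ Bad)
    (h2 : ∀ Q, push2 F.X.N E Q ≠ 0 → Y.Fr Q ∉ Bad)
    (P : Place Qbar ↥(modularFunctionFieldBar (M * p))) (hP : Y.sp1 P ∈ Bad) : E P = 0 := by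
  by_contra hne
  have hpos : 0 < E P := by
    have := Finsupp.le_def.mp hE0 P
    rw [Finsupp.coe_zero, Pi.zero_apply] at this
    exact lt_of_le_of_ne this (Ne.symm hne)
  rcases hGS P hne with ⟨Q, -, hQ⟩ | ⟨Q, -, hQ⟩
  · have hle := le_push1_apply F.X.N hE0 hQ
    obtain ⟨-, hsp, -⟩ := (Y.r1_iff P Q).mp hQ
    exact h1 Q (by omega) (hsp ▸ hP)
  · have hle := le_push2_apply F.X.N hE0 hQ
    obtain ⟨-, -, hsp⟩ := (Y.r2_iff P Q).mp hQ
    exact h2 Q (by omega) (hsp ▸ hP)

/-- a function of `L(E)` is regular where `E` has no point -/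
theorem adicValuation_le_one_of_mem {K' F' : Type*} [Field K'] [Field F'] [Algebra K' F']
    {E : Divisor K' F'} {T : F'} (hT : T ∈ riemannRochSpace E) {P : Place K' F'}
    (hP : E P = 0) : P.adicValuation T ≤ 1 := by
  have h := hT P
  rw [hP] at h
  simpa using h

/-! ### from an inertia-fixed coordinate to the representative -/

/-- **From an inertia-fixed coordinate to the representative.**  `T ∈ O₁ ∩ O₂` fixed by the
inertia group, without pole on the tubes over `Bad`, whose reductions take pairwise distinct simple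
values at the branch places `Q`, `Fr⁻¹ Q` (`Q ∈ Bad`): every class of `J₀(M p)(ℚ̄)` fixed by a
subgroup `S` of the inertia group has an `S`-stable representative without point on the tubes over
`Bad`. -/
theorem exists_stable_rep_of_coordinate (F : ChartFrame hA hpM) (Y : NodeHyp F)
    (hLC : HasLocalCount F Y)
    (Bad : Finset (Place (ResidueField ↥A) ↥(modularFunctionFieldFullC (ResidueField ↥A) M)))
    {T : ↥(modularFunctionFieldBar (M * p))}
    (hTfix : ∀ σ ∈ A.inertiaSubgroupIn ℚ,
      arithmeticGalois (modularFunctionFieldFull (M * p)) σ • T = T)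
    {φ1 φ2 : ↥(modularFunctionFieldFullC (ResidueField ↥A) M)}
    (hT1 : Red F.X.N.R1.toBranch T φ1) (hT2 : Red F.X.N.R2.toBranch T φ2)
    (hreg : ∀ P : Place Qbar ↥(modularFunctionFieldBar (M * p)), Y.sp1 P ∈ Bad →
      P.adicValuation T ≤ 1)
    (γ1 γ2 : {Q // Q ∈ Bad} → ResidueField ↥A)
    (hs1 : ∀ j : {Q // Q ∈ Bad}, (j : Place (ResidueField ↥A)
      ↥(modularFunctionFieldFullC (ResidueField ↥A) M)).ord (φ1 - algebraMap (ResidueField ↥A)
        ↥(modularFunctionFieldFullC (ResidueField ↥A) M) (γ1 j)) = 1)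
    (hs2 : ∀ j : {Q // Q ∈ Bad}, (Y.Fr.symm j).ord (φ2 - algebraMap (ResidueField ↥A)
        ↥(modularFunctionFieldFullC (ResidueField ↥A) M) (γ2 j)) = 1)
    (h12 : ∀ j j', γ1 j ≠ γ2 j') (h11 : ∀ j j', j ≠ j' → γ1 j ≠ γ1 j')
    (h22 : ∀ j j', j ≠ j' → γ2 j ≠ γ2 j')
    (S : Subgroup GQ) (hS : S ≤ A.inertiaSubgroupIn ℚ) (x : JZero (M * p))
    (hx : ∀ τ ∈ S, τ • x = x) :
    ∃ D : Divisor.degZero (K := Qbar) (F := ↥(modularFunctionFieldBar (M * p))),
      Pic0.mk D = x ∧
      (∀ τ ∈ S, arithmeticGalois (modularFunctionFieldFull (M * p)) τ •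
        (D : Divisor Qbar ↥(modularFunctionFieldBar (M * p))) =
          (D : Divisor Qbar ↥(modularFunctionFieldBar (M * p)))) ∧
      ∀ P : Place Qbar ↥(modularFunctionFieldBar (M * p)),
        (D : Divisor Qbar ↥(modularFunctionFieldBar (M * p))) P ≠ 0 → Y.sp1 P ∉ Bad := by
  classical
  -- the set of semilinear automorphisms
  set S' : Set (SemilinearAut Qbar ↥(modularFunctionFieldBar (M * p))) :=
    (fun τ : GQ => arithmeticGalois (modularFunctionFieldFull (M * p)) τ) '' (S : Set GQ) with hS'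
  -- an inertia-fixed place
  haveI : Infinite (Place (ResidueField ↥A) ↥(modularFunctionFieldFullC (ResidueField ↥A) M)) :=
    F.X.Hk.infinite
  obtain ⟨Q0, hQ0⟩ := F.finite_Bad1.exists_notMem
  obtain ⟨c0, P0, -, -, -, -, hP0⟩ := F.exists_fixed_param_1 Q0 hQ0
  -- the bad set
  set U : Set (Place Qbar ↥(modularFunctionFieldBar (M * p))) := {P | Y.sp1 P ∈ Bad} with hU
  -- separation
  have hsep0 := Fermat.Agent.S44.Core.Moving.separates_of_localCount
    (R1 := F.X.N.R1.toBranch) (R2 := F.X.N.R2.toBranch) F.deg_eq_one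
    (J := {Q // Q ∈ Bad})
    (fun j => {P : Place Qbar ↥(modularFunctionFieldBar (M * p)) | Y.sp1 P = j.1})
    (fun j => j.1) (fun j => Y.Fr.symm j.1) (fun j => hLC j.1)
    (fun j j' P hj hj' => Subtype.ext (hj.symm.trans hj'))
    hT1 hT2 (fun j P hP => hreg P (by rw [show Y.sp1 P = j.1 from hP]; exact j.2))
    γ1 γ2 hs1 hs2 h12 h11 h22
  have hset : {P : Place Qbar ↥(modularFunctionFieldBar (M * p)) |
      ∃ j : {Q // Q ∈ Bad}, P ∈ {P : Place Qbar ↥(modularFunctionFieldBar (M * p)) |
        Y.sp1 P = j.1}} = U := by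
    ext P
    constructor
    · rintro ⟨j, hj⟩
      show Y.sp1 P ∈ Bad
      rw [show Y.sp1 P = j.1 from hj]
      exact j.2
    · intro hP
      exact ⟨⟨Y.sp1 P, hP⟩, rfl⟩
  rw [hset] at hsep0
  obtain ⟨D, hDx, hDS, hDU⟩ := Fermat.Agent.S44.Core.Moving.exists_stable_rep_off F.X.HL S' P0
    (by
      rintro τ' ⟨τ, hτ, rfl⟩
      exact hP0 τ (hS hτ)) U
    (by
      rintro τ' ⟨τ, hτ, rfl⟩ P hP
      show Y.sp1 _ ∈ Bad
      rw [Y.sp1_smul τ (hS hτ) P]
      exact hP)
    (T := T)
    (by
      rintro τ' ⟨τ, hτ, rfl⟩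
      exact hTfix τ (hS hτ)) hsep0 x
    (by
      rintro τ' ⟨τ, hτ, rfl⟩
      exact hx τ hτ)
  refine ⟨D, hDx, fun τ hτ => hDS _ ⟨τ, hτ, rfl⟩, fun P hP hbad => hP (hDU P hbad)⟩

/-! ### the moving lemma at the frame -/

/-- a sum of distinct points does not see another point -/
theorem sum_single_apply_eq_zero {K' F' : Type*} [Field K'] [Field F'] [Algebra K' F'] {n : ℕ}
    (Qs : Fin n → Place K' F') {Q : Place K' F'} (h : ∀ i, Qs i ≠ Q) :
    (∑ i, Finsupp.single (Qs i) (1 : ℤ)) Q = 0 := by
  classical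
  rw [Finsupp.finsetSum_apply]
  refine Finset.sum_eq_zero fun i _ => ?_
  rw [Finsupp.single_apply, if_neg (h i)]

set_option maxHeartbeats 1600000 in
/-- **The moving lemma at the frame of `X₀(M p)`.**  `Bad` a finite set of places of the first
component, none of them a node place `Fr a`; `S` a subgroup of the inertia group of `A`.  Every
class of `J₀(M p)(ℚ̄)` fixed by `S` is the class of an `S`-stable divisor of degree zero without
point on the tubes `{P | sp1 P = Q}`, `Q ∈ Bad`. -/
theorem exists_stable_rep_off (F : ChartFrame hA hpM) (Y : NodeHyp F)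
    (hstd : Fermat.Agent.S44.Eis.HeckeNode.RedStd F)
    (hstd2 : Fermat.Agent.S44.Eis.HeckeNode.RedStd2 F) (hLC : HasLocalCount F Y)
    (Bad : Finset (Place (ResidueField ↥A) ↥(modularFunctionFieldFullC (ResidueField ↥A) M)))
    (hBad : ∀ Q ∈ Bad, ∀ a ∈ F.X.S, Q ≠ Y.Fr a)
    (S : Subgroup GQ) (hS : S ≤ A.inertiaSubgroupIn ℚ) (x : JZero (M * p))
    (hx : ∀ τ ∈ S, τ • x = x) :
    ∃ D : Divisor.degZero (K := Qbar) (F := ↥(modularFunctionFieldBar (M * p))),
      Pic0.mk D = x ∧
      (∀ τ ∈ S, arithmeticGalois (modularFunctionFieldFull (M * p)) τ •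
        (D : Divisor Qbar ↥(modularFunctionFieldBar (M * p))) =
          (D : Divisor Qbar ↥(modularFunctionFieldBar (M * p)))) ∧
      ∀ P : Place Qbar ↥(modularFunctionFieldBar (M * p)),
        (D : Divisor Qbar ↥(modularFunctionFieldBar (M * p))) P ≠ 0 → Y.sp1 P ∉ Bad := by
  classical
  -- (b1) the glued pair of the two components
  obtain ⟨φ1, φ2, D1, D2, γ1, γ2, hD10, hD20, hD1, hD2, hgl, hs1, hs2, h12, h11, h22⟩ :=
    Fermat.Agent.S44.X0.MovingChoice.exists_glued_values F Y Bad hBad
  -- a rigid family of chart points off the bad places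
  obtain ⟨d, hd1, hd2⟩ := F.exists_chartPts
    (↑Bad : Set (Place (ResidueField ↥A) ↥(modularFunctionFieldFullC (ResidueField ↥A) M)))
    (↑(Bad.image Y.Fr.symm) :
      Set (Place (ResidueField ↥A) ↥(modularFunctionFieldFullC (ResidueField ↥A) M)))
    (Finset.finite_toSet _) (Finset.finite_toSet _)
  have hr1 : (0 : Divisor (ResidueField ↥A) ↥(modularFunctionFieldFullC (ResidueField ↥A) M)) ≤
      ∑ i, Finsupp.single (d.Q1 i) (1 : ℤ) :=
    Finset.sum_nonneg fun i _ => Finsupp.single_nonneg.mpr zero_le_one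
  have hr2 : (0 : Divisor (ResidueField ↥A) ↥(modularFunctionFieldFullC (ResidueField ↥A) M)) ≤
      ∑ j, Finsupp.single (d.Q2 j) (1 : ℤ) :=
    Finset.sum_nonneg fun j _ => Finsupp.single_nonneg.mpr zero_le_one
  have hy : ((φ1, φ2) : ↥(modularFunctionFieldFullC (ResidueField ↥A) M) ×
      ↥(modularFunctionFieldFullC (ResidueField ↥A) M)) ∈
      Glued F.X.N ((∑ i, Finsupp.single (d.Q1 i) (1 : ℤ)) + D1)
        ((∑ j, Finsupp.single (d.Q2 j) (1 : ℤ)) + D2) :=
    glued_mono F.X.N (le_add_of_nonneg_left hr1) (le_add_of_nonneg_left hr2) hgl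
  -- (b2) the squeeze
  obtain ⟨E, u, hGS, hE0, hEσ, hp1, hp2, hu, hred⟩ :=
    Fermat.Agent.S44.X0.LiftGluedInst.exists_lift_glued F d D1 D2 hD10 hD20
      (fun Q h => (hD1 Q h).1) (fun Q h => (hD2 Q h).1) hy
  -- (b3) the inertia-fixed lift
  obtain ⟨T, hTfix, hTE, hT1, hT2⟩ :=
    Fermat.Agent.S44.X0.MovingLift.exists_fixed_lift F hstd hstd2 E hEσ u hu
  rw [hred] at hT1 hT2
  -- the pole locus
  have hzero : ∀ P : Place Qbar ↥(modularFunctionFieldBar (M * p)), Y.sp1 P ∈ Bad → E P = 0 := by
    intro P hP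
    refine apply_eq_zero_of_sp1_mem Y
      (↑Bad : Set (Place (ResidueField ↥A) ↥(modularFunctionFieldFullC (ResidueField ↥A) M)))
      hE0 hGS (fun Q hne hQ => hne ?_) (fun Q hne hQ => hne ?_) P (Finset.mem_coe.mpr hP)
    · rw [hp1, Finsupp.coe_add, Pi.add_apply,
        sum_single_apply_eq_zero d.Q1 (fun i h => hd1 i (h ▸ hQ)), zero_add]
      by_contra hD
      exact (hD1 Q hD).2 (Finset.mem_coe.mp hQ)
    · have hQ' : Q ∈ (↑(Bad.image Y.Fr.symm) :
          Set (Place (ResidueField ↥A) ↥(modularFunctionFieldFullC (ResidueField ↥A) M))) :=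
        Finset.mem_coe.mpr (Finset.mem_image.mpr
          ⟨Y.Fr Q, Finset.mem_coe.mp hQ, Equiv.symm_apply_apply _ _⟩)
      rw [hp2, Finsupp.coe_add, Pi.add_apply,
        sum_single_apply_eq_zero d.Q2 (fun j h => hd2 j (h ▸ hQ')), zero_add]
      by_contra hD
      exact (hD2 Q hD).2 (Finset.mem_coe.mp hQ)
  -- (b4) + the abstract moving lemma
  exact exists_stable_rep_of_coordinate F Y hLC Bad hTfix hT1 hT2
    (fun P hP => adicValuation_le_one_of_mem hTE (hzero P hP)) γ1 γ2 hs1 hs2 h12 h11 h22 S hS x hx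

end Fermat.Agent.S44.X0.MovingInst

end
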