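/-
PROJECT P (S44), CORE instance, X0/CoreRepInst (helper18): THE CORE REPRESENTATIVE OF THE PEU EXPORT
EXISTS AT EVERY CHART FRAME.

`X0/CoreRep.exists_coreRep` with its hypothesis `hmov` discharged by helper10's moving lemma
`X0/MovingInst.exists_stable_rep_off` at `S := stab p A x`: the only binders left are the frame
binders `(Y : NodeHyp F) (hstd : RedStd F) (hstd2 : RedStd2 F) (hLC : HasLocalCount F Y)` of
`Top/Block4` and the binders of `PeuConst` (`σ ∈ I1 p A`, the `1`-unit displacement, the wild frame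
`W` with `W.s + 1 ≤ p`, the line `Lx` with `hLfix`, `hx`).
-/
import Fermat.Agent.S44.X0.CoreRep
import Fermat.Agent.S44.X0.MovingInst

set_option autoImplicit false
set_option linter.unusedSectionVars false
set_option linter.unusedVariables false
set_option synthInstance.maxHeartbeats 400000

noncomputable section

namespace Fermat.Agent.S44.X0.CoreRepInst

open ModularCurve AlgebraicCurve IsLocalRing
open Fermat.Agent.S33.X0.Frame Fermat.Agent.S33.KP.OneUnit
open Fermat.Agent.S44.Core.Break Fermat.Agent.S44.Core.FrameHyp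
open Fermat.Agent.S44.Loc.Frame Fermat.Agent.S44.X0.FrameAll Fermat.Agent.S44.X0.CoreRep

local notation "Qbar" => AlgebraicClosure ℚ
local notation "GQ" => (AlgebraicClosure ℚ ≃ₐ[ℚ] AlgebraicClosure ℚ)

attribute [local instance 2000] Fermat.Agent.S34.EulerX0.algResFk

/-- local instance: principal divisors on `E` -/
local instance instPDBar (N : ℕ) [NeZero N] :
    HasPrincipalDivisors Qbar ↥(modularFunctionFieldBar N) :=
  Fermat.Agent.S18.A.Instances.hasPrincipalDivisors_bar N

local instance instNeZeroMul (M q : ℕ) [NeZero M] [NeZero q] : NeZero (M * q) :=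
  ⟨Nat.mul_ne_zero (NeZero.ne M) (NeZero.ne q)⟩

variable {p : ℕ} [hp : Fact p.Prime] {M : ℕ} [NeZero M] {A : ValuationSubring Qbar} [NeZero p]
variable {hA : A.LiesOverPrime p} {hpM : ¬ p ∣ M}

/-- **The CORE representative exists at every chart frame.** -/
theorem exists_coreRep_frame (F : ChartFrame hA hpM) (Y : NodeHyp F)
    (hstd : Fermat.Agent.S44.Eis.HeckeNode.RedStd F)
    (hstd2 : Fermat.Agent.S44.Eis.HeckeNode.RedStd2 F) (hLC : HasLocalCount F Y)
    {x : JZero (M * p)} {Lx : AddSubgroup (JZero (M * p))}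
    (hLfix : ∀ τ ∈ I1 p A, ∀ z ∈ Lx, τ • z = z) (hx : ∀ τ ∈ I1 p A, τ • x - x ∈ Lx)
    {σ : GQ} (hσ : σ ∈ I1 p A) (hz : σ • x - x ∈ oneUnit hA hpM p)
    (W : WildDatum A (σ : Qbar ≃+* Qbar) p (I1 p A) (stab p A x)) (hs : W.s + 1 ≤ p) :
    ∃ (D : Divisor.degZero (K := Qbar) (F := ↥(modularFunctionFieldBar (M * p))))
      (h : ↥(modularFunctionFieldBar (M * p))), Pic0.mk D = x ∧
      IsCoreRep F Y W (D : Divisor Qbar ↥(modularFunctionFieldBar (M * p))) h :=
  exists_coreRep F Y hLfix hx hσ hz W hs fun Bad hBad =>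
    Fermat.Agent.S44.X0.MovingInst.exists_stable_rep_off F Y hstd hstd2 hLC Bad hBad (stab p A x)
      ((stab_le x).trans I1_le) x fun τ hτ => (mem_stab_iff.1 hτ).2

end Fermat.Agent.S44.X0.CoreRepInst
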