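import Mathlib
import Fermat.Agent.S44.Core.Oracle
import Fermat.Agent.S44.X0.ValGroupWild
import Fermat.Agent.S44.Loc.Seams

/-!
# PROJECT P (S44), X0/MomentInst: THE EQUALITY OF THE MOMENTS AT THE CHART FRAME OF `X₀(M p)`

The instance of `Core/Oracle.moment_eq_of_factors` / `moment_eq_of_disc_factors` at an ARBITRARY
chart frame `F : ChartFrame hA hpM` with its local node hypotheses `Y : NodeHyp F`
(`Core/FrameHyp`), on the wild frame `W : WildDatum A σ p (I1 p A) (stab p A x)` (`Loc/Frame`).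

The STRUCTURAL binders of `Core/Induct.moment_eq` are discharged once:

* `H := Y.hyp`;
* `hconst` : a function of `κ` without pole is a constant (`F.X.Hk.ell_zero`);
* `hN` : if there is no node the conclusion is empty;
* `FK := FKfix (stab p A x) (M * p)`, `hKFK := hKFK_wild` (helper18, `X0/ValGroupWild`);
* `hres := Seams.exists_residue W hA` (helper9, `Loc/Seams`);
* `hVG1`, `hVG2 := hVG1_wild`, `hVG2_wild` through `F.X.O1_eq`, `F.X.O2_eq`.

What remains are the GEOMETRIC binders, in the literal shapes of `Core/Oracle`: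
the function `h ≠ 0` fixed by `stab p A x`, the factors `hnode` on the tubes of the nodes
(`Core/TubeFactor`) and the regularity off the nodes, either as `hoff1`, `hoff2` (level functions)
or as `hgood1 hgood2 hbad1 hbad2` (disc factors of `Core/DiscFactor` + `Core/Moving`).

* `hconst_kappa`, `hVG1_frame`, `hVG2_frame` : the structural binders;
* `moment_eq_wild` : from `hnode`, `hoff1`, `hoff2`;
* `moment_eq_wild_disc` : from `hnode`, `hgood1`, `hgood2`, `hbad1`, `hbad2`.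
-/

set_option autoImplicit false
set_option linter.unusedSectionVars false
set_option linter.unusedVariables false
set_option linter.style.haveILetI false

noncomputable section

namespace Fermat.Agent.S44.X0.MomentInst

open ModularCurve AlgebraicCurve IsLocalRing
open Fermat.Agent.S18.NonSpecial Fermat.Agent.S34.NodalDefs Fermat.Agent.S34.CoreZX0Datum
open Fermat.Agent.S33.X0.Frame
open Fermat.Agent.S44.Core.Break Fermat.Agent.S44.Core.Induct Fermat.Agent.S44.Core.Factor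
open Fermat.Agent.S44.Core.Oracle Fermat.Agent.S44.Core.FrameHyp
open Fermat.Agent.S44.Loc.Frame Fermat.Agent.S44.X0.ValGroupWild

local notation "Qbar" => AlgebraicClosure ℚ
local notation "GQ" => (AlgebraicClosure ℚ ≃ₐ[ℚ] AlgebraicClosure ℚ)

attribute [local instance 2000] Fermat.Agent.S34.EulerX0.algResFk

/-- local instance: principal divisors on `E` -/
local instance instPDBar (N : ℕ) [NeZero N] :
    HasPrincipalDivisors Qbar ↥(modularFunctionFieldBar N) :=
  Fermat.Agent.S18.A.Instances.hasPrincipalDivisors_bar N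

local instance instNeZeroMul (M q : ℕ) [NeZero M] [NeZero q] : NeZero (M * q) :=
  ⟨Nat.mul_ne_zero (NeZero.ne M) (NeZero.ne q)⟩

variable {p : ℕ} [hp : Fact p.Prime] {M : ℕ} [NeZero M] {A : ValuationSubring Qbar} [NeZero p]
variable {hA : A.LiesOverPrime p} {hpM : ¬ p ∣ M}

/-! ### the structural binders -/

/-- **`hconst`**: a function of `κ` without pole is a constant -/
theorem hconst_kappa (F : ChartFrame hA hpM)
    (φ : ↥(modularFunctionFieldFullC (ResidueField ↥A) M))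
    (hφ : ∀ Q : Place (ResidueField ↥A) ↥(modularFunctionFieldFullC (ResidueField ↥A) M),
      0 ≤ Q.ord φ) :
    ∃ c : ResidueField ↥A,
      φ = algebraMap (ResidueField ↥A) ↥(modularFunctionFieldFullC (ResidueField ↥A) M) c := by
  refine Fermat.Agent.S34.NodalGeneric.exists_const_of_mem_zero F.X.Hk.ell_zero ?_
  rw [mem_riemannRochSpace_iff]
  intro v
  right
  have := hφ v
  simpa using this

section Wild

variable {J : Type*} [AddCommGroup J] [DistribMulAction GQ J] {x : J} {Lx : AddSubgroup J}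
  {σ : GQ} (W : WildDatum A (σ : Qbar ≃+* Qbar) p (I1 p A) (stab p A x))
variable (hLfix : ∀ τ ∈ I1 p A, ∀ z ∈ Lx, τ • z = z) (hx : ∀ τ ∈ I1 p A, τ • x - x ∈ Lx)
  (hcard : Nat.card Lx = p) (hσ : σ ∈ I1 p A) (hσx : σ • x ≠ x)

include hLfix hx hcard hσ hσx in
/-- **`hVG1`** at the frame -/
theorem hVG1_frame (F : ChartFrame hA hpM) :
    ∀ f ∈ FKfix (stab p A x) (M * p), f ≠ 0 → ∃ n : ℤ, UnitA F.X.N.R1.O
      (f * algebraMap Qbar ↥(modularFunctionFieldBar (M * p)) (W.ϖ ^ (-n))) := by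
  intro f hf hf0
  rw [F.X.O1_eq]
  exact hVG1_wild hA hpM W hLfix hx hcard hσ hσx f hf hf0

include hLfix hx hcard hσ hσx in
/-- **`hVG2`** at the frame -/
theorem hVG2_frame (F : ChartFrame hA hpM) :
    ∀ f ∈ FKfix (stab p A x) (M * p), f ≠ 0 → ∃ n : ℤ, UnitA F.X.N.R2.O
      (f * algebraMap Qbar ↥(modularFunctionFieldBar (M * p)) (W.ϖ ^ (-n))) := by
  intro f hf hf0
  rw [F.X.O2_eq]
  exact hVG2_wild hA hpM W hLfix hx hcard hσ hσx f hf hf0

/-! ### the equality of the moments -/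

include hLfix hx hcard hσ hσx in
/-- **The equality of the moments at the chart frame, level form**: from the factors on the
tubes of the nodes and the regularity of the reductions of the level functions off the nodes. -/
theorem moment_eq_wild (F : ChartFrame hA hpM) (Y : NodeHyp F)
    {h : ↥(modularFunctionFieldBar (M * p))} (hh : h ∈ FKfix (stab p A x) (M * p)) (hh0 : h ≠ 0)
    (μ : Place (ResidueField ↥A) ↥(modularFunctionFieldFullC (ResidueField ↥A) M) → ℤ)
    (hnode : ∀ b ∈ F.X.S, ∃ ρ θ : ↥(modularFunctionFieldBar (M * p)),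
      IsFactor F.X.N.R1.toBranch F.X.N.R2.toBranch W.toBreakDatum {P | Y.sp1 P = Y.Fr b} h ρ θ 0
        (residue ↥A ⟨W.α, W.α_unit.mem⟩ * ((μ b : ℤ) : ResidueField ↥A)))
    (hoff1 : ∀ Q : Place (ResidueField ↥A) ↥(modularFunctionFieldFullC (ResidueField ↥A) M),
      (∀ b ∈ F.X.S, Q ≠ Y.Fr b) → ∀ y : ↥(modularFunctionFieldBar (M * p)),
      IsLevel W.toBreakDatum h y → ∀ (h1 : y ∈ F.X.N.R1.O), y ∈ F.X.N.R2.O →
        0 ≤ Q.ord (F.X.N.R1.red ⟨y, h1⟩))
    (hoff2 : ∀ Q : Place (ResidueField ↥A) ↥(modularFunctionFieldFullC (ResidueField ↥A) M),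
      (∀ b ∈ F.X.S, Q ≠ b) → ∀ y : ↥(modularFunctionFieldBar (M * p)),
      IsLevel W.toBreakDatum h y → y ∈ F.X.N.R1.O → ∀ (h2 : y ∈ F.X.N.R2.O),
        0 ≤ Q.ord (F.X.N.R2.red ⟨y, h2⟩)) :
    ∀ b ∈ F.X.S, ∀ b' ∈ F.X.S,
      ((μ b : ℤ) : ResidueField ↥A) = ((μ b' : ℤ) : ResidueField ↥A) := by
  intro b hb
  exact moment_eq_of_factors (B := W.toBreakDatum) Y.hyp (hconst_kappa F) μ hnode hoff1 hoff2
    ⟨b, hb⟩ (FKfix (stab p A x) (M * p)) (fun c hc => hKFK_wild W (M * p) c hc)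
    (fun κ' => Fermat.Agent.S44.Loc.Seams.exists_residue W hA κ')
    (hVG1_frame W hLfix hx hcard hσ hσx F) (hVG2_frame W hLfix hx hcard hσ hσx F) hh hh0 b hb

include hLfix hx hcard hσ hσx in
/-- **The equality of the moments at the chart frame, disc form**: from the factors on the tubes
of the nodes, the factors on the good discs of the two kinds, and `h` pole-free over the remaining
places. -/
theorem moment_eq_wild_disc (F : ChartFrame hA hpM) (Y : NodeHyp F)
    {h : ↥(modularFunctionFieldBar (M * p))} (hh : h ∈ FKfix (stab p A x) (M * p)) (hh0 : h ≠ 0)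
    (μ : Place (ResidueField ↥A) ↥(modularFunctionFieldFullC (ResidueField ↥A) M) → ℤ)
    (hnode : ∀ b ∈ F.X.S, ∃ ρ θ : ↥(modularFunctionFieldBar (M * p)),
      IsFactor F.X.N.R1.toBranch F.X.N.R2.toBranch W.toBreakDatum {P | Y.sp1 P = Y.Fr b} h ρ θ 0
        (residue ↥A ⟨W.α, W.α_unit.mem⟩ * ((μ b : ℤ) : ResidueField ↥A)))
    (hgood1 : ∀ Q ∈ F.X.N.R1.good, ∃ (ρ θ : ↥(modularFunctionFieldBar (M * p)))
      (j1 j2 : ResidueField ↥A), IsFactor F.X.N.R1.toBranch F.X.N.R1.toBranch W.toBreakDatum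
        {P | F.X.N.R1.r P = some Q} h ρ θ j1 j2)
    (hgood2 : ∀ Q ∈ F.X.N.R2.good, ∃ (ρ θ : ↥(modularFunctionFieldBar (M * p)))
      (j1 j2 : ResidueField ↥A), IsFactor F.X.N.R2.toBranch F.X.N.R2.toBranch W.toBreakDatum
        {P | F.X.N.R2.r P = some Q} h ρ θ j1 j2)
    (hbad1 : ∀ Q : Place (ResidueField ↥A) ↥(modularFunctionFieldFullC (ResidueField ↥A) M),
      Q ∉ F.X.N.R1.good → (∀ b ∈ F.X.S, Q ≠ Y.Fr b) →
      ∀ P : Place Qbar ↥(modularFunctionFieldBar (M * p)), Y.sp1 P = Q → P.adicValuation h ≤ 1)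
    (hbad2 : ∀ Q : Place (ResidueField ↥A) ↥(modularFunctionFieldFullC (ResidueField ↥A) M),
      Q ∉ F.X.N.R2.good → (∀ b ∈ F.X.S, Q ≠ b) →
      ∀ P : Place Qbar ↥(modularFunctionFieldBar (M * p)), Y.sp2 P = Q → P.adicValuation h ≤ 1) :
    ∀ b ∈ F.X.S, ∀ b' ∈ F.X.S,
      ((μ b : ℤ) : ResidueField ↥A) = ((μ b' : ℤ) : ResidueField ↥A) :=
  moment_eq_wild W hLfix hx hcard hσ hσx F Y hh hh0 μ hnode
    (levelRegular1 Y.hyp hgood1 hbad1) (levelRegular2 Y.hyp hgood2 hbad2)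

include hLfix hx hcard hσ hσx in
/-- the disc form with the jumps `0 0` (the literal output of `Core/DiscFactor.exists_factor`,
`X0/DiscInst.exists_factor_1/2` and `Core/Factor.isFactor_one`) -/
theorem moment_eq_wild_disc_zero (F : ChartFrame hA hpM) (Y : NodeHyp F)
    {h : ↥(modularFunctionFieldBar (M * p))} (hh : h ∈ FKfix (stab p A x) (M * p)) (hh0 : h ≠ 0)
    (μ : Place (ResidueField ↥A) ↥(modularFunctionFieldFullC (ResidueField ↥A) M) → ℤ)
    (hnode : ∀ b ∈ F.X.S, ∃ ρ θ : ↥(modularFunctionFieldBar (M * p)),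
      IsFactor F.X.N.R1.toBranch F.X.N.R2.toBranch W.toBreakDatum {P | Y.sp1 P = Y.Fr b} h ρ θ 0
        (residue ↥A ⟨W.α, W.α_unit.mem⟩ * ((μ b : ℤ) : ResidueField ↥A)))
    (hgood1 : ∀ Q ∈ F.X.N.R1.good, ∃ ρ θ : ↥(modularFunctionFieldBar (M * p)),
      IsFactor F.X.N.R1.toBranch F.X.N.R1.toBranch W.toBreakDatum
        {P | F.X.N.R1.r P = some Q} h ρ θ 0 0)
    (hgood2 : ∀ Q ∈ F.X.N.R2.good, ∃ ρ θ : ↥(modularFunctionFieldBar (M * p)),
      IsFactor F.X.N.R2.toBranch F.X.N.R2.toBranch W.toBreakDatum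
        {P | F.X.N.R2.r P = some Q} h ρ θ 0 0)
    (hbad1 : ∀ Q : Place (ResidueField ↥A) ↥(modularFunctionFieldFullC (ResidueField ↥A) M),
      Q ∉ F.X.N.R1.good → (∀ b ∈ F.X.S, Q ≠ Y.Fr b) →
      ∀ P : Place Qbar ↥(modularFunctionFieldBar (M * p)), Y.sp1 P = Q → P.adicValuation h ≤ 1)
    (hbad2 : ∀ Q : Place (ResidueField ↥A) ↥(modularFunctionFieldFullC (ResidueField ↥A) M),
      Q ∉ F.X.N.R2.good → (∀ b ∈ F.X.S, Q ≠ b) →
      ∀ P : Place Qbar ↥(modularFunctionFieldBar (M * p)), Y.sp2 P = Q → P.adicValuation h ≤ 1) :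
    ∀ b ∈ F.X.S, ∀ b' ∈ F.X.S,
      ((μ b : ℤ) : ResidueField ↥A) = ((μ b' : ℤ) : ResidueField ↥A) :=
  moment_eq_wild_disc W hLfix hx hcard hσ hσx F Y hh hh0 μ hnode
    (fun Q hQ => let ⟨ρ, θ, hF⟩ := hgood1 Q hQ; ⟨ρ, θ, 0, 0, hF⟩)
    (fun Q hQ => let ⟨ρ, θ, hF⟩ := hgood2 Q hQ; ⟨ρ, θ, 0, 0, hF⟩) hbad1 hbad2

end Wild

end Fermat.Agent.S44.X0.MomentInst
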