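import Mathlib
import Fermat.Agent.S44.Core.OracleLC
import Fermat.Agent.S44.X0.MomentInst
import Fermat.Agent.S44.X0.FrameAll

/-!
# PROJECT P (S44), X0/MomentLC (helper1): THE EQUALITY OF THE MOMENTS WITHOUT `sp2`

`X0/MomentInst.moment_eq_wild_disc_zero` (helper29) with its binder `hbad2` (absence of poles of
`h` on the fibres of the SECOND total specialisation map `Y.sp2` over the places which are neither
good nor nodes) REPLACED by the local count `hLC : HasLocalCount F Y` of the frame (`X0/FrameAll`).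
The producers of the representative (`Core/Moving`, `X0/DeepInst`, `X0/DiscInst`) speak about the
fibres of `Y.sp1` only, and `NodeHyp` relates `sp1` and `sp2` on the good discs only; the local
count on the tube `{P | sp1 P = Fr Q}` (branches `Fr Q`, `Q`) gives the regularity of the second
reductions of the level functions at `Q` from the clause `hbad1` at `Fr Q`
(`Core/OracleLC.levelRegular2_lc`).

* `moment_eq_wild_disc_lc` : the binders of `moment_eq_wild_disc_zero` verbatim, `hbad2` replaced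
  by `hLC`; same conclusion;
* `moment_eq_wild_disc_lc'` : the same with the disc factors in the general shape
  `∃ ρ θ j1 j2, IsFactor ..`.
-/

set_option autoImplicit false
set_option linter.unusedSectionVars false
set_option linter.unusedVariables false
set_option linter.style.haveILetI false

noncomputable section

namespace Fermat.Agent.S44.X0.MomentLC

open ModularCurve AlgebraicCurve IsLocalRing
open Fermat.Agent.S18.NonSpecial Fermat.Agent.S34.NodalDefs Fermat.Agent.S34.CoreZX0Datum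
open Fermat.Agent.S33.X0.Frame
open Fermat.Agent.S44.Core.Break Fermat.Agent.S44.Core.Induct Fermat.Agent.S44.Core.Factor
open Fermat.Agent.S44.Core.Oracle Fermat.Agent.S44.Core.OracleLC Fermat.Agent.S44.Core.FrameHyp
open Fermat.Agent.S44.Loc.Frame Fermat.Agent.S44.X0.ValGroupWild
open Fermat.Agent.S44.X0.FrameAll Fermat.Agent.S44.X0.MomentInst

local notation "Qbar" => AlgebraicClosure ℚ
local notation "GQ" => (AlgebraicClosure ℚ ≃ₐ[ℚ] AlgebraicClosure ℚ)

attribute [local instance 2000] Fermat.Agent.S34.EulerX0.algResFk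

/-- local instance: principal divisors on `E` -/
local instance instPDBar (N : ℕ) [NeZero N] :
    HasPrincipalDivisors Qbar ↥(modularFunctionFieldBar N) :=
  Fermat.Agent.S18.A.Instances.hasPrincipalDivisors_bar N

local instance instNeZeroMul (M q : ℕ) [NeZero M] [NeZero q] : NeZero (M * q) :=
  ⟨Nat.mul_ne_zero (NeZero.ne M) (NeZero.ne q)⟩

variable {p : ℕ} [hp : Fact p.Prime] {M : ℕ} [NeZero M] {A : ValuationSubring Qbar} [NeZero p]
variable {hA : A.LiesOverPrime p} {hpM : ¬ p ∣ M}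

section Wild

variable {J : Type*} [AddCommGroup J] [DistribMulAction GQ J] {x : J} {Lx : AddSubgroup J}
  {σ : GQ} (W : WildDatum A (σ : Qbar ≃+* Qbar) p (I1 p A) (stab p A x))
variable (hLfix : ∀ τ ∈ I1 p A, ∀ z ∈ Lx, τ • z = z) (hx : ∀ τ ∈ I1 p A, τ • x - x ∈ Lx)
  (hcard : Nat.card Lx = p) (hσ : σ ∈ I1 p A) (hσx : σ • x ≠ x)

include hLfix hx hcard hσ hσx in
/-- **The equality of the moments at the chart frame, disc form, from the local count**: the
factors on the tubes of the nodes, the factors on the good discs of the two kinds (general jumps),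
`h` pole-free on the `sp1`-fibres of the places which are neither good nor `Fr` of a node, and the
local count of the frame.  No hypothesis on the fibres of `sp2`. -/
theorem moment_eq_wild_disc_lc' (F : ChartFrame hA hpM) (Y : NodeHyp F)
    (hLC : HasLocalCount F Y)
    {h : ↥(modularFunctionFieldBar (M * p))} (hh : h ∈ FKfix (stab p A x) (M * p)) (hh0 : h ≠ 0)
    (μ : Place (ResidueField ↥A) ↥(modularFunctionFieldFullC (ResidueField ↥A) M) → ℤ)
    (hnode : ∀ b ∈ F.X.S, ∃ ρ θ : ↥(modularFunctionFieldBar (M * p)),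
      IsFactor F.X.N.R1.toBranch F.X.N.R2.toBranch W.toBreakDatum {P | Y.sp1 P = Y.Fr b} h ρ θ 0
        (residue ↥A ⟨W.α, W.α_unit.mem⟩ * ((μ b : ℤ) : ResidueField ↥A)))
    (hgood1 : ∀ Q ∈ F.X.N.R1.good, ∃ (ρ θ : ↥(modularFunctionFieldBar (M * p)))
      (j1 j2 : ResidueField ↥A), IsFactor F.X.N.R1.toBranch F.X.N.R1.toBranch W.toBreakDatum
        {P | F.X.N.R1.r P = some Q} h ρ θ j1 j2)
    (hgood2 : ∀ Q ∈ F.X.N.R2.good, ∃ (ρ θ : ↥(modularFunctionFieldBar (M * p)))
      (j1 j2 : ResidueField ↥A), IsFactor F.X.N.R2.toBranch F.X.N.R2.toBranch W.toBreakDatum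
        {P | F.X.N.R2.r P = some Q} h ρ θ j1 j2)
    (hbad1 : ∀ Q : Place (ResidueField ↥A) ↥(modularFunctionFieldFullC (ResidueField ↥A) M),
      Q ∉ F.X.N.R1.good → (∀ b ∈ F.X.S, Q ≠ Y.Fr b) →
      ∀ P : Place Qbar ↥(modularFunctionFieldBar (M * p)), Y.sp1 P = Q → P.adicValuation h ≤ 1) :
    ∀ b ∈ F.X.S, ∀ b' ∈ F.X.S,
      ((μ b : ℤ) : ResidueField ↥A) = ((μ b' : ℤ) : ResidueField ↥A) :=
  moment_eq_wild W hLfix hx hcard hσ hσx F Y hh hh0 μ hnode
    (levelRegular1 Y.hyp hgood1 hbad1)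
    (levelRegular2_lc Y.hyp Y.fr_good Y.Fr.injective (fun Q => hLC.at_fr Q) hgood2 hbad1)

include hLfix hx hcard hσ hσx in
/-- **`X0/MomentInst.moment_eq_wild_disc_zero` with `hbad2` replaced by the local count.** -/
theorem moment_eq_wild_disc_lc (F : ChartFrame hA hpM) (Y : NodeHyp F)
    (hLC : HasLocalCount F Y)
    {h : ↥(modularFunctionFieldBar (M * p))} (hh : h ∈ FKfix (stab p A x) (M * p)) (hh0 : h ≠ 0)
    (μ : Place (ResidueField ↥A) ↥(modularFunctionFieldFullC (ResidueField ↥A) M) → ℤ)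
    (hnode : ∀ b ∈ F.X.S, ∃ ρ θ : ↥(modularFunctionFieldBar (M * p)),
      IsFactor F.X.N.R1.toBranch F.X.N.R2.toBranch W.toBreakDatum {P | Y.sp1 P = Y.Fr b} h ρ θ 0
        (residue ↥A ⟨W.α, W.α_unit.mem⟩ * ((μ b : ℤ) : ResidueField ↥A)))
    (hgood1 : ∀ Q ∈ F.X.N.R1.good, ∃ ρ θ : ↥(modularFunctionFieldBar (M * p)),
      IsFactor F.X.N.R1.toBranch F.X.N.R1.toBranch W.toBreakDatum
        {P | F.X.N.R1.r P = some Q} h ρ θ 0 0)
    (hgood2 : ∀ Q ∈ F.X.N.R2.good, ∃ ρ θ : ↥(modularFunctionFieldBar (M * p)),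
      IsFactor F.X.N.R2.toBranch F.X.N.R2.toBranch W.toBreakDatum
        {P | F.X.N.R2.r P = some Q} h ρ θ 0 0)
    (hbad1 : ∀ Q : Place (ResidueField ↥A) ↥(modularFunctionFieldFullC (ResidueField ↥A) M),
      Q ∉ F.X.N.R1.good → (∀ b ∈ F.X.S, Q ≠ Y.Fr b) →
      ∀ P : Place Qbar ↥(modularFunctionFieldBar (M * p)), Y.sp1 P = Q → P.adicValuation h ≤ 1) :
    ∀ b ∈ F.X.S, ∀ b' ∈ F.X.S,
      ((μ b : ℤ) : ResidueField ↥A) = ((μ b' : ℤ) : ResidueField ↥A) :=
  moment_eq_wild_disc_lc' W hLfix hx hcard hσ hσx F Y hLC hh hh0 μ hnode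
    (fun Q hQ => let ⟨ρ, θ, hF⟩ := hgood1 Q hQ; ⟨ρ, θ, 0, 0, hF⟩)
    (fun Q hQ => let ⟨ρ, θ, hF⟩ := hgood2 Q hQ; ⟨ρ, θ, 0, 0, hF⟩) hbad1

end Wild

end Fermat.Agent.S44.X0.MomentLC
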