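/-
PROJECT P (S44), CORE instance, X0/NodeInst (helper6): THE NODE CLAUSE OF THE ORACLE AND THE TUBE
FUNCTION AT `X₀(M p)`.

`Core/NodeFrame.exists_isFactor_node` and `exists_tubeFunction` at an arbitrary chart frame
`F : ChartFrame hA hpM` with `Y : NodeHyp F`, a node frame `NF : NodeFrame F Y` (`X0/NodeFrameDef`)
and the local count `hLC : HasLocalCount F Y` (`X0/FrameAll`): for an element `τ` of the inertia
group, a break datum `B` over `τ`, a subgroup `H` of the inertia group whose fixed constants lie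
in `B.K'`, an `H`-stable divisor `D` and `h` with `ord_P h = (τ • D - D) P` on the tube of the
node `e`:

  `∃ ρ θ, IsFactor R1 R2 B (Y.tube e) h ρ θ 0 (ᾱ * nodeMoment B (NF.ξ e) (Y.tube e) D)`.

Hypothesis-first, in the binders of helper1's `X0/DiscInst`: the assembler passes
`H := stab p A x`, `hH := stab_le.trans I1_le`, `hfix := (W.fixed_iff _).2`.
-/
import Fermat.Agent.S44.X0.NodeFrameDef
import Fermat.Agent.S44.Val.Commens

set_option autoImplicit false
set_option linter.unusedSectionVars false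
set_option linter.unusedVariables false
set_option linter.style.haveILetI false
set_option synthInstance.maxHeartbeats 400000

noncomputable section

namespace Fermat.Agent.S44.X0.NodeInst

open ModularCurve AlgebraicCurve IsLocalRing
open Fermat.Agent.S34.NodalDefs Fermat.Agent.S34.CoreZX0Datum
open Fermat.Agent.S33.X0.Frame
open Fermat.Agent.S44.Core.FrameHyp Fermat.Agent.S44.Core.TubeCount
open Fermat.Agent.S44.Core.Break Fermat.Agent.S44.Core.Factor Fermat.Agent.S44.Core.NodeFrame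
open Fermat.Agent.S44.X0.FrameAll Fermat.Agent.S44.X0.NodeFrameDef

local notation "Qbar" => AlgebraicClosure ℚ
local notation "GQ" => (AlgebraicClosure ℚ ≃ₐ[ℚ] AlgebraicClosure ℚ)

attribute [local instance 2000] Fermat.Agent.S34.EulerX0.algResFk

/-- local instance: principal divisors on `E` -/
local instance instPDBar (N : ℕ) [NeZero N] :
    HasPrincipalDivisors Qbar ↥(modularFunctionFieldBar N) :=
  Fermat.Agent.S18.A.Instances.hasPrincipalDivisors_bar N

local instance instNeZeroMul (M q : ℕ) [NeZero M] [NeZero q] : NeZero (M * q) :=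
  ⟨Nat.mul_ne_zero (NeZero.ne M) (NeZero.ne q)⟩

variable {p : ℕ} [hp : Fact p.Prime] {M : ℕ} [NeZero M] {A : ValuationSubring Qbar} [NeZero p]
variable {hA : A.LiesOverPrime p} {hpM : ¬ p ∣ M}

/-- the group of semilinear automorphisms of `E` induced by a group of automorphisms of `ℚ̄` -/
def lifts (H : Subgroup GQ) :
    Subgroup (SemilinearAut Qbar ↥(modularFunctionFieldBar (M * p))) :=
  H.map (arithmeticGalois (modularFunctionFieldFull (M * p)))

theorem mem_lifts {H : Subgroup GQ}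
    {g' : SemilinearAut Qbar ↥(modularFunctionFieldBar (M * p))} :
    g' ∈ lifts (M := M) (p := p) H ↔
      ∃ τ' ∈ H, arithmeticGalois (modularFunctionFieldFull (M * p)) τ' = g' := Subgroup.mem_map

include hA in
/-- the value group of `A` is commensurable -/
theorem commens : Fermat.Agent.S44.Core.TubeCoord.Commens A := fun c c' hc hc' hc0 hc0' =>
  Fermat.Agent.S44.Val.Commens.exists_pow_eq_unit_mul_pow A hp.out hA c c' hc hc' hc0 hc0'

include hA in
/-- **The node clause of the oracle at a node of the chart frame.** -/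
theorem exists_factor_node (F : ChartFrame hA hpM) (Y : NodeHyp F) (NF : NodeFrame F Y)
    (hLC : HasLocalCount F Y) {τ : GQ} (hτ : τ ∈ A.inertiaSubgroupIn ℚ)
    (B : BreakDatum A (τ : Qbar ≃+* Qbar)) (H : Subgroup GQ) (hH : H ≤ A.inertiaSubgroupIn ℚ)
    (hfix : ∀ c : Qbar, (∀ τ' ∈ H, τ' c = c) → c ∈ B.K')
    (e : {b // b ∈ F.X.S}) (D : Divisor Qbar ↥(modularFunctionFieldBar (M * p)))
    (hHD : ∀ τ' ∈ H, arithmeticGalois (modularFunctionFieldFull (M * p)) τ' • D = D)
    {h : ↥(modularFunctionFieldBar (M * p))} (hh0 : h ≠ 0)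
    (hdiv : ∀ P ∈ Y.tube e,
      P.ord h = (arithmeticGalois (modularFunctionFieldFull (M * p)) τ • D - D) P) :
    ∃ ρ θ : ↥(modularFunctionFieldBar (M * p)),
      IsFactor F.X.N.R1.toBranch F.X.N.R2.toBranch B (Y.tube e) h ρ θ 0
        (IsLocalRing.residue ↥A ⟨B.α, B.α_unit.mem⟩ *
          ((nodeMoment B (NF.ξ e) (Y.tube e) D : ℤ) : ResidueField ↥A)) := by
  refine exists_isFactor_node B (NF.coord e) (hLC.node e) (commens (hA := hA)) F.deg_eq_one
    (arithmeticGalois (modularFunctionFieldFull (M * p)) τ)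
    (fun a => Fermat.Agent.S19.SymmX0.baseAut_arithmeticGalois_apply (M * p) τ a)
    (NF.fixed e τ hτ) (fun P => Y.smul_mem_tube_iff hτ e P)
    (lifts (M := M) (p := p) H) ?_ ?_ ?_ D ?_ hh0 hdiv
  · intro a ha
    refine hfix a fun τ' hτ' => ?_
    have h1 := ha _ (mem_lifts.mpr ⟨τ', hτ', rfl⟩)
    rw [Fermat.Agent.S19.SymmX0.baseAut_arithmeticGalois_apply] at h1
    exact h1
  · intro g' hg'
    obtain ⟨τ', hτ', rfl⟩ := mem_lifts.mp hg'
    exact NF.fixed e τ' (hH hτ')
  · intro g' hg' P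
    obtain ⟨τ', hτ', rfl⟩ := mem_lifts.mp hg'
    exact Y.smul_mem_tube_iff (hH hτ') e P
  · intro g' hg'
    obtain ⟨τ', hτ', rfl⟩ := mem_lifts.mp hg'
    exact hHD τ' hτ'

include hA in
/-- **The tube function of `D` at a node of the chart frame** (input of the export). -/
theorem exists_tubeFunction_node (F : ChartFrame hA hpM) (Y : NodeHyp F) (NF : NodeFrame F Y)
    (hLC : HasLocalCount F Y) {τ : GQ} (hτ : τ ∈ A.inertiaSubgroupIn ℚ)
    (B : BreakDatum A (τ : Qbar ≃+* Qbar)) (H : Subgroup GQ) (hH : H ≤ A.inertiaSubgroupIn ℚ)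
    (hfix : ∀ c : Qbar, (∀ τ' ∈ H, τ' c = c) → c ∈ B.K')
    (e : {b // b ∈ F.X.S}) (D : Divisor Qbar ↥(modularFunctionFieldBar (M * p)))
    (hHD : ∀ τ' ∈ H, arithmeticGalois (modularFunctionFieldFull (M * p)) τ' • D = D) :
    ∃ G : ↥(modularFunctionFieldBar (M * p)), G ≠ 0 ∧ (∀ P ∈ Y.tube e, P.ord G = D P) ∧
      UnitA F.X.N.R1.O G ∧ ∃ c ∈ B.K', c ≠ 0 ∧
        UnitA F.X.N.R2.O (G / algebraMap Qbar ↥(modularFunctionFieldBar (M * p)) c) ∧
        A.valuation c = A.valuation B.ϖ ^ nodeMoment B (NF.ξ e) (Y.tube e) D := by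
  refine exists_tubeFunction B (NF.coord e) (hLC.node e) (commens (hA := hA)) F.deg_eq_one
    (arithmeticGalois (modularFunctionFieldFull (M * p)) τ)
    (fun a => Fermat.Agent.S19.SymmX0.baseAut_arithmeticGalois_apply (M * p) τ a)
    (NF.fixed e τ hτ) (lifts (M := M) (p := p) H) ?_ ?_ ?_ D ?_
  · intro a ha
    refine hfix a fun τ' hτ' => ?_
    have h1 := ha _ (mem_lifts.mpr ⟨τ', hτ', rfl⟩)
    rw [Fermat.Agent.S19.SymmX0.baseAut_arithmeticGalois_apply] at h1
    exact h1
  · intro g' hg'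
    obtain ⟨τ', hτ', rfl⟩ := mem_lifts.mp hg'
    exact NF.fixed e τ' (hH hτ')
  · intro g' hg' P
    obtain ⟨τ', hτ', rfl⟩ := mem_lifts.mp hg'
    exact Y.smul_mem_tube_iff (hH hτ') e P
  · intro g' hg'
    obtain ⟨τ', hτ', rfl⟩ := mem_lifts.mp hg'
    exact hHD τ' hτ'

end Fermat.Agent.S44.X0.NodeInst
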