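/-
PROJECT P (S44), CORE instance, X0/ExportInst (helper19): THE TWO EXPORTS OF THE CORE AT `X₀(M p)`
IN THE VOCABULARY OF `Core/NodeOrd`: `w_e a_e(x)` DOES NOT DEPEND ON THE NODE `e`.

For a chart frame `F : ChartFrame hA hpM` with `Y : NodeHyp F`, a node frame `NF : NodeFrame F Y`
(`X0/NodeFrameDef`) and the local count `hLC : HasLocalCount F Y` (`X0/FrameAll`):

* `exists_datum` : the node datum of `Core/Export` at a node from a tube function;
* `tameConst` : **the tame export** (the literal `Top/Block4.TameConst F NF.w`): a `p`-torsion class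
  fixed by the wild inertia group `I₁` has node orders `a` with `w_e a_e = c` for all nodes `e`.
  UNCONDITIONAL: representative from `S36/K0DescentX0.exists_invariant_kummer_X0`, tame frame from
  `Loc/Tame.nonempty_tameDatum`, tube functions over `K₁` from `Core/TubeTame`;
* `peuConst_of_rep` : **the PEU export** from a CORE representative: a `stab x`-stable divisor `D` of
  the class `x` and a function `h` fixed by `stab x` with `ord h = σ • D - D` on the tubes, with the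
  three local clauses of `X0/MomentLC.moment_eq_wild_disc_lc` (`hgood1 hgood2 hbad1`).
-/
import Fermat.Agent.S44.X0.NodeInst
import Fermat.Agent.S44.X0.MomentLC
import Fermat.Agent.S44.Core.ExportTube
import Fermat.Agent.S44.Core.TubeTame
import Fermat.Agent.S44.Core.NodeOrd
import Fermat.Agent.S36.K0DescentX0

set_option autoImplicit false
set_option linter.unusedSectionVars false
set_option linter.unusedVariables false
set_option linter.style.haveILetI false
set_option synthInstance.maxHeartbeats 400000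

noncomputable section

namespace Fermat.Agent.S44.X0.ExportInst

open ModularCurve AlgebraicCurve IsLocalRing
open Fermat.Agent.S34.NodalDefs Fermat.Agent.S34.CoreZX0Datum
open Fermat.Agent.S33.X0.Frame
open Fermat.Agent.S44.Core.FrameHyp Fermat.Agent.S44.Core.TubeCount
open Fermat.Agent.S44.Core.Break Fermat.Agent.S44.Core.Factor Fermat.Agent.S44.Core.NodeFrame
open Fermat.Agent.S44.Core.NodeOrd Fermat.Agent.S44.Core.Export Fermat.Agent.S44.Core.ExportTube
open Fermat.Agent.S44.X0.FrameAll Fermat.Agent.S44.X0.NodeFrameDef Fermat.Agent.S44.X0.NodeInst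
open Fermat.Agent.S44.Loc.Frame Fermat.Agent.S44.Loc.Tame Fermat.Agent.S44.X0.ValGroupWild

local notation "Qbar" => AlgebraicClosure ℚ
local notation "GQ" => (AlgebraicClosure ℚ ≃ₐ[ℚ] AlgebraicClosure ℚ)

attribute [local instance 2000] Fermat.Agent.S34.EulerX0.algResFk

/-- local instance: principal divisors on `E` -/
local instance instPDBar (N : ℕ) [NeZero N] :
    HasPrincipalDivisors Qbar ↥(modularFunctionFieldBar N) :=
  Fermat.Agent.S18.A.Instances.hasPrincipalDivisors_bar N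

local instance instNeZeroMul (M q : ℕ) [NeZero M] [NeZero q] : NeZero (M * q) :=
  ⟨Nat.mul_ne_zero (NeZero.ne M) (NeZero.ne q)⟩

variable {p : ℕ} [hp : Fact p.Prime] {M : ℕ} [NeZero M] {A : ValuationSubring Qbar} [NeZero p]
variable {hA : A.LiesOverPrime p} {hpM : ¬ p ∣ M}

/-! ### the node datum at a node of the frame -/

/-- a constant of valuation `v(ϖ0) ^ j` is `ϖ0 ^ j * unit` -/
theorem exists_unit_of_val {ϖ0 c : Qbar} (hϖ0 : ϖ0 ≠ 0) {j : ℤ}
    (h : A.valuation c = A.valuation ϖ0 ^ j) : ∃ β, UnitA A β ∧ c = ϖ0 ^ j * β := by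
  have h0 : ϖ0 ^ j ≠ 0 := zpow_ne_zero _ hϖ0
  refine ⟨c * (ϖ0 ^ j)⁻¹, ?_, ?_⟩
  · show A.valuation (c * (ϖ0 ^ j)⁻¹) = 1
    rw [map_mul, map_inv₀, map_zpow₀, h]
    exact mul_inv_cancel₀ (zpow_ne_zero _ ((Valuation.ne_zero_iff _).2 hϖ0))
  · field_simp

/-- **the node datum of the export at a node of the frame**, from a tube function `G` of `D` -/
theorem exists_datum (F : ChartFrame hA hpM) (Y : NodeHyp F) (NF : NodeFrame F Y)
    (e : {b // b ∈ F.X.S}) {ϖ0 : Qbar} (u : (F.X.N.R1.O)ˣ)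
    (D : Divisor Qbar ↥(modularFunctionFieldBar (M * p)))
    (hD : ∀ P : Place Qbar ↥(modularFunctionFieldBar (M * p)),
      (p : ℤ) * D P = P.ord (((u : F.X.N.R1.O)) : ↥(modularFunctionFieldBar (M * p))))
    {G : ↥(modularFunctionFieldBar (M * p))} (hG0 : G ≠ 0)
    (hGD : ∀ P ∈ Y.tube e, P.ord G = D P) (hG1 : UnitA F.X.N.R1.O G)
    {c : Qbar} {j : ℤ} (hc : ∃ β, UnitA A β ∧ c = ϖ0 ^ j * β)
    (hG2 : UnitA F.X.N.R2.O (G / algebraMap Qbar ↥(modularFunctionFieldBar (M * p)) c)) :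
    ∃ d : NodeDatum F.X.N.R1.toBranch F.X.N.R2.toBranch ϖ0 p u,
      d.Q1 = F.X.N.e1 e ∧ d.w = NF.w e ∧ d.μ = j :=
  exists_nodeDatum (NF.coord e) (coe_thickPow A p (NF.w e))
    (fun h1 h2 h => Y.glue_node h1 h2 h e) u D (fun P _ => hD P) hG0 hGD hG1 hc hG2

/-! ### the tame export -/

set_option maxHeartbeats 2000000 in
include hA in
/-- **THE TAME EXPORT** (the literal `Top/Block4.TameConst F NF.w`). -/
theorem tameConst (F : ChartFrame hA hpM) (Y : NodeHyp F) (NF : NodeFrame F Y)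
    (hLC : HasLocalCount F Y) (x : JZero (M * p)) (hpx : p • x = 0)
    (hfix : ∀ τ ∈ I1 p A, τ • x = x) :
    ∃ a : Node F → ZMod p, HasNodeOrd F x a ∧
      ∃ c : ZMod p, ∀ e, ((NF.w e : ℕ) : ZMod p) * a e = c := by
  obtain ⟨Tm⟩ := nonempty_tameDatum (p := p) hA
  have hpx' : ((p : ℕ) : ℤ) • x = 0 := by rw [natCast_zsmul]; exact hpx
  obtain ⟨D, f, hDx, hf0, hford, hDinv, -, -⟩ :=
    Fermat.Agent.S36.K0DescentX0.exists_invariant_kummer_X0 (M * p) (I1 p A) x hfix hpx'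
  obtain ⟨c0, hc0, u, hfu⟩ := F.X.N.R1.exists_const_mul_unit f hf0
  have hu0 := Fermat.Agent.S34.NodalDisc.coe_unit_ne_zero F.X.N.R1.toBranch u
  have hD : ∀ P : Place Qbar ↥(modularFunctionFieldBar (M * p)),
      (p : ℤ) * (D : Divisor Qbar ↥(modularFunctionFieldBar (M * p))) P =
        P.ord (((u : F.X.N.R1.O)) : ↥(modularFunctionFieldBar (M * p))) := by
    intro P
    have h1 := hford P
    have hcF : algebraMap Qbar ↥(modularFunctionFieldBar (M * p)) c0 ≠ 0 :=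
      (map_ne_zero _).mpr hc0
    rw [hfu, P.ord_mul hcF hu0, Fermat.Agent.S34.KummerZ.ord_algebraMap P hc0, zero_add] at h1
    exact h1.symm
  refine ⟨fun e => (((F.X.N.e1 e).ord (F.X.N.R1.red (u : F.X.N.R1.O)) : ℤ) : ZMod p),
    ⟨D, u, hDx, hD, fun e => rfl⟩, ?_⟩
  -- the node data over `K₁`
  have hdat : ∀ e : {b // b ∈ F.X.S},
      ∃ d : NodeDatum F.X.N.R1.toBranch F.X.N.R2.toBranch Tm.π1 p u,
        d.Q1 = F.X.N.e1 e ∧ d.w = NF.w e := by
    intro e
    obtain ⟨G, hG0, hGD, hG1, c, hcK, hc0', hG2⟩ :=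
      Fermat.Agent.S44.Core.TubeTame.exists_tubeFunction_sub Tm.K1 (NF.coord e) (hLC.node e)
        (commens (hA := hA)) F.deg_eq_one (lifts (M := M) (p := p) (I1 p A))
        (fun a ha => (Tm.fixed1_iff a).2 fun τ' hτ' => by
          have h1 := ha _ (mem_lifts.mpr ⟨τ', hτ', rfl⟩)
          rw [Fermat.Agent.S19.SymmX0.baseAut_arithmeticGalois_apply] at h1
          exact h1)
        (fun g' hg' => by
          obtain ⟨τ', hτ', rfl⟩ := mem_lifts.mp hg'
          exact NF.fixed e τ' (I1_le hτ'))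
        (fun g' hg' P => by
          obtain ⟨τ', hτ', rfl⟩ := mem_lifts.mp hg'
          exact Y.smul_mem_tube_iff (I1_le hτ') e P)
        (D : Divisor Qbar ↥(modularFunctionFieldBar (M * p)))
        (fun g' hg' => by
          obtain ⟨τ', hτ', rfl⟩ := mem_lifts.mp hg'
          exact hDinv τ' hτ')
    obtain ⟨j, β, -, hβ, hcj⟩ := Tm.exists_pow c hcK hc0'
    obtain ⟨d, h1, h2, -⟩ := exists_datum F Y NF e u
      (D : Divisor Qbar ↥(modularFunctionFieldBar (M * p))) hD hG0 hGD hG1 ⟨β, hβ, hcj⟩ hG2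
    exact ⟨d, h1, h2⟩
  choose d hd1 hd2 using hdat
  obtain ⟨c, hc⟩ := exists_const_of_tame (NeZero.ne p) Tm.π1_ne Tm.π1_non Tm.e_abs d
  refine ⟨c, fun e => ?_⟩
  have h := hc e
  rw [hd1 e, hd2 e] at h
  exact h

/-! ### the PEU export -/

set_option maxHeartbeats 2000000 in
include hA in
/-- **THE PEU EXPORT FROM A CORE REPRESENTATIVE** (the conclusion of `Top/Block4.PeuConst F NF.w`). -/
theorem peuConst_of_rep (F : ChartFrame hA hpM) (Y : NodeHyp F) (NF : NodeFrame F Y)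
    (hLC : HasLocalCount F Y) (x : JZero (M * p)) (hpx : p • x = 0)
    {σ : GQ} (hσ : σ ∈ I1 p A) (hσx : σ • x ≠ x)
    {Lx : AddSubgroup (JZero (M * p))} (hLfix : ∀ τ ∈ I1 p A, ∀ z ∈ Lx, τ • z = z)
    (hx : ∀ τ ∈ I1 p A, τ • x - x ∈ Lx) (hcard : Nat.card Lx = p)
    (W : WildDatum A (σ : Qbar ≃+* Qbar) p (I1 p A) (stab p A x))
    (D : Divisor.degZero (K := Qbar) (F := ↥(modularFunctionFieldBar (M * p))))
    (hDx : Pic0.mk D = x)
    (hHD : ∀ τ' ∈ stab p A x, arithmeticGalois (modularFunctionFieldFull (M * p)) τ' •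
      (D : Divisor Qbar ↥(modularFunctionFieldBar (M * p))) =
        (D : Divisor Qbar ↥(modularFunctionFieldBar (M * p))))
    {h : ↥(modularFunctionFieldBar (M * p))} (hh : h ∈ FKfix (stab p A x) (M * p)) (hh0 : h ≠ 0)
    (hdiv : ∀ e : {b // b ∈ F.X.S}, ∀ P ∈ Y.tube e,
      P.ord h = (arithmeticGalois (modularFunctionFieldFull (M * p)) σ •
        (D : Divisor Qbar ↥(modularFunctionFieldBar (M * p))) -
          (D : Divisor Qbar ↥(modularFunctionFieldBar (M * p)))) P)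
    (hgood1 : ∀ Q ∈ F.X.N.R1.good, ∃ ρ θ : ↥(modularFunctionFieldBar (M * p)),
      IsFactor F.X.N.R1.toBranch F.X.N.R1.toBranch W.toBreakDatum
        {P | F.X.N.R1.r P = some Q} h ρ θ 0 0)
    (hgood2 : ∀ Q ∈ F.X.N.R2.good, ∃ ρ θ : ↥(modularFunctionFieldBar (M * p)),
      IsFactor F.X.N.R2.toBranch F.X.N.R2.toBranch W.toBreakDatum
        {P | F.X.N.R2.r P = some Q} h ρ θ 0 0)
    (hbad1 : ∀ Q : Place (ResidueField ↥A) ↥(modularFunctionFieldFullC (ResidueField ↥A) M),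
      Q ∉ F.X.N.R1.good → (∀ b ∈ F.X.S, Q ≠ Y.Fr b) →
      ∀ P : Place Qbar ↥(modularFunctionFieldBar (M * p)), Y.sp1 P = Q → P.adicValuation h ≤ 1) :
    ∃ a : Node F → ZMod p, HasNodeOrd F x a ∧
      ∃ c : ZMod p, ∀ e, ((NF.w e : ℕ) : ZMod p) * a e = c := by
  classical
  haveI : CharP (ResidueField ↥A) p := Fermat.Agent.S18.ResidueBasics.charP_residueField A hA
  have hσI : σ ∈ A.inertiaSubgroupIn ℚ := I1_le hσ
  have hH : stab p A x ≤ A.inertiaSubgroupIn ℚ := (stab_le x).trans I1_le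
  have hfixK : ∀ c : Qbar, (∀ τ' ∈ stab p A x, τ' c = c) → c ∈ W.toBreakDatum.K' :=
    fun c hc => (W.fixed_iff c).2 hc
  -- the unit `u` with `p D = div u`
  have hpD : Pic0.mk (p • D) = 0 := by
    have h1 : Pic0.mk (p • D) = p • Pic0.mk D := rfl
    rw [h1, hDx, hpx]
  have hmem : p • D ∈ (Divisor.principal (K := Qbar)
      (F := ↥(modularFunctionFieldBar (M * p)))).addSubgroupOf
      (Divisor.degZero (K := Qbar) (F := ↥(modularFunctionFieldBar (M * p)))) :=
    (QuotientAddGroup.eq_zero_iff _).mp hpD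
  rw [AddSubgroup.mem_addSubgroupOf] at hmem
  obtain ⟨f, hf0, hfdiv⟩ := hmem
  obtain ⟨c0, hc0, u, hfu⟩ := F.X.N.R1.exists_const_mul_unit f hf0
  have hu0 := Fermat.Agent.S34.NodalDisc.coe_unit_ne_zero F.X.N.R1.toBranch u
  have hD : ∀ P : Place Qbar ↥(modularFunctionFieldBar (M * p)),
      (p : ℤ) * (D : Divisor Qbar ↥(modularFunctionFieldBar (M * p))) P =
        P.ord (((u : F.X.N.R1.O)) : ↥(modularFunctionFieldBar (M * p))) := by
    intro P
    have h1 := hfdiv P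
    have hcF : algebraMap Qbar ↥(modularFunctionFieldBar (M * p)) c0 ≠ 0 :=
      (map_ne_zero _).mpr hc0
    rw [hfu, P.ord_mul hcF hu0, Fermat.Agent.S34.KummerZ.ord_algebraMap P hc0, zero_add,
      AddSubgroup.coe_nsmul, Finsupp.smul_apply, nsmul_eq_mul] at h1
    exact h1
  refine ⟨fun e => (((F.X.N.e1 e).ord (F.X.N.R1.red (u : F.X.N.R1.O)) : ℤ) : ZMod p),
    ⟨D, u, hDx, hD, fun e => rfl⟩, ?_⟩
  -- the node data over `K'`
  have hdat : ∀ e : {b // b ∈ F.X.S},
      ∃ d : NodeDatum F.X.N.R1.toBranch F.X.N.R2.toBranch W.ϖ p u,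
        d.Q1 = F.X.N.e1 e ∧ d.w = NF.w e ∧
          d.μ = nodeMoment W.toBreakDatum (NF.ξ e) (Y.tube e)
            (D : Divisor Qbar ↥(modularFunctionFieldBar (M * p))) := by
    intro e
    obtain ⟨G, hG0, hGD, hG1, c, hcK, hc0', hG2, hval⟩ :=
      exists_tubeFunction_node (hA := hA) F Y NF hLC hσI W.toBreakDatum (stab p A x) hH hfixK e
        (D : Divisor Qbar ↥(modularFunctionFieldBar (M * p))) hHD
    exact exists_datum F Y NF e u (D : Divisor Qbar ↥(modularFunctionFieldBar (M * p))) hD hG0 hGD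
      hG1 (exists_unit_of_val W.ϖ_ne hval) hG2
  choose d hd1 hd2 hd3 using hdat
  -- the moments are equal in `k`
  set μ : Place (ResidueField ↥A) ↥(modularFunctionFieldFullC (ResidueField ↥A) M) → ℤ :=
    fun b => if hb : b ∈ F.X.S then
      nodeMoment W.toBreakDatum (NF.ξ ⟨b, hb⟩) (Y.tube ⟨b, hb⟩)
        (D : Divisor Qbar ↥(modularFunctionFieldBar (M * p))) else 0 with hμdef
  have hnode : ∀ b ∈ F.X.S, ∃ ρ θ : ↥(modularFunctionFieldBar (M * p)),
      IsFactor F.X.N.R1.toBranch F.X.N.R2.toBranch W.toBreakDatum {P | Y.sp1 P = Y.Fr b} h ρ θ 0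
        (residue ↥A ⟨W.α, W.α_unit.mem⟩ * ((μ b : ℤ) : ResidueField ↥A)) := by
    intro b hb
    have htube : Y.tube ⟨b, hb⟩ = {P | Y.sp1 P = Y.Fr b} := by
      ext P
      rw [Y.mem_tube_iff, Y.e1_eq ⟨b, hb⟩]
      rfl
    have hμb : μ b = nodeMoment W.toBreakDatum (NF.ξ ⟨b, hb⟩) (Y.tube ⟨b, hb⟩)
        (D : Divisor Qbar ↥(modularFunctionFieldBar (M * p))) := by
      rw [hμdef]
      exact dif_pos hb
    obtain ⟨ρ, θ, hF⟩ := exists_factor_node (hA := hA) F Y NF hLC hσI W.toBreakDatum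
      (stab p A x) hH hfixK ⟨b, hb⟩ (D : Divisor Qbar ↥(modularFunctionFieldBar (M * p))) hHD hh0
      (hdiv ⟨b, hb⟩)
    rw [hμb, ← htube]
    exact ⟨ρ, θ, hF⟩
  have hmom := Fermat.Agent.S44.X0.MomentLC.moment_eq_wild_disc_lc W hLfix hx hcard hσ hσx F Y hLC
    hh hh0 μ hnode hgood1 hgood2 hbad1
  have hμ : ∀ e e' : {b // b ∈ F.X.S},
      ((((d e).μ : ℤ)) : ResidueField ↥A) = ((((d e').μ : ℤ)) : ResidueField ↥A) := by
    intro e e'
    have h1 := hmom e.1 e.2 e'.1 e'.2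
    have he : μ e.1 = (d e).μ := by
      rw [hd3 e, hμdef]
      exact dif_pos e.2
    have he' : μ e'.1 = (d e').μ := by
      rw [hd3 e', hμdef]
      exact dif_pos e'.2
    rw [he, he'] at h1
    exact h1
  obtain ⟨c, hc⟩ := exists_const_of_wild (NeZero.ne p) W.ϖ_ne W.ϖ_non (hE_wild W) d hμ
  refine ⟨c, fun e => ?_⟩
  have h := hc e
  rw [hd1 e, hd2 e] at h
  exact h

end Fermat.Agent.S44.X0.ExportInst

end
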