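/-
PROJECT P (S44), brick [X1.b], hypothesis (hB) of `X0/NodePair.exists_node_pair_X0` (helper15):
THE A-PRIORI BOUND `B = 12` ON THE THICKNESS OF A NODE OF `X₀(M q)`.

Setting of `X0/NodeRing` (helper25): `A` a valuation subring of `ℚ̄` over `q ∤ M`, `I` its inertia
group, `FK = FK I (M q)`, `V1K V2K` the two Gauss rings, `T` a set of places of `ℚ̄(X₀(M q))` (the
tube of the node), `Oe T` the chart ring, `rho1 rho2` its two reductions to `κ = F_k(M)`, `Q1 Q2`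
two places of `κ` (the two branches of the node).

* `uK` : the `K0`-form of the full modular unit `U = Δ(z)/Δ(M q z)` (`tB_uK : tB uK = uBar (M q) _`),
  a unit of `V1K` (`uK_mem_V1K`, `uK_inv_mem_V1K`) with `V2K(uK) = V2K(q)^12`
  (`valuation_V2K_uK`; `Eis/UnitVal` of helper12);
* `not_mem_span_pow` : **(hB) with `B = 12`**.  From the local gluing `hG` at the node (the
  hypothesis of `exists_node_pair_X0`, verbatim), `ord_{Q1} (rho1 ξ₀) = 1`, `ord_{Q2} (rho2 η₀) = 1`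
  and "`U` has neither zero nor pole on the tube": no pair `ξ ≡ ξ₀`, `η ≡ η₀ mod q` of the chart
  ring has `ξ η ∈ q^13 Oe`.  (`Core/NewtonNode.not_mem_span_pow_of_slope_unit` of helper29 with
  `O₂ = V2K`, `S = V1K ∩ {regular on T}`, `u = uK`, `m = 12`, `a = ord_{Q1} (red₁ U) ≥ 1`.)
-/
import Mathlib
import Fermat.Agent.S44.X0.NodeRing
import Fermat.Agent.S44.Core.NewtonNode
import Fermat.Agent.S44.Eis.UnitVal

set_option autoImplicit false
set_option linter.unusedSectionVars false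
set_option linter.style.haveILetI false
set_option synthInstance.maxHeartbeats 400000
set_option maxHeartbeats 400000

noncomputable section

namespace Fermat.Agent.S44.X0.NodeBound

open ModularCurve AlgebraicCurve IsLocalRing IntermediateField
open Fermat.Agent.S36.PowerBasisK0 Fermat.Agent.S36.ThetaK0 Fermat.Agent.S36.LevelQK0
open Fermat.Agent.S34.GaussPairX0 Fermat.Agent.S34.FrobK
open Fermat.Agent.S37.Gauss.Datum Fermat.Agent.S37.Deuring.Core
open Fermat.Agent.S34.Generic.RestrAlong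
open Fermat.Agent.S34.ModularUnit
open Fermat.Agent.S44.X0.NodeRing

local notation "Kb" => AlgebraicClosure ℚ
local notation "GQ" => (AlgebraicClosure ℚ ≃ₐ[ℚ] AlgebraicClosure ℚ)

attribute [local instance 2000] Fermat.Agent.S34.EulerX0.algResFk

local instance instACk5 (A : ValuationSubring Kb) : IsAlgClosed (ResidueField ↥A) :=
  Fermat.Agent.S18.ResidueBasics.isAlgClosed_residueField A

local instance instNeZeroMul5 (M q : ℕ) [NeZero M] [NeZero q] : NeZero (M * q) :=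
  ⟨Nat.mul_ne_zero (NeZero.ne M) (NeZero.ne q)⟩

variable {q : ℕ} [hq : Fact q.Prime] [NeZero q] {M : ℕ} [NeZero M]
variable {A : ValuationSubring Kb} (hA : A.LiesOverPrime q) (hqM : ¬ q ∣ M)

local notation "Iq" => A.inertiaSubgroupIn ℚ

/-! ### the `K0`-form of the full modular unit -/

/-- the `K0`-form of the full modular unit `Δ(z)/Δ(M q z)` of level `M q` -/
def uK (A : ValuationSubring Kb) (M q : ℕ) [NeZero M] [NeZero q] :
    FK (A.inertiaSubgroupIn ℚ) (M * q) :=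
  Fermat.Agent.S36.GaussUniqK0.fromQ A (M * q) (uFull (M * q) (dvd_refl (M * q)))

theorem tB_uK : tB Iq (M * q) (uK A M q) = uBar (M * q) (dvd_refl (M * q)) := by
  rw [uK, Fermat.Agent.S36.GaussUniqK0.tB_fromQ]
  exact Subtype.ext rfl

theorem uK_ne_zero : uK A M q ≠ 0 := by
  intro h
  have h1 := tB_uK (A := A) (M := M) (q := q)
  rw [h, map_zero] at h1
  exact uBar_ne_zero _ _ h1.symm

theorem uK_mem_V1K : uK A M q ∈ V1K Iq hA hqM := by
  rw [ValuationSubring.mem_comap, tB_uK]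
  exact (Fermat.Agent.S44.Eis.UnitVal.uBar_mem_V₁ hA hqM (dvd_refl (M * q))).1

theorem uK_inv_mem_V1K : (uK A M q)⁻¹ ∈ V1K Iq hA hqM := by
  rw [ValuationSubring.mem_comap, map_inv₀, tB_uK]
  exact (Fermat.Agent.S44.Eis.UnitVal.uBar_mem_V₁ hA hqM (dvd_refl (M * q))).2

/-- `uK / q^12` is a unit of the second Gauss ring -/
theorem valuation_V2K_uK_div :
    (V2K Iq hA hqM).valuation (uK A M q / ((q : ℕ) : FK Iq (M * q)) ^ 12) = 1 := by
  have h := Fermat.Agent.S44.Eis.UnitVal.valuation_V₂_uBar_full_div hA hqM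
  have hq0 : ((q : ℕ) : FK Iq (M * q)) ^ 12 ≠ 0 := pow_ne_zero _ natCast_ne_zero_FK
  have e : tB Iq (M * q) (uK A M q / ((q : ℕ) : FK Iq (M * q)) ^ 12) =
      uBar (M * q) (dvd_refl (M * q)) / ((q : ℕ) : ↥(modularFunctionFieldBar (M * q))) ^ 12 := by
    rw [map_div₀, map_pow, map_natCast, tB_uK]
  refine Fermat.Agent.S44.Eis.UnitVal.valuation_eq_one_of_mem _ (div_ne_zero uK_ne_zero hq0) ?_ ?_
  · rw [ValuationSubring.mem_comap, e, ← ValuationSubring.valuation_le_one_iff, h]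
  · rw [ValuationSubring.mem_comap, map_inv₀, e, ← ValuationSubring.valuation_le_one_iff,
      map_inv₀, h, inv_one]

/-- **the second Gauss valuation of the full modular unit is that of `q ^ 12`** -/
theorem valuation_V2K_uK :
    (V2K Iq hA hqM).valuation (uK A M q) =
      (V2K Iq hA hqM).valuation ((q : ℕ) : FK Iq (M * q)) ^ 12 := by
  have hq0 : ((q : ℕ) : FK Iq (M * q)) ^ 12 ≠ 0 := pow_ne_zero _ natCast_ne_zero_FK
  have h := valuation_V2K_uK_div hA hqM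
  rw [map_div₀, map_pow] at h
  have hne : (V2K Iq hA hqM).valuation ((q : ℕ) : FK Iq (M * q)) ^ 12 ≠ 0 := by
    rw [← map_pow]
    exact (Valuation.ne_zero_iff _).mpr hq0
  rw [div_eq_one_iff_eq hne] at h
  exact h

/-- `q` is a non-unit of the second Gauss ring -/
theorem natCast_mem_nonunits_V2K : ((q : ℕ) : FK Iq (M * q)) ∈ (V2K Iq hA hqM).nonunits := by
  have h : ((q : ℕ) : ↥(V2K Iq hA hqM)) ∈ maximalIdeal ↥(V2K Iq hA hqM) := by
    rw [maximalIdeal_V2z_eq hA hqM]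
    exact Ideal.subset_span rfl
  have h2 := ValuationSubring.coe_mem_nonunits_iff.mpr h
  rwa [SubringClass.coe_natCast] at h2

/-! ### the ring `S = V1K ∩ {regular on T}` -/

variable (T : Set (Place Kb ↥(modularFunctionFieldBar (M * q))))

/-- the functions integral for the first Gauss valuation and without pole on `T` -/
def S1 : Subring (FK Iq (M * q)) where
  carrier := {g | g ∈ V1K Iq hA hqM ∧ ∀ P ∈ T, 0 ≤ P.ord (tB Iq (M * q) g)}
  mul_mem' := fun {a b} ha hb => ⟨(V1K Iq hA hqM).mul_mem _ _ ha.1 hb.1, fun P hP => by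
      rw [map_mul]; exact ord_mul_nonneg P (ha.2 P hP) (hb.2 P hP)⟩
  one_mem' := ⟨(V1K Iq hA hqM).one_mem, fun P _ => by rw [map_one, Place.ord_one]⟩
  add_mem' := fun {a b} ha hb => ⟨(V1K Iq hA hqM).add_mem _ _ ha.1 hb.1, fun P hP => by
      rw [map_add]
      exact Fermat.Agent.S18.CoreOrd.ord_add_nonneg P (ha.2 P hP) (hb.2 P hP)⟩
  zero_mem' := ⟨(V1K Iq hA hqM).zero_mem, fun P _ => by rw [map_zero, Place.ord_zero]⟩
  neg_mem' := fun {a} ha => ⟨(V1K Iq hA hqM).neg_mem _ ha.1,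
    fun P hP => by rw [map_neg, Fermat.Agent.S18.CoreOrd.ord_neg']; exact ha.2 P hP⟩

variable {hA hqM T}

theorem mem_S1_iff {g : FK Iq (M * q)} :
    g ∈ S1 hA hqM T ↔ g ∈ V1K Iq hA hqM ∧ ∀ P ∈ T, 0 ≤ P.ord (tB Iq (M * q) g) := Iff.rfl

theorem Oe_le_S1 : Oe hA hqM T ≤ S1 hA hqM T := fun _ hg => ⟨hg.1, hg.2.2⟩

variable {Q1 Q2 : Place (ResidueField A) ↥(modularFunctionFieldFullC (ResidueField A) M)}

variable (hA hqM) in
/-- the functions of `V1K` whose first reduction vanishes at `Q1` -/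
def van1 (Q1 : Place (ResidueField A) ↥(modularFunctionFieldFullC (ResidueField A) M)) :
    Set (FK Iq (M * q)) :=
  {g | ∃ h : g ∈ V1K Iq hA hqM,
    red1K Iq hA hqM ⟨g, h⟩ = 0 ∨ 0 < Q1.ord (red1K Iq hA hqM ⟨g, h⟩)}

/-- **the weak gluing**: a function of `S1` with `V2K < 1` has first reduction vanishing at `Q1` -/
theorem mem_van1_of_glue
    (hG : ∀ f : ↥(Oe hA hqM T), ∃ γ : ResidueField ↥A,
      (rho1 hA hqM T f = algebraMap (ResidueField ↥A) _ γ ∨
        0 < Q1.ord (rho1 hA hqM T f - algebraMap (ResidueField ↥A) _ γ)) ∧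
      (rho2 hA hqM T f = algebraMap (ResidueField ↥A) _ γ ∨
        0 < Q2.ord (rho2 hA hqM T f - algebraMap (ResidueField ↥A) _ γ)))
    (f : FK Iq (M * q)) (hf : f ∈ S1 hA hqM T) (hf2 : f ∈ (V2K Iq hA hqM).nonunits) :
    f ∈ van1 hA hqM Q1 := by
  have hf2' : f ∈ V2K Iq hA hqM := (V2K Iq hA hqM).nonunits_subset hf2
  set fO : ↥(Oe hA hqM T) := ⟨f, hf.1, hf2', hf.2⟩ with hfO
  have hr2 : rho2 hA hqM T fO = 0 := (red2K_eq_zero_iff Iq hA hqM ⟨f, hf2'⟩).mpr hf2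
  obtain ⟨γ, h1, h2⟩ := hG fO
  have hγ : algebraMap (ResidueField ↥A) ↥(modularFunctionFieldFullC (ResidueField ↥A) M) γ = 0 := by
    rcases h2 with h2 | h2
    · rw [← h2, hr2]
    · exfalso
      rw [hr2, zero_sub, Fermat.Agent.S18.CoreOrd.ord_neg',
        Fermat.Agent.S24.Ord.ord_algebraMap] at h2
      exact lt_irrefl _ h2
  rw [hγ, sub_zero] at h1
  exact ⟨hf.1, h1⟩

/-! ### the bound -/

/-- **(hB) with `B = 12`**: the a-priori bound on the thickness of a node of `X₀(M q)`. -/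
theorem not_mem_span_pow
    (hG : ∀ f : ↥(Oe hA hqM T), ∃ γ : ResidueField ↥A,
      (rho1 hA hqM T f = algebraMap (ResidueField ↥A) _ γ ∨
        0 < Q1.ord (rho1 hA hqM T f - algebraMap (ResidueField ↥A) _ γ)) ∧
      (rho2 hA hqM T f = algebraMap (ResidueField ↥A) _ γ ∨
        0 < Q2.ord (rho2 hA hqM T f - algebraMap (ResidueField ↥A) _ γ)))
    {ξ₀ η₀ : ↥(Oe hA hqM T)}
    (hξ₀ : Q1.ord (rho1 hA hqM T ξ₀) = 1) (hη₀ : Q2.ord (rho2 hA hqM T η₀) = 1)
    (hUT : ∀ P ∈ T, P.ord (uBar (M * q) (dvd_refl (M * q))) = 0) :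
    ∀ ξ η : ↥(Oe hA hqM T),
      ξ - ξ₀ ∈ Ideal.span {((q : ℕ) : ↥(Oe hA hqM T))} →
      η - η₀ ∈ Ideal.span {((q : ℕ) : ↥(Oe hA hqM T))} →
      ξ * η ∉ Ideal.span {((q : ℕ) : ↥(Oe hA hqM T))} ^ (12 + 1) := by
  haveI : CharP (ResidueField ↥A) q := Fermat.Agent.S18.ResidueBasics.charP_residueField A hA
  -- the uniformiser
  have hϖcoe : (((q : ℕ) : ↥(Oe hA hqM T)) : FK Iq (M * q)) = ((q : ℕ) : FK Iq (M * q)) :=
    SubringClass.coe_natCast _ _
  have hϖ : (((q : ℕ) : ↥(Oe hA hqM T)) : FK Iq (M * q)) ∈ (V2K Iq hA hqM).nonunits := by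
    rw [hϖcoe]; exact natCast_mem_nonunits_V2K hA hqM
  have hϖ0 : (((q : ℕ) : ↥(Oe hA hqM T)) : FK Iq (M * q)) ≠ 0 := by
    rw [hϖcoe]; exact natCast_ne_zero_FK
  have hϖ1 : (V2K Iq hA hqM).valuation ((q : ℕ) : FK Iq (M * q)) < 1 :=
    (ValuationSubring.mem_nonunits_iff _).mp (natCast_mem_nonunits_V2K hA hqM)
  -- `V2K η₀ = 1`
  have hη₀v : (V2K Iq hA hqM).valuation ((η₀ : ↥(Oe hA hqM T)) : FK Iq (M * q)) = 1 := by
    have hne : rho2 hA hqM T η₀ ≠ 0 := by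
      intro h0
      rw [h0, Place.ord_zero] at hη₀
      exact zero_ne_one hη₀
    have hn2 : (η₀ : FK Iq (M * q)) ∉ (V2K Iq hA hqM).nonunits := fun hmem =>
      hne ((red2K_eq_zero_iff Iq hA hqM ⟨(η₀ : FK Iq (M * q)), η₀.2.2.1⟩).mpr hmem)
    exact le_antisymm (((V2K Iq hA hqM).valuation_le_one_iff _).mpr η₀.2.2.1)
      (not_lt.mp fun h => hn2 ((V2K Iq hA hqM).mem_nonunits_iff.mpr h))
  -- the unit
  have hu1 : uK A M q ∈ V1K Iq hA hqM := uK_mem_V1K hA hqM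
  have hu1' : (uK A M q)⁻¹ ∈ V1K Iq hA hqM := uK_inv_mem_V1K hA hqM
  have hu2 : (V2K Iq hA hqM).valuation (uK A M q) =
      (V2K Iq hA hqM).valuation ((q : ℕ) : FK Iq (M * q)) ^ 12 := valuation_V2K_uK hA hqM
  have hu2lt : (V2K Iq hA hqM).valuation (uK A M q) < 1 := by
    rw [hu2]; exact pow_lt_one' hϖ1 (by norm_num)
  have hu2n : uK A M q ∈ (V2K Iq hA hqM).nonunits :=
    (ValuationSubring.mem_nonunits_iff _).mpr hu2lt
  have huS : uK A M q ∈ S1 hA hqM T := ⟨hu1, fun P hP => by rw [tB_uK, hUT P hP]⟩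
  have huS' : (uK A M q)⁻¹ ∈ S1 hA hqM T := ⟨hu1', fun P hP => by
    rw [map_inv₀, tB_uK, P.ord_inv, hUT P hP, neg_zero]⟩
  -- the first reduction of the unit
  set ū := red1K Iq hA hqM ⟨uK A M q, hu1⟩ with hū
  have hū0 : ū ≠ 0 := by
    intro h0
    have hmem := (red1K_eq_zero_iff Iq hA hqM ⟨uK A M q, hu1⟩).mp h0
    have hv : (V1K Iq hA hqM).valuation (uK A M q) = 1 :=
      Fermat.Agent.S44.Eis.UnitVal.valuation_eq_one_of_mem _ uK_ne_zero hu1 hu1'
    have hlt := (ValuationSubring.mem_nonunits_iff _).mp hmem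
    rw [hv] at hlt
    exact lt_irrefl _ hlt
  have hūpos : 0 < Q1.ord ū := by
    obtain ⟨h, hh⟩ := mem_van1_of_glue (Q1 := Q1) (Q2 := Q2) hG (uK A M q) huS hu2n
    rcases hh with hh | hh
    · exact absurd hh hū0
    · exact hh
  obtain ⟨a, ha⟩ : ∃ a : ℕ, Q1.ord ū = (a : ℤ) := ⟨(Q1.ord ū).toNat, by omega⟩
  have ha1 : 1 ≤ a := by omega
  -- `rho1 ξ₀ ≠ 0`
  have hx0 : rho1 hA hqM T ξ₀ ≠ 0 := by
    intro h0
    rw [h0, Place.ord_zero] at hξ₀
    exact zero_ne_one hξ₀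
  -- `rho1 q = 0`
  have hρq : rho1 hA hqM T ((q : ℕ) : ↥(Oe hA hqM T)) = 0 := by
    rw [map_natCast, ← map_natCast (algebraMap (ResidueField ↥A)
      ↥(modularFunctionFieldFullC (ResidueField ↥A) M)), CharP.cast_eq_zero, map_zero]
  -- the slope condition
  have hq' : ∀ ξ : ↥(Oe hA hqM T), ξ - ξ₀ ∈ Ideal.span {((q : ℕ) : ↥(Oe hA hqM T))} →
      (ξ : FK Iq (M * q)) ^ a / uK A M q ∉ van1 hA hqM Q1 := by
    intro ξ hξ
    rintro ⟨h, hh⟩
    obtain ⟨c, hc⟩ := Ideal.mem_span_singleton'.mp hξ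
    have hρξ : rho1 hA hqM T ξ = rho1 hA hqM T ξ₀ := by
      have h1 : rho1 hA hqM T (ξ - ξ₀) = 0 := by rw [← hc, map_mul, hρq, mul_zero]
      rw [map_sub] at h1
      exact sub_eq_zero.mp h1
    set φ := red1K Iq hA hqM ⟨(ξ : FK Iq (M * q)) ^ a / uK A M q, h⟩ with hφ
    have hmul : φ * ū = rho1 hA hqM T ξ₀ ^ a := by
      rw [← hρξ, hφ, hū, ← map_mul, ← map_pow]
      show red1K Iq hA hqM _ = red1K Iq hA hqM (incl1 hA hqM T (ξ ^ a))
      congr 1
      exact Subtype.ext (div_mul_cancel₀ _ uK_ne_zero)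
    have hpow0 : rho1 hA hqM T ξ₀ ^ a ≠ 0 := pow_ne_zero _ hx0
    have hφ0 : φ ≠ 0 := by
      intro h0
      rw [h0, zero_mul] at hmul
      exact hpow0 hmul.symm
    have hord : Q1.ord φ + Q1.ord ū = (a : ℤ) * 1 := by
      rw [← Q1.ord_mul hφ0 hū0, hmul, Fermat.Agent.S18.CoreOrd.ord_pow, hξ₀]
    rcases hh with hh | hh
    · exact hφ0 hh
    · rw [ha] at hord
      omega
  have hR2 : ∀ f ∈ Oe hA hqM T, f ∈ V2K Iq hA hqM := fun f hf => hf.2.1
  have hG' : ∀ f ∈ S1 hA hqM T, f ∈ (V2K Iq hA hqM).nonunits → f ∈ van1 hA hqM Q1 :=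
    fun f hf hf2 => mem_van1_of_glue (Q1 := Q1) (Q2 := Q2) hG f hf hf2
  have hu2' : (V2K Iq hA hqM).valuation (uK A M q) =
      (V2K Iq hA hqM).valuation (((q : ℕ) : ↥(Oe hA hqM T)) : FK Iq (M * q)) ^ 12 := by
    rw [hϖcoe]; exact hu2
  intro ξ η hξ hη
  have key := Fermat.Agent.S44.Core.NewtonNode.not_mem_span_pow_of_slope_unit (V2K Iq hA hqM)
    (S1 hA hqM T) (van1 hA hqM Q1) (Oe hA hqM T) Oe_le_S1 hR2 hG'
    (ϖ := ((q : ℕ) : ↥(Oe hA hqM T))) (ξ₀ := ξ₀) (η₀ := η₀) hϖ hϖ0 hη₀v (u := uK A M q) huS'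
    (m := 12) (a := a) ha1 hu2' hq' ξ η hξ hη
  -- the two spellings of the ideal power differ by the path of an instance: compare elementwise
  rw [Ideal.span_singleton_pow, Ideal.mem_span_singleton'] at key ⊢
  rintro ⟨r, hr⟩
  exact key ⟨r, hr⟩

end Fermat.Agent.S44.X0.NodeBound

end
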