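/-
PROJECT P (S44), THE `y`-PRODUCER (helper24): for every place `Q` of the component which is not a
node place, a function `y ∈ O₁ ∩ O₂` of `E = ℚ̄(X₀(M p))` with `red₁ y` regular and NON-ZERO at `Q`,
`red₂ y = 0`, and without pole over `Q` (`exists_y_1`); the twin with the two components exchanged
(`exists_y_2`).  These are the inputs `y` of `Fin/PoleUnitX0.ord_red₁_eq_zero / ord_red₂_eq_zero`
(helper16), i.e. of the clauses (h3), (h4) of EIS and of `Fin/Hnn` at the places which are not nodes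
(cusp places of the component included).

Proof: a function `φ` of the component with simple values `0` at the bad places (node places
included) and `1` at `Q` (`Core/SimpleValues`), its polar divisor `D`, the glued pair `(φ, 0)`
(resp. `(0, φ)`) and its lift by the squeeze (`X0/LiftGluedInst.exists_lift_glued`); the poles of
the lift lie in good discs over `supp D` and over the rigid points, all chosen off `Q`.

* `exists_polar_div` : the polar divisor of a non-zero function (one field);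
* `push1_ne_zero`, `push2_ne_zero` : a point of an effective divisor in a good disc is seen by the
  push-forward;
* `exists_y_1`, `exists_y_2`.
-/
import Fermat.Agent.S44.X0.LiftGluedInst
import Fermat.Agent.S44.Core.SimpleValues
import Fermat.Agent.S44.Core.FrameHyp

set_option autoImplicit false
set_option linter.unusedSectionVars false
set_option linter.unusedVariables false
set_option linter.style.haveILetI false
set_option synthInstance.maxHeartbeats 400000

noncomputable section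

namespace Fermat.Agent.S44.X0.SepY

open ModularCurve AlgebraicCurve IsLocalRing
open Fermat.Agent.S34.NodalDefs Fermat.Agent.S34.NodalDisc Fermat.Agent.S34.CoreZX0Datum
open Fermat.Agent.S33.Nodal.Glued Fermat.Agent.S33.Nodal.SemiCont Fermat.Agent.S33.Nodal.Rigid3
open Fermat.Agent.S33.X0.Frame Fermat.Agent.S33.X0.ChartX0
open Fermat.Agent.S44.Core.FrameHyp Fermat.Agent.S44.Core.SimpleValues
open Fermat.Agent.S34.NodalCore (sum_single_nonneg' sum_single_apply_of_notMem')

/-! ### one field -/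

section OneField

variable {K F : Type*} [Field K] [Field F] [Algebra K F]

/-- **the polar divisor** of a non-zero function -/
theorem exists_polar_div [HasPrincipalDivisors K F] {φ : F} (hφ : φ ≠ 0) :
    ∃ D : Divisor K F, 0 ≤ D ∧ φ ∈ riemannRochSpace D ∧ ∀ Q : Place K F, D Q ≠ 0 → Q.ord φ < 0 := by
  obtain ⟨Dφ, hDφ, -⟩ := HasPrincipalDivisors.exists_divisor (K := K) φ hφ
  refine ⟨Dφ.mapRange (fun n : ℤ => max 0 (-n)) (by rw [neg_zero, max_self]), ?_, ?_, ?_⟩
  · rw [Finsupp.le_def]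
    intro Q
    rw [Finsupp.mapRange_apply, Finsupp.zero_apply]
    exact le_max_left _ _
  · rw [mem_riemannRochSpace_iff]
    intro Q
    right
    rw [Finsupp.mapRange_apply, hDφ Q]
    have := le_max_right (0 : ℤ) (-Q.ord φ)
    omega
  · intro Q hQ
    rw [Finsupp.mapRange_apply, hDφ Q] at hQ
    by_contra hcon
    rw [not_lt] at hcon
    exact hQ (max_eq_left (by omega))

/-- a function with simple value `1` at `Q` and simple value `0` at the other places of a finite
set `B`, together with its polar divisor -/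
theorem exists_phi [HasPrincipalDivisors K F] (B : Set (Place K F)) (hB : B.Finite)
    (Q : Place K F) :
    ∃ (φ : F) (D : Divisor K F),
      φ ≠ 0 ∧ Q.ord φ = 0 ∧ 0 ≤ D ∧ φ ∈ riemannRochSpace D ∧ D Q = 0 ∧
      (∀ Q', D Q' ≠ 0 → Q' ∉ B) ∧
      ∀ Q' ∈ B, Q' ≠ Q → 0 < Q'.ord (φ - algebraMap K F 0) := by
  classical
  obtain ⟨φ, hφ⟩ := exists_simple_values (hB.toFinset ∪ {Q})
    (fun Q' => if Q' = Q then (1 : K) else 0)
  have hQS : Q ∈ hB.toFinset ∪ {Q} := Finset.mem_union_right _ (Finset.mem_singleton_self Q)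
  have hφQ : Q.ord (φ - algebraMap K F 1) = 1 := by
    have h := hφ Q hQS
    rwa [if_pos rfl] at h
  have hφB : ∀ Q' ∈ B, Q' ≠ Q → Q'.ord (φ - algebraMap K F 0) = 1 := by
    intro Q' hQ' hne
    have h := hφ Q' (Finset.mem_union_left _ (hB.mem_toFinset.mpr hQ'))
    rwa [if_neg hne] at h
  have hφ0 : φ ≠ 0 := by
    intro h0
    have h1 : φ - algebraMap K F 1 = algebraMap K F (-1) := by
      rw [h0, zero_sub, map_neg]
    rw [h1, Fermat.Agent.S24.Ord.ord_algebraMap] at hφQ
    exact zero_ne_one hφQ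
  have hordQ : Q.ord φ = 0 := by
    have h := ord_sub_eq_zero_of_ne Q hφQ (zero_ne_one (α := K))
    rwa [map_zero, sub_zero] at h
  have hreg : ∀ Q' ∈ hB.toFinset ∪ {Q}, 0 ≤ Q'.ord φ := by
    intro Q' hQ'
    have h := mem_of_ord_sub_eq_one Q' (hφ Q' hQ')
    exact (Fermat.Agent.S19.MovingLemma.mem_iff_ord_nonneg Q' hφ0).mp h
  obtain ⟨D, hD0, hφD, hDpole⟩ := exists_polar_div (K := K) hφ0
  refine ⟨φ, D, hφ0, hordQ, hD0, hφD, ?_, ?_, ?_⟩
  · by_contra h
    have := hDpole Q h
    omega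
  · intro Q' hQ' hmem
    have h1 := hDpole Q' hQ'
    have h2 := hreg Q' (Finset.mem_union_left _ (hB.mem_toFinset.mpr hmem))
    omega
  · intro Q' hQ' hne
    rw [hφB Q' hQ' hne]
    exact one_pos

end OneField

/-! ### push-forwards see the points of an effective divisor -/

section Push

variable {L : Type*} [Field L] {FL : Type*} [Field FL] [Algebra L FL]
variable {k : Type*} [Field k] {F1 : Type*} [Field F1] [Algebra k F1]
  {F2 : Type*} [Field F2] [Algebra k F2]
variable {A : ValuationSubring L} {π : A →+* k} {ι : Type*}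
variable (N : GNodalDatum A π FL F1 F2 ι)

theorem push1_ne_zero {E : Divisor L FL} (hE : 0 ≤ E) {P : Place L FL} (hP : E P ≠ 0)
    {Q : Place k F1} (hr : N.R1.r P = some Q) : push1 N E Q ≠ 0 := by
  have h0 : ∀ P', 0 ≤ E P' := fun P' => Finsupp.le_def.mp hE P'
  have h1 := Fermat.Agent.S18.CoreOrd.le_mapDomain N.R1.r E (some Q) (fun P' _ => h0 P') P hr
  rw [push1_apply]
  have h2 := h0 P
  omega

theorem push2_ne_zero {E : Divisor L FL} (hE : 0 ≤ E) {P : Place L FL} (hP : E P ≠ 0)
    {Q : Place k F2} (hr : N.R2.r P = some Q) : push2 N E Q ≠ 0 := by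
  have h0 : ∀ P', 0 ≤ E P' := fun P' => Finsupp.le_def.mp hE P'
  have h1 := Fermat.Agent.S18.CoreOrd.le_mapDomain N.R2.r E (some Q) (fun P' _ => h0 P') P hr
  rw [push2_apply]
  have h2 := h0 P
  omega

end Push

/-! ### the chart frame -/

local notation "Kb" => AlgebraicClosure ℚ

variable {p : ℕ} [hp : Fact p.Prime] {M : ℕ} [NeZero M] {A : ValuationSubring Kb} [NeZero p]
variable {hA : A.LiesOverPrime p} {hpM : ¬ p ∣ M}

/-- local instance: principal divisors on `E` -/
local instance instPDBar (N : ℕ) [NeZero N] :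
    HasPrincipalDivisors Kb ↥(modularFunctionFieldBar N) :=
  Fermat.Agent.S18.A.Instances.hasPrincipalDivisors_bar N

/-- local instance: principal divisors on the component -/
local instance instPDFk (A : ValuationSubring Kb) (N : ℕ) [NeZero N] :
    HasPrincipalDivisors (ResidueField ↥A) ↥(modularFunctionFieldFullC (ResidueField ↥A) N) :=
  Fermat.Agent.S37.ReductionInputs.hasPrincipalDivisors_Fk A N

local instance instNeZeroMul : NeZero (M * p) :=
  ⟨Nat.mul_ne_zero (NeZero.ne M) (NeZero.ne p)⟩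

variable {F : ChartFrame hA hpM}

set_option maxHeartbeats 1600000 in
include hA in
/-- **the `y`-producer, first component**: for a place `Q` which is not a node place of the first
component, a function `y ∈ O₁ ∩ O₂` with `red₁ y` of order `0` at `Q`, `red₂ y = 0`, and without
pole over `Q`. -/
theorem exists_y_1 (Y : NodeHyp F)
    (Q : Place (ResidueField ↥A) ↥(modularFunctionFieldFullC (ResidueField ↥A) M))
    (hQ : ∀ e, Q ≠ F.X.N.e1 e) :
    ∃ y : ↥(modularFunctionFieldBar (M * p)),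
      (∃ h : y ∈ F.X.N.R1.O, Q.ord (F.X.N.R1.red ⟨y, h⟩) = 0 ∧ F.X.N.R1.red ⟨y, h⟩ ≠ 0) ∧
      y ∈ F.X.N.R2.O.nonunits ∧
      ∀ P : Place Kb ↥(modularFunctionFieldBar (M * p)), Y.sp1 P = Q → 0 ≤ P.ord y := by
  classical
  obtain ⟨φ, D, hφ0, hordQ, hD0, hφD, hDQ, hDB, hφB⟩ := exists_phi F.Bad1 F.finite_Bad1 Q
  obtain ⟨d, hd1, hd2⟩ := F.exists_chartPts {Q} {Y.Fr.symm Q} (Set.finite_singleton _)
    (Set.finite_singleton _)
  have hsum1 : (0 : Divisor (ResidueField ↥A) ↥(modularFunctionFieldFullC (ResidueField ↥A) M)) ≤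
      ∑ i, Finsupp.single (d.Q1 i) (1 : ℤ) := by
    rw [Finsupp.le_def]
    intro v
    exact sum_single_nonneg' d.Q1 v
  have hy : ((φ, 0) : ↥(modularFunctionFieldFullC (ResidueField ↥A) M) ×
      ↥(modularFunctionFieldFullC (ResidueField ↥A) M)) ∈
      Glued F.X.N ((∑ i, Finsupp.single (d.Q1 i) (1 : ℤ)) + D)
        ((∑ j, Finsupp.single (d.Q2 j) (1 : ℤ)) + 0) := by
    refine ⟨?_, Submodule.zero_mem _, fun e => ⟨0, Or.inr ?_, hasValue_zero_zero _⟩⟩
    · exact Fermat.Agent.S18.NonSpecial.riemannRochSpace_mono (le_add_of_nonneg_left hsum1) hφD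
    · exact hφB _ (Or.inr (F.X.N.e1_not_good e)) (fun h => hQ e h.symm)
  obtain ⟨E, u, hg, hn, -, hp1, hp2, hu, hred⟩ :=
    Fermat.Agent.S44.X0.LiftGluedInst.exists_lift_glued F d D 0 hD0 le_rfl hDB
      (fun Q' h => absurd rfl h) hy
  have hu12 := (mem_O12 F.X.N).mp u.2
  have hr1 : F.X.N.R1.red ⟨((u : O12 F.X.N) : ↥(modularFunctionFieldBar (M * p))), hu12.1⟩ = φ :=
    congrArg Prod.fst hred
  have hr2 : F.X.N.R2.red ⟨((u : O12 F.X.N) : ↥(modularFunctionFieldBar (M * p))), hu12.2⟩ = 0 :=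
    congrArg Prod.snd hred
  refine ⟨((u : O12 F.X.N) : ↥(modularFunctionFieldBar (M * p))), ⟨hu12.1, ?_, ?_⟩, ?_, ?_⟩
  · rw [hr1]
    exact hordQ
  · rw [hr1]
    exact hφ0
  · have h1 := (F.X.N.R2.red_eq_zero_iff _).mp hr2
    have h2 : ((⟨((u : O12 F.X.N) : ↥(modularFunctionFieldBar (M * p))), hu12.2⟩ : F.X.N.R2.O) :
        ↥(modularFunctionFieldBar (M * p))) ∈ F.X.N.R2.O.nonunits :=
      ValuationSubring.coe_mem_nonunits_iff.mpr h1
    exact h2
  · intro P hP
    by_contra hcon
    rw [not_le] at hcon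
    have hu0 : ((u : O12 F.X.N) : ↥(modularFunctionFieldBar (M * p))) ≠ 0 := by
      intro h0
      rw [h0, Place.ord_zero] at hcon
      exact lt_irrefl _ hcon
    have h1 := ((mem_riemannRochSpace_iff.mp hu) P).resolve_left hu0
    have hEP : E P ≠ 0 := by omega
    rcases hg P hEP with ⟨Q', -, hr⟩ | ⟨Q', -, hr⟩
    · have hQ' : Q' = Q := by
        rw [← hP]
        exact ((Y.r1_iff P Q').mp hr).2.1.symm
      have h2 := push1_ne_zero F.X.N hn hEP hr
      rw [hp1, hQ', Finsupp.add_apply, hDQ, add_zero,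
        sum_single_apply_of_notMem' d.Q1 Q (fun i h => hd1 i (by rw [h]; exact rfl))] at h2
      exact h2 rfl
    · have hQ' : Q' = Y.Fr.symm Q := by
        rw [← hP, ((Y.r2_iff P Q').mp hr).2.2, Equiv.symm_apply_apply]
      have h2 := push2_ne_zero F.X.N hn hEP hr
      rw [hp2, hQ', add_zero,
        sum_single_apply_of_notMem' d.Q2 (Y.Fr.symm Q) (fun j h => hd2 j (by rw [h]; exact rfl))]
        at h2
      exact h2 rfl

set_option maxHeartbeats 1600000 in
include hA in
/-- **the `y`-producer, second component**: for a place `Q` which is not a node place of the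
second component, a function `y ∈ O₁ ∩ O₂` with `red₂ y` of order `0` at `Q`, `red₁ y = 0`, and
without pole over `Q` (for `sp2`). -/
theorem exists_y_2 (Y : NodeHyp F)
    (Q : Place (ResidueField ↥A) ↥(modularFunctionFieldFullC (ResidueField ↥A) M))
    (hQ : ∀ e, Q ≠ F.X.N.e2 e) :
    ∃ y : ↥(modularFunctionFieldBar (M * p)),
      (∃ h : y ∈ F.X.N.R2.O, Q.ord (F.X.N.R2.red ⟨y, h⟩) = 0 ∧ F.X.N.R2.red ⟨y, h⟩ ≠ 0) ∧
      y ∈ F.X.N.R1.O.nonunits ∧
      ∀ P : Place Kb ↥(modularFunctionFieldBar (M * p)), Y.sp2 P = Q → 0 ≤ P.ord y := by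
  classical
  obtain ⟨φ, D, hφ0, hordQ, hD0, hφD, hDQ, hDB, hφB⟩ := exists_phi F.Bad2 F.finite_Bad2 Q
  obtain ⟨d, hd1, hd2⟩ := F.exists_chartPts {Y.Fr.symm Q} {Q} (Set.finite_singleton _)
    (Set.finite_singleton _)
  have hsum2 : (0 : Divisor (ResidueField ↥A) ↥(modularFunctionFieldFullC (ResidueField ↥A) M)) ≤
      ∑ j, Finsupp.single (d.Q2 j) (1 : ℤ) := by
    rw [Finsupp.le_def]
    intro v
    exact sum_single_nonneg' d.Q2 v
  have hy : ((0, φ) : ↥(modularFunctionFieldFullC (ResidueField ↥A) M) ×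
      ↥(modularFunctionFieldFullC (ResidueField ↥A) M)) ∈
      Glued F.X.N ((∑ i, Finsupp.single (d.Q1 i) (1 : ℤ)) + 0)
        ((∑ j, Finsupp.single (d.Q2 j) (1 : ℤ)) + D) := by
    refine ⟨Submodule.zero_mem _, ?_, fun e => ⟨0, hasValue_zero_zero _, Or.inr ?_⟩⟩
    · exact Fermat.Agent.S18.NonSpecial.riemannRochSpace_mono (le_add_of_nonneg_left hsum2) hφD
    · exact hφB _ (Or.inr (F.X.N.e2_not_good e)) (fun h => hQ e h.symm)
  obtain ⟨E, u, hg, hn, -, hp1, hp2, hu, hred⟩ :=
    Fermat.Agent.S44.X0.LiftGluedInst.exists_lift_glued F d 0 D le_rfl hD0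
      (fun Q' h => absurd rfl h) hDB hy
  have hu12 := (mem_O12 F.X.N).mp u.2
  have hr1 : F.X.N.R1.red ⟨((u : O12 F.X.N) : ↥(modularFunctionFieldBar (M * p))), hu12.1⟩ = 0 :=
    congrArg Prod.fst hred
  have hr2 : F.X.N.R2.red ⟨((u : O12 F.X.N) : ↥(modularFunctionFieldBar (M * p))), hu12.2⟩ = φ :=
    congrArg Prod.snd hred
  refine ⟨((u : O12 F.X.N) : ↥(modularFunctionFieldBar (M * p))), ⟨hu12.2, ?_, ?_⟩, ?_, ?_⟩
  · rw [hr2]
    exact hordQ
  · rw [hr2]
    exact hφ0
  · have h1 := (F.X.N.R1.red_eq_zero_iff _).mp hr1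
    have h2 : ((⟨((u : O12 F.X.N) : ↥(modularFunctionFieldBar (M * p))), hu12.1⟩ : F.X.N.R1.O) :
        ↥(modularFunctionFieldBar (M * p))) ∈ F.X.N.R1.O.nonunits :=
      ValuationSubring.coe_mem_nonunits_iff.mpr h1
    exact h2
  · intro P hP
    by_contra hcon
    rw [not_le] at hcon
    have hu0 : ((u : O12 F.X.N) : ↥(modularFunctionFieldBar (M * p))) ≠ 0 := by
      intro h0
      rw [h0, Place.ord_zero] at hcon
      exact lt_irrefl _ hcon
    have h1 := ((mem_riemannRochSpace_iff.mp hu) P).resolve_left hu0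
    have hEP : E P ≠ 0 := by omega
    rcases hg P hEP with ⟨Q', -, hr⟩ | ⟨Q', -, hr⟩
    · have hQ' : Q' = Y.Fr.symm Q := by
        rw [← hP, ((Y.r1_iff P Q').mp hr).2.2, Equiv.symm_apply_apply]
      have h2 := push1_ne_zero F.X.N hn hEP hr
      rw [hp1, hQ', add_zero,
        sum_single_apply_of_notMem' d.Q1 (Y.Fr.symm Q) (fun i h => hd1 i (by rw [h]; exact rfl))]
        at h2
      exact h2 rfl
    · have hQ' : Q' = Q := by
        rw [← hP]
        exact ((Y.r2_iff P Q').mp hr).2.1.symm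
      have h2 := push2_ne_zero F.X.N hn hEP hr
      rw [hp2, hQ', Finsupp.add_apply, hDQ, add_zero,
        sum_single_apply_of_notMem' d.Q2 Q (fun j h => hd2 j (by rw [h]; exact rfl))] at h2
      exact h2 rfl

end Fermat.Agent.S44.X0.SepY
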